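import Fermat.Agent.SS.G2.Defs

/-!
# SS / G2 : basic properties of the twisted lattice `I_m(W) = {y : y^m W ∈ M}`

TASKS `SS/G2-Twist-a` (section `Basic`), `SS/G2-Twist-b` (section `Gauss`).

Key trick (`IsTw.add`): choose `w` in `AlgebraicClosure F` with `w ^ m = W`
(`IsAlgClosed.exists_pow_nat_eq`).  Then `IsTw m W y ↔ IsIntegral A[X] (algebraMap y * w)`
(`IsIntegral.of_pow`, `IsIntegral.pow`, `isIntegral_algebraMap_iff`), and the right hand side is
visibly additive.
-/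

set_option autoImplicit false

open Polynomial

namespace Fermat.Agent.SS.G2

open Fermat.Agent.Crux.G

section Basic

variable {A : Type*} [CommRing A]
variable {F : Type*} [Field F] [Algebra A[X] F]
variable {m : ℕ} {W W' y z : F}

theorem isTw_zero (hm : 0 < m) : IsTw (A := A) m W 0 := by
  unfold IsTw
  rw [zero_pow hm.ne', zero_mul]
  exact isIntegral_zero

/-- `y ∈ I_m(W)` iff `y w` is integral, `w ^ m = W` in an algebraic closure. -/
theorem isTw_iff_isIntegral_mul_root (hm : 0 < m) {w : AlgebraicClosure F}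
    (hw : w ^ m = algebraMap F (AlgebraicClosure F) W) :
    IsTw (A := A) m W y ↔ IsIntegral A[X] (algebraMap F (AlgebraicClosure F) y * w) := by
  have e : (algebraMap F (AlgebraicClosure F) y * w) ^ m =
      algebraMap F (AlgebraicClosure F) (y ^ m * W) := by
    rw [mul_pow, hw, map_mul, map_pow]
  unfold IsTw
  constructor
  · intro h
    apply IsIntegral.of_pow hm
    rw [e]
    exact (isIntegral_algebraMap_iff (algebraMap F (AlgebraicClosure F)).injective).2 h
  · intro h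
    have h' := h.pow m
    rw [e] at h'
    exact (isIntegral_algebraMap_iff (algebraMap F (AlgebraicClosure F)).injective).1 h'

theorem IsTw.add (hm : 0 < m) (hy : IsTw (A := A) m W y) (hz : IsTw (A := A) m W z) :
    IsTw (A := A) m W (y + z) := by
  obtain ⟨w, hw⟩ := IsAlgClosed.exists_pow_nat_eq (algebraMap F (AlgebraicClosure F) W) hm
  rw [isTw_iff_isIntegral_mul_root hm hw] at hy hz ⊢
  rw [map_add, add_mul]
  exact hy.add hz

theorem IsTw.mul_int (hy : IsTw (A := A) m W y) {c : F} (hc : IsIntegral A[X] c) :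
    IsTw (A := A) m W (c * y) := by
  unfold IsTw at hy ⊢
  rw [mul_pow, mul_assoc]
  exact (hc.pow m).mul hy

theorem IsTw.smul (hy : IsTw (A := A) m W y) (r : A[X]) : IsTw (A := A) m W (r • y) := by
  rw [Algebra.smul_def]
  exact hy.mul_int isIntegral_algebraMap

theorem IsTw.neg (hy : IsTw (A := A) m W y) : IsTw (A := A) m W (-y) := by
  rw [← neg_one_mul]
  exact hy.mul_int isIntegral_one.neg

theorem IsTw.sum (hm : 0 < m) {ι : Type*} (s : Finset ι) (f : ι → F)
    (h : ∀ i ∈ s, IsTw (A := A) m W (f i)) : IsTw (A := A) m W (∑ i ∈ s, f i) :=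
  Finset.sum_induction f (IsTw (A := A) m W) (fun _ _ ha hb => ha.add hm hb) (isTw_zero hm) h

/-- `I_m(W)` as a submodule. -/
def twSub (A : Type*) [CommRing A] {F : Type*} [Field F] [Algebra A[X] F] {m : ℕ} (hm : 0 < m)
    (W : F) : Submodule A[X] F where
  carrier := {y | IsTw (A := A) m W y}
  add_mem' := fun ha hb => IsTw.add hm ha hb
  zero_mem' := isTw_zero hm
  smul_mem' := fun r _ hy => IsTw.smul hy r

theorem mem_twSub (hm : 0 < m) : y ∈ twSub A hm W ↔ IsTw (A := A) m W y := Iff.rfl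

theorem IsTw.mul (hy : IsTw (A := A) m W y) (hz : IsTw (A := A) m W' z) :
    IsTw (A := A) m (W * W') (y * z) := by
  unfold IsTw at hy hz ⊢
  have e : (y * z) ^ m * (W * W') = (y ^ m * W) * (z ^ m * W') := by
    rw [mul_pow]; ring
  rw [e]
  exact hy.mul hz

theorem IsTw.pow (hy : IsTw (A := A) m W y) (e : ℕ) : IsTw (A := A) m (W ^ e) (y ^ e) := by
  unfold IsTw at hy ⊢
  have h : (y ^ e) ^ m * W ^ e = (y ^ m * W) ^ e := by
    rw [mul_pow, ← pow_mul, ← pow_mul, mul_comm e m]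
  rw [h]
  exact IsIntegral.pow hy e

theorem isTw_one_iff (hm : 0 < m) : IsTw (A := A) m 1 y ↔ IsIntegral A[X] y := by
  unfold IsTw
  rw [mul_one]
  exact ⟨fun h => IsIntegral.of_pow hm h, fun h => h.pow m⟩

/-- `I(W) I(W⁻¹) ⊆ M`. -/
theorem IsTw.isIntegral_mul (hm : 0 < m) (hW : W ≠ 0) (hy : IsTw (A := A) m W y)
    (hz : IsTw (A := A) m W⁻¹ z) : IsIntegral A[X] (y * z) := by
  have h := hy.mul hz
  rw [mul_inv_cancel₀ hW] at h
  exact (isTw_one_iff hm).1 h

/-! `InvK` is multiplicative. -/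

variable {π : A}

/-- `B_K` is closed under products (no domain hypothesis). -/
theorem isBK_mul_aux {u v : F} (hu : IsBK π u) (hv : IsBK π v) : IsBK π (u * v) := by
  obtain ⟨j, h1⟩ := hu
  obtain ⟨k, h2⟩ := hv
  refine ⟨j + k, ?_⟩
  rw [pow_add, ← smul_mul_smul_comm]
  exact h1.mul h2

/-- `InvK` from a family indexed by an arbitrary finite type. -/
theorem InvK.of_fintype {ι : Type*} [Fintype ι] (a b : ι → F) (ha : ∀ i, IsBK π (a i ^ m * W))
    (hb : ∀ i, IsBK π (b i ^ m * W⁻¹)) (hab : ∑ i, a i * b i = 1) : InvK π m W := by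
  refine ⟨Fintype.card ι, a ∘ (Fintype.equivFin ι).symm, b ∘ (Fintype.equivFin ι).symm,
    fun i => ha _, fun i => hb _, ?_⟩
  rw [← hab]
  exact Equiv.sum_comp (Fintype.equivFin ι).symm (fun i => a i * b i)

theorem invK_one : InvK π m (1 : F) := by
  refine ⟨1, fun _ => 1, fun _ => 1, fun _ => ?_, fun _ => ?_, by simp⟩
  · refine ⟨0, ?_⟩
    rw [pow_zero, one_smul, one_pow, mul_one]
    exact isIntegral_one
  · refine ⟨0, ?_⟩
    rw [pow_zero, one_smul, one_pow, inv_one, mul_one]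
    exact isIntegral_one

theorem InvK.inv (h : InvK π m W) : InvK π m W⁻¹ := by
  obtain ⟨r, a, b, ha, hb, hab⟩ := h
  refine ⟨r, b, a, hb, fun i => by rw [inv_inv]; exact ha i, ?_⟩
  rw [← hab]
  exact Finset.sum_congr rfl fun i _ => mul_comm _ _

theorem InvK.mul (h : InvK π m W) (h' : InvK π m W') : InvK π m (W * W') := by
  obtain ⟨r, a, b, ha, hb, hab⟩ := h
  obtain ⟨r', a', b', ha', hb', hab'⟩ := h'
  refine InvK.of_fintype (ι := Fin r × Fin r') (fun x => a x.1 * a' x.2) (fun x => b x.1 * b' x.2)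
    (fun x => ?_) (fun x => ?_) ?_
  · have e : (a x.1 * a' x.2) ^ m * (W * W') = (a x.1 ^ m * W) * (a' x.2 ^ m * W') := by
      rw [mul_pow]; ring
    rw [e]
    exact isBK_mul_aux (ha _) (ha' _)
  · have e : (b x.1 * b' x.2) ^ m * (W * W')⁻¹ = (b x.1 ^ m * W⁻¹) * (b' x.2 ^ m * W'⁻¹) := by
      rw [mul_pow, mul_inv]; ring
    rw [e]
    exact isBK_mul_aux (hb _) (hb' _)
  · rw [Fintype.sum_prod_type]
    have e : ∀ i j, a i * a' j * (b i * b' j) = (a i * b i) * (a' j * b' j) := fun i j => by ring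
    simp only [e, ← Finset.mul_sum, hab', mul_one, hab]

theorem InvK.pow (h : InvK π m W) (e : ℕ) : InvK π m (W ^ e) := by
  induction e with
  | zero => rw [pow_zero]; exact invK_one
  | succ e ih => rw [pow_succ]; exact ih.mul h

end Basic

namespace Twist

theorem not_dvd_eval_scaleRoots {R : Type*} [CommRing R] {ϖ : R} (hϖ : Prime ϖ) {P : R[X]}
    (hP : P.Monic) {t : R} (ht : ¬ ϖ ∣ t) : ¬ ϖ ∣ (P.scaleRoots ϖ).eval t := by
  intro h
  rw [eval_eq_sum_range, natDegree_scaleRoots, Finset.sum_range_succ, coeff_scaleRoots,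
    Nat.sub_self, pow_zero, mul_one, hP.coeff_natDegree, one_mul] at h
  have h1 : ϖ ∣ ∑ i ∈ Finset.range P.natDegree, (P.scaleRoots ϖ).coeff i * t ^ i := by
    refine Finset.dvd_sum fun i hi => ?_
    rw [coeff_scaleRoots]
    have : P.natDegree - i ≠ 0 := by
      have := Finset.mem_range.1 hi
      omega
    exact Dvd.dvd.mul_right (Dvd.dvd.mul_left (dvd_pow_self _ this) _) _
  exact ht (hϖ.dvd_of_dvd_pow ((dvd_add_right h1).1 h))

theorem isIntegral_eval₂ {R B : Type*} [CommRing R] [CommRing B] [Algebra R B] {u : B}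
    (hu : IsIntegral R u) (Q : R[X]) : IsIntegral R (eval₂ (algebraMap R B) u Q) := by
  rw [eval₂_eq_sum_range]
  exact IsIntegral.sum _ fun i _ => isIntegral_algebraMap.mul (hu.pow i)

end Twist

section Gauss

variable {A : Type*} [CommRing A] [IsDomain A] {π : A}
variable {F : Type*} [Field F] [Algebra A[X] F]
variable {m : ℕ} {W y z : F}

/-- `O_F` is closed under roots.  (`s • y^m` integral ⇒ `(s • y)^m = s^(m-1) • (s • y^m)` is.) -/
theorem IsOL.of_pow (hm : 0 < m) (h : IsOL π (y ^ m)) : IsOL π y := by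
  obtain ⟨s, hs, h1⟩ := h
  refine ⟨s, hs, IsIntegral.of_pow hm ?_⟩
  obtain ⟨k, rfl⟩ : ∃ k, m = k + 1 := ⟨m - 1, by omega⟩
  rw [_root_.smul_pow, pow_succ s k, mul_smul]
  exact h1.smul _

/-- **(UNIT)** `y ∈ 1 + π O_F` is a unit of `O_F`.
(`y = 1 + π z`, `z₁ = s • z` integral, root of the monic `P`, `deg P = d`; `u = s + π z₁` is a root
of the monic polynomial `π^d P((T - s)/π)` whose constant term `c₀ ≡ (-s)^d mod π`; so
`c₀ • u⁻¹` is a polynomial in `u`, hence integral; `y⁻¹ = s • u⁻¹`.) -/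
theorem IsOL.inv_of_sub_one (hπ : Prime π) (h : IsPiOL π (y - 1)) : IsOL π y⁻¹ := by
  obtain ⟨z, ⟨s, hs, hz⟩, hyz⟩ := h
  rcases eq_or_ne y 0 with rfl | hy0
  · rw [inv_zero]; exact isOL_zero hπ
  obtain ⟨P, hP, hPz⟩ := hz
  have hy : y = 1 + (C π : A[X]) • z := by rw [← hyz]; ring
  -- `u = s • y = s + π z₁`
  have hu : s • y = algebraMap A[X] F (C π) * (s • z) + algebraMap A[X] F s := by
    rw [hy, smul_add, smul_comm, Algebra.smul_def (C π), Algebra.smul_def s (1 : F), mul_one,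
      add_comm]
  have huint : IsIntegral A[X] (s • y) := by
    rw [hu]
    exact (isIntegral_algebraMap.mul ⟨P, hP, hPz⟩).add isIntegral_algebraMap
  obtain ⟨Q, hQ⟩ : ∃ Q : A[X][X], Q = (P.scaleRoots (C π)).comp (X - C s) := ⟨_, rfl⟩
  have hQu : eval₂ (algebraMap A[X] F) (s • y) Q = 0 := by
    rw [hQ, eval₂_comp, eval₂_sub, eval₂_X, eval₂_C, hu, add_sub_cancel_right]
    exact scaleRoots_eval₂_eq_zero _ hPz
  have hQ0 : ¬ (C π : A[X]) ∣ Q.coeff 0 := by
    rw [coeff_zero_eq_eval_zero, hQ, eval_comp, eval_sub, eval_X, eval_C, zero_sub]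
    exact Twist.not_dvd_eval_scaleRoots (Sat.prime_C hπ) hP (by rwa [dvd_neg])
  refine ⟨Q.coeff 0, hQ0, ?_⟩
  have h1 : eval₂ (algebraMap A[X] F) (s • y) Q.divX * (s • y) +
      algebraMap A[X] F (Q.coeff 0) = 0 := by
    conv_rhs => rw [← hQu, ← divX_mul_X_add Q]
    rw [eval₂_add, eval₂_mul, eval₂_X, eval₂_C]
  have h2 : Q.coeff 0 • y⁻¹ = - (s • eval₂ (algebraMap A[X] F) (s • y) Q.divX) := by
    rw [Algebra.smul_def, eq_neg_of_add_eq_zero_right h1, Algebra.smul_def, Algebra.smul_def]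
    field_simp
  rw [h2]
  refine (IsIntegral.smul _ ?_).neg
  exact Twist.isIntegral_eval₂ huint _

/-- `I_m(W) ⊆ O_F` if `W⁻¹ ∈ O_F`. -/
theorem IsTw.isOL (hπ : Prime π) (hm : 0 < m) (hW0 : W ≠ 0) (hW' : IsOL π W⁻¹)
    (hy : IsTw (A := A) m W y) : IsOL π y := by
  refine IsOL.of_pow hm ?_
  have h1 : y ^ m = y ^ m * W * W⁻¹ := by field_simp
  rw [h1]
  exact (IsOL.of_isIntegral hπ hy).mul hπ hW'

/-- a common denominator prime to `π`: `r I_m(W) ⊆ M`.
(`r • W⁻¹` integral: `(r • y)^m = r^(m-1) • (r • W⁻¹) * (y^m W)`.) -/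
theorem exists_smul_isIntegral_of_isTw (hm : 0 < m) (hW0 : W ≠ 0) (hW' : IsOL π W⁻¹) :
    ∃ r : A[X], ¬ C π ∣ r ∧ ∀ y : F, IsTw (A := A) m W y → IsIntegral A[X] (r • y) := by
  obtain ⟨r, hr, hrW⟩ := hW'
  refine ⟨r, hr, fun y hy => IsIntegral.of_pow hm ?_⟩
  obtain ⟨k, rfl⟩ : ∃ k, m = k + 1 := ⟨m - 1, by omega⟩
  have h1 : (r • y) ^ (k + 1) = r ^ k • ((r • W⁻¹) * (y ^ (k + 1) * W)) := by
    rw [_root_.smul_pow, pow_succ r k, mul_smul, smul_mul_assoc]
    congr 2
    field_simp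
  rw [h1]
  exact (hrW.mul hy).smul _

/-- `r M ⊆ I_m(W)`. -/
theorem exists_smul_isTw_of_isIntegral (hm : 0 < m) (hW : IsOL π W) :
    ∃ r : A[X], ¬ C π ∣ r ∧ ∀ y : F, IsIntegral A[X] y → IsTw (A := A) m W (r • y) := by
  obtain ⟨r, hr, hrW⟩ := hW
  refine ⟨r, hr, fun y hy => ?_⟩
  obtain ⟨k, rfl⟩ : ∃ k, m = k + 1 := ⟨m - 1, by omega⟩
  have h1 : (r • y) ^ (k + 1) * W = r ^ k • (y ^ (k + 1) * (r • W)) := by
    rw [_root_.smul_pow, pow_succ r k, mul_smul, smul_mul_assoc, smul_mul_assoc, mul_smul_comm]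
  rw [IsTw, h1]
  exact ((hy.pow _).mul hrW).smul _

variable [IsDiscreteValuationRing A]
variable (E : Type*) [Field E] [Algebra A[X] E] [IsFractionRing A[X] E]
  [Algebra E F] [IsScalarTower A[X] E F] [FiniteDimensional E F]

include E in
/-- saturation: `I_m(W) ∩ π O_F = π I_m(W)`.  (`isIntegral_of_isOL_of_isBK`.) -/
theorem IsTw.of_C_smul (hπ : Prime π) (hW : IsOL π W) (hz : IsOL π z)
    (h : IsTw (A := A) m W ((C π : A[X]) • z)) : IsTw (A := A) m W z := by
  refine isIntegral_of_isOL_of_isBK E hπ ((hz.pow hπ m).mul hπ hW) ⟨m, ?_⟩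
  rw [← smul_mul_assoc, ← _root_.smul_pow]
  exact h

include E in
/-- `I_m(W)` is a finite `A[X]`-module (`r I ⊆ M`, `M` noetherian: `integralClosure_fg`). -/
theorem twSub_fg [CharZero E] (hm : 0 < m) (hW0 : W ≠ 0)
    (hW' : IsOL π W⁻¹) : (twSub A hm W).FG := by
  obtain ⟨r, hr, hrI⟩ := exists_smul_isIntegral_of_isTw (A := A) hm hW0 hW'
  have hr0 : algebraMap A[X] F r ≠ 0 := by
    rw [IsScalarTower.algebraMap_apply A[X] E F, Ne, map_eq_zero,
      map_eq_zero_iff _ (IsFractionRing.injective A[X] E)]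
    exact Sat.ne_zero_of_not_dvd hr
  have hinj : Function.Injective (LinearMap.lsmul A[X] F r) := by
    intro a b hab
    simp only [LinearMap.lsmul_apply, Algebra.smul_def] at hab
    exact mul_left_cancel₀ hr0 hab
  refine Submodule.fg_of_fg_map_injective _ hinj ?_
  have hN : IsNoetherian A[X] (integralClosure A[X] F).toSubmodule :=
    isNoetherian_of_fg_of_noetherian _ (integralClosure_fg E)
  refine isNoetherian_submodule.1 hN _ ?_
  rintro _ ⟨y, hy, rfl⟩
  exact hrI y hy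

end Gauss

end Fermat.Agent.SS.G2
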