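import Fermat.Agent.SS.G2.Defs

/-!
# SS / G2 : the sandwich lemma (helper35, board #537(a)) : `BridgeData ⇒ SFData + Compat`

TASK `SS/G2-Bridge`.   Pure algebra (Goursat).

`Ω` a field over `k` (`k((q))`), `ρ₁ ρ₂ : O_F → Ω` the two reductions (`red_∞`, `red_∞ ∘ w_q`), with
joint kernel `π O_F`; `R ⊆ Ω` (the reduction of the normal ring of level `M'`), `Φ : Ω → Ω` the
`k`-linear Frobenius `f(q) ↦ f(q^ℓ)`.  For `a ∈ R` both `(a, Φ a)` and `(Φ a, a)` lie in `ρ(M)`.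

CONSTRUCTION.  `x_i = ρ_i X`, `𝒜 = Pr x₁ x₂ = Ω × Ω` with `X ↦ (x₁, x₂)`, `red = (ρ₁, ρ₂)`,
`Ct = R × R`, `I₂ = {b ∈ R : (0,b) ∈ ρ(M)}` (an ideal of `R`: multiply by `(Φ a, a)`),
`Z = R / I₂`, `p₁ (a,b) = [Φ a]`, `p₂ (a,b) = [b]`.
* `red_smul`: polynomial induction from `ρ_C`.
* `lift`: `(a,b) = (a, Φ a) ε + (Φ b, b) (1 - ε)`.
* (*) `b - Φ (Φ b) ∈ I₂` for `b ∈ R`: `(Φ b, b) - (Φ b, Φ (Φ b))`.
* `surj`: `(z₁,z₂) = ([b₁],[b₂])`: take `(Φ b₁, b₂)`, use (*).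
* `eq_iff`: `[Φ a] = [b] ⇔ (0, b - Φ a) ∈ ρ(M) ⇔ (a,b) = (a, Φ a) + (0, b - Φ a) ∈ ρ(M)`.
* by (*) and `frob`: `[b] = [(Φ∘Φ)^[f] b] = [b]^Q₀` in `Z`.  Hence `Z` is reduced
  (`[b]^N = 0`, `[b] = [b]^(Q₀^j)`, `Q₀^j ≥ N`) and `t = X^Q₀ - X` kills `Z`.
* `Compat.frob`: `p₂ (red (τ y)) = [Fr b] = [(Φ∘Φ)^[r] (Fr b)] = [b^Q] = [b]^Q`;
  `p₁ (red (τ y)) = [Φ (Fr a)] = [Fr (Φ a)] = [Φ a]^Q`.
-/

set_option autoImplicit false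

open Polynomial

namespace Fermat.Agent.SS.G2

open Fermat.Agent.Crux.G

/-- `Ω × Ω` as a `k[X]`-algebra via `X ↦ (x₁, x₂)`. -/
def Pr {Ω : Type*} (_x₁ _x₂ : Ω) : Type _ := Ω × Ω

instance {Ω : Type*} [CommRing Ω] (x₁ x₂ : Ω) : CommRing (Pr x₁ x₂) :=
  inferInstanceAs (CommRing (Ω × Ω))

noncomputable instance {k Ω : Type*} [Field k] [CommRing Ω] [Algebra k Ω] (x₁ x₂ : Ω) :
    Algebra k[X] (Pr x₁ x₂) :=
  ((aeval ((x₁, x₂) : Ω × Ω) : k[X] →ₐ[k] Ω × Ω) : k[X] →+* Ω × Ω).toAlgebra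

variable {A : Type*} [CommRing A] [IsDomain A] {π : A}

/-- The input of the sandwich lemma. -/
structure BridgeData (hπ : Prime π) (F : Type*) [Field F] [Algebra A[X] F]
    (k Ω : Type*) [Field k] [Field Ω] [Algebra k Ω] where
  /-- the residue map of `A` -/
  res : A →+* k
  res_surj : Function.Surjective res
  res_ker : ∀ a, res a = 0 ↔ π ∣ a
  /-- first reduction -/
  ρ₁ : OF hπ F →+* Ω
  /-- second reduction -/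
  ρ₂ : OF hπ F →+* Ω
  ρ₁_C : ∀ a : A, ρ₁ (algebraMap A[X] (OF hπ F) (C a)) = algebraMap k Ω (res a)
  ρ₂_C : ∀ a : A, ρ₂ (algebraMap A[X] (OF hπ F) (C a)) = algebraMap k Ω (res a)
  ker : ∀ y, (ρ₁ y = 0 ∧ ρ₂ y = 0) ↔ IsPiOL π (y : F)
  /-- the normal ring of the lower level -/
  R : Subalgebra k Ω
  /-- the `k`-linear Frobenius -/
  Φ : Ω →+* Ω
  Φ_mem : ∀ a ∈ R, Φ a ∈ R
  int_mem : ∀ y : OF hπ F, IsIntegral A[X] (y : F) → ρ₁ y ∈ R ∧ ρ₂ y ∈ R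
  lift₁ : ∀ a ∈ R, ∃ y : OF hπ F, IsIntegral A[X] (y : F) ∧ ρ₁ y = a ∧ ρ₂ y = Φ a
  lift₂ : ∀ a ∈ R, ∃ y : OF hπ F, IsIntegral A[X] (y : F) ∧ ρ₁ y = Φ a ∧ ρ₂ y = a
  root₁ : ∀ (y : OF hπ F) (n : ℕ), 0 < n → ρ₁ y ^ n ∈ R → ρ₁ y ∈ R
  root₂ : ∀ (y : OF hπ F) (n : ℕ), 0 < n → ρ₂ y ^ n ∈ R → ρ₂ y ∈ R
  frob : ∃ f Q₀ : ℕ, 1 < Q₀ ∧ ∀ a ∈ R, (Φ ∘ Φ)^[f] a = a ^ Q₀

variable {F : Type*} [Field F] [Algebra A[X] F]

universe uΩ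

namespace Bridge

variable {hπ : Prime π} {k : Type*} {Ω : Type uΩ} [Field k] [Field Ω]
    [Algebra k Ω] (B : BridgeData hπ F k Ω)

/-- first projection of `Pr`. -/
def fst (x₁ x₂ : Ω) : Pr x₁ x₂ →+* Ω := RingHom.fst Ω Ω

/-- second projection of `Pr`. -/
def snd (x₁ x₂ : Ω) : Pr x₁ x₂ →+* Ω := RingHom.snd Ω Ω

theorem pr_ext {x₁ x₂ : Ω} {c d : Pr x₁ x₂} (h₁ : fst x₁ x₂ c = fst x₁ x₂ d)
    (h₂ : snd x₁ x₂ c = snd x₁ x₂ d) : c = d := Prod.ext h₁ h₂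

theorem fst_algebraMap (x₁ x₂ : Ω) (t : k[X]) :
    fst x₁ x₂ (algebraMap k[X] (Pr x₁ x₂) t) = aeval x₁ t :=
  (Polynomial.aeval_algHom_apply (AlgHom.fst k Ω Ω) ((x₁, x₂) : Ω × Ω) t).symm

theorem snd_algebraMap (x₁ x₂ : Ω) (t : k[X]) :
    snd x₁ x₂ (algebraMap k[X] (Pr x₁ x₂) t) = aeval x₂ t :=
  (Polynomial.aeval_algHom_apply (AlgHom.snd k Ω Ω) ((x₁, x₂) : Ω × Ω) t).symm

theorem rho₁_algebraMap (r : A[X]) : B.ρ₁ (algebraMap A[X] (OF hπ F) r) =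
    aeval (B.ρ₁ (algebraMap A[X] (OF hπ F) X)) (r.map B.res) := by
  have : B.ρ₁.comp (algebraMap A[X] (OF hπ F)) =
      ((aeval (B.ρ₁ (algebraMap A[X] (OF hπ F) X)) : k[X] →ₐ[k] Ω) : k[X] →+* Ω).comp
        (mapRingHom B.res) := by
    apply Polynomial.ringHom_ext
    · intro a; simp [B.ρ₁_C]
    · simp
  exact RingHom.congr_fun this r

theorem rho₂_algebraMap (r : A[X]) : B.ρ₂ (algebraMap A[X] (OF hπ F) r) =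
    aeval (B.ρ₂ (algebraMap A[X] (OF hπ F) X)) (r.map B.res) := by
  have : B.ρ₂.comp (algebraMap A[X] (OF hπ F)) =
      ((aeval (B.ρ₂ (algebraMap A[X] (OF hπ F) X)) : k[X] →ₐ[k] Ω) : k[X] →+* Ω).comp
        (mapRingHom B.res) := by
    apply Polynomial.ringHom_ext
    · intro a; simp [B.ρ₂_C]
    · simp
  exact RingHom.congr_fun this r

theorem x₁_mem : B.ρ₁ (algebraMap A[X] (OF hπ F) X) ∈ B.R :=
  (B.int_mem _ isIntegral_algebraMap).1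

theorem x₂_mem : B.ρ₂ (algebraMap A[X] (OF hπ F) X) ∈ B.R :=
  (B.int_mem _ isIntegral_algebraMap).2

theorem aeval_mem {x : Ω} (hx : x ∈ B.R) (t : k[X]) : aeval x t ∈ B.R := by
  have := Subalgebra.aeval_coe B.R (⟨x, hx⟩ : B.R) t
  simp only at this
  rw [this]
  exact Subtype.coe_prop _

/-- the reduction map. -/
noncomputable def red (x₁ x₂ : Ω) : OF hπ F →+* Pr x₁ x₂ := B.ρ₁.prod B.ρ₂

@[simp] theorem fst_red (x₁ x₂ : Ω) (y : OF hπ F) : fst x₁ x₂ (red B x₁ x₂ y) = B.ρ₁ y := rfl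

@[simp] theorem snd_red (x₁ x₂ : Ω) (y : OF hπ F) : snd x₁ x₂ (red B x₁ x₂ y) = B.ρ₂ y := rfl

/-- `R × R`. -/
noncomputable def Ct {x₁ x₂ : Ω} (h₁ : x₁ ∈ B.R) (h₂ : x₂ ∈ B.R) : Subalgebra k[X] (Pr x₁ x₂) where
  carrier := {c | fst x₁ x₂ c ∈ B.R ∧ snd x₁ x₂ c ∈ B.R}
  mul_mem' := by
    rintro a b ⟨ha, ha'⟩ ⟨hb, hb'⟩
    exact ⟨by rw [map_mul]; exact mul_mem ha hb, by rw [map_mul]; exact mul_mem ha' hb'⟩
  add_mem' := by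
    rintro a b ⟨ha, ha'⟩ ⟨hb, hb'⟩
    exact ⟨by rw [map_add]; exact add_mem ha hb, by rw [map_add]; exact add_mem ha' hb'⟩
  algebraMap_mem' := fun t =>
    ⟨by rw [fst_algebraMap]; exact aeval_mem B h₁ t, by rw [snd_algebraMap]; exact aeval_mem B h₂ t⟩

theorem mem_Ct {x₁ x₂ : Ω} (h₁ : x₁ ∈ B.R) (h₂ : x₂ ∈ B.R) {c : Pr x₁ x₂} :
    c ∈ Ct B h₁ h₂ ↔ fst x₁ x₂ c ∈ B.R ∧ snd x₁ x₂ c ∈ B.R := Iff.rfl

/-- the gluing ideal. -/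
noncomputable def I₂ : Ideal B.R where
  carrier := {b | ∃ y : OF hπ F, IsIntegral A[X] (y : F) ∧ B.ρ₁ y = 0 ∧ B.ρ₂ y = b}
  add_mem' := by
    rintro a b ⟨y, hy, h1, h2⟩ ⟨y', hy', h1', h2'⟩
    exact ⟨y + y', hy.add hy', by simp [h1, h1'], by simp [h2, h2']⟩
  zero_mem' := ⟨0, isIntegral_zero, by simp, by simp⟩
  smul_mem' := by
    rintro c b ⟨y, hy, h1, h2⟩
    obtain ⟨z, hz, hz1, hz2⟩ := B.lift₂ c c.2
    exact ⟨z * y, hz.mul hy, by simp [h1], by simp [h2, hz2]⟩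

theorem mem_I₂ {b : B.R} : b ∈ I₂ B ↔
    ∃ y : OF hπ F, IsIntegral A[X] (y : F) ∧ B.ρ₁ y = 0 ∧ B.ρ₂ y = b := Iff.rfl

/-- `Φ` on `R`. -/
noncomputable def ΦR : B.R →+* B.R := (B.Φ.comp (B.R.val : B.R →+* Ω)).codRestrict B.R (fun a => B.Φ_mem a a.2)

@[simp] theorem coe_ΦR (a : B.R) : ((ΦR B a : B.R) : Ω) = B.Φ a := rfl

/-- first projection `Ct → R`. -/
noncomputable def fstR {x₁ x₂ : Ω} (h₁ : x₁ ∈ B.R) (h₂ : x₂ ∈ B.R) : Ct B h₁ h₂ →+* B.R :=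
  ((fst x₁ x₂).comp ((Ct B h₁ h₂).val : Ct B h₁ h₂ →+* Pr x₁ x₂)).codRestrict B.R (fun c => c.2.1)

/-- second projection `Ct → R`. -/
noncomputable def sndR {x₁ x₂ : Ω} (h₁ : x₁ ∈ B.R) (h₂ : x₂ ∈ B.R) : Ct B h₁ h₂ →+* B.R :=
  ((snd x₁ x₂).comp ((Ct B h₁ h₂).val : Ct B h₁ h₂ →+* Pr x₁ x₂)).codRestrict B.R (fun c => c.2.2)

/-- (*) -/
theorem mk_ΦΦ (b : B.R) : Ideal.Quotient.mk (I₂ B) (ΦR B (ΦR B b)) = Ideal.Quotient.mk (I₂ B) b := by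
  rw [Ideal.Quotient.eq, mem_I₂]
  obtain ⟨y, hy, h1, h2⟩ := B.lift₂ b b.2
  obtain ⟨z, hz, hz1, hz2⟩ := B.lift₁ (B.Φ b) (B.Φ_mem b b.2)
  exact ⟨z - y, hz.sub hy, by simp [h1, hz1], by simp [h2, hz2]⟩

theorem mk_iter (n : ℕ) (b : B.R) :
    Ideal.Quotient.mk (I₂ B) ((ΦR B ∘ ΦR B)^[n] b) = Ideal.Quotient.mk (I₂ B) b := by
  induction n generalizing b with
  | zero => rfl
  | succ n ih => rw [Function.iterate_succ_apply, ih, Function.comp_apply, mk_ΦΦ]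

theorem coe_iter (n : ℕ) (b : B.R) :
    (((ΦR B ∘ ΦR B)^[n] b : B.R) : Ω) = (B.Φ ∘ B.Φ)^[n] b := by
  induction n generalizing b with
  | zero => rfl
  | succ n ih => rw [Function.iterate_succ_apply, ih, Function.iterate_succ_apply]; rfl

theorem mk_pow_of_iter {n Q : ℕ} {a b : B.R} (h : (B.Φ ∘ B.Φ)^[n] (a : Ω) = (b : Ω) ^ Q) :
    Ideal.Quotient.mk (I₂ B) a = Ideal.Quotient.mk (I₂ B) b ^ Q := by
  rw [← mk_iter B n a, ← map_pow]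
  congr 1
  apply Subtype.ext
  rw [coe_iter, h]
  rfl

end Bridge

theorem BridgeData.exists_sfData {hπ : Prime π} {k : Type*} {Ω : Type uΩ} [Field k] [Field Ω]
    [Algebra k Ω] (B : BridgeData hπ F k Ω)
    (ε : F) (hε : IsOL π ε) (hε₁ : B.ρ₁ ⟨ε, hε⟩ = 1) (hε₂ : B.ρ₂ ⟨ε, hε⟩ = 0)
    (τ : F →+* F) (Fr : Ω →+* Ω)
    (hFr₁ : ∀ y y' : OF hπ F, (y' : F) = τ y → B.ρ₁ y' = Fr (B.ρ₁ y))
    (hFr₂ : ∀ y y' : OF hπ F, (y' : F) = τ y → B.ρ₂ y' = Fr (B.ρ₂ y))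
    (hFrR : ∀ a ∈ B.R, Fr a ∈ B.R) (hΦFr : ∀ a, B.Φ (Fr a) = Fr (B.Φ a))
    (r Q : ℕ) (hr : ∀ a ∈ B.R, (B.Φ ∘ B.Φ)^[r] (Fr a) = a ^ Q) :
    ∃ (Z : Type uΩ) (_ : CommRing Z)
      (D : SFData hπ F k (Pr (B.ρ₁ (algebraMap A[X] (OF hπ F) X))
        (B.ρ₂ (algebraMap A[X] (OF hπ F) X))) Z), D.Compat τ Q ε := by
  classical
  obtain ⟨x₁, hx₁⟩ : ∃ x, x = B.ρ₁ (algebraMap A[X] (OF hπ F) X) := ⟨_, rfl⟩
  obtain ⟨x₂, hx₂⟩ : ∃ x, x = B.ρ₂ (algebraMap A[X] (OF hπ F) X) := ⟨_, rfl⟩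
  rw [← hx₁, ← hx₂]
  have h₁ : x₁ ∈ B.R := hx₁ ▸ Bridge.x₁_mem B
  have h₂ : x₂ ∈ B.R := hx₂ ▸ Bridge.x₂_mem B
  obtain ⟨f, Q₀, hQ₀, hfrob⟩ := B.frob
  have hpow : ∀ z : B.R ⧸ Bridge.I₂ B, z ^ Q₀ = z := by
    intro z
    obtain ⟨b, rfl⟩ := Ideal.Quotient.mk_surjective z
    exact (Bridge.mk_pow_of_iter B (hfrob b b.2)).symm
  have hpow' : ∀ (j : ℕ) (z : B.R ⧸ Bridge.I₂ B), z ^ (Q₀ ^ j) = z := by
    intro j z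
    induction j with
    | zero => simp
    | succ j ih => rw [pow_succ, pow_mul, ih, hpow]
  refine ⟨B.R ⧸ Bridge.I₂ B, inferInstance,
    { res := B.res
      res_surj := B.res_surj
      res_ker := B.res_ker
      red := Bridge.red B x₁ x₂
      red_smul := ?_
      red_ker := ?_
      Ct := Bridge.Ct B h₁ h₂
      lift := ?_
      root := ?_
      int_mem := ?_
      p₁ := (Ideal.Quotient.mk (Bridge.I₂ B)).comp ((Bridge.ΦR B).comp (Bridge.fstR B h₁ h₂))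
      p₂ := (Ideal.Quotient.mk (Bridge.I₂ B)).comp (Bridge.sndR B h₁ h₂)
      surj := ?_
      eq_iff := ?_
      tors := ?_
      reduced := ?_ }, ?_, ?_⟩
  · -- red_smul
    intro r y
    rw [Algebra.smul_def, Algebra.smul_def, map_mul]
    congr 1
    apply Bridge.pr_ext
    · rw [Bridge.fst_red, Bridge.fst_algebraMap, hx₁, Bridge.rho₁_algebraMap]
    · rw [Bridge.snd_red, Bridge.snd_algebraMap, hx₂, Bridge.rho₂_algebraMap]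
  · -- red_ker
    intro y
    rw [← B.ker]
    constructor
    · intro h
      exact ⟨by rw [← Bridge.fst_red B x₁ x₂, h, map_zero],
        by rw [← Bridge.snd_red B x₁ x₂, h, map_zero]⟩
    · rintro ⟨h, h'⟩
      apply Bridge.pr_ext
      · rw [Bridge.fst_red, h, map_zero]
      · rw [Bridge.snd_red, h', map_zero]
  · -- lift
    rintro c ⟨hc₁, hc₂⟩
    obtain ⟨y, -, hy1, hy2⟩ := B.lift₁ _ hc₁
    obtain ⟨z, -, hz1, hz2⟩ := B.lift₂ _ hc₂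
    refine ⟨y * ⟨ε, hε⟩ + z * (1 - ⟨ε, hε⟩), ?_⟩
    apply Bridge.pr_ext
    · rw [Bridge.fst_red]; simp [hε₁, hy1]
    · rw [Bridge.snd_red]; simp [hε₂, hz2]
  · -- root
    rintro y n hn ⟨h, h'⟩
    rw [map_pow, Bridge.fst_red] at h
    rw [map_pow, Bridge.snd_red] at h'
    exact ⟨B.root₁ y n hn h, B.root₂ y n hn h'⟩
  · -- int_mem
    intro y hy
    exact B.int_mem y hy
  · -- surj
    intro z₁ z₂
    obtain ⟨b₁, rfl⟩ := Ideal.Quotient.mk_surjective z₁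
    obtain ⟨b₂, rfl⟩ := Ideal.Quotient.mk_surjective z₂
    refine ⟨⟨((B.Φ b₁, b₂) : Ω × Ω), B.Φ_mem _ b₁.2, b₂.2⟩, ?_, ?_⟩
    · exact Bridge.mk_ΦΦ B b₁
    · rfl
  · -- eq_iff
    intro c
    change Ideal.Quotient.mk (Bridge.I₂ B) (Bridge.ΦR B (Bridge.fstR B h₁ h₂ c)) =
      Ideal.Quotient.mk (Bridge.I₂ B) (Bridge.sndR B h₁ h₂ c) ↔ _
    rw [Ideal.Quotient.eq, Bridge.mem_I₂]
    obtain ⟨y₁, hy₁, h11, h12⟩ := B.lift₁ _ c.2.1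
    constructor
    · rintro ⟨y, hy, h1, h2⟩
      refine ⟨y₁ - y, hy₁.sub hy, ?_⟩
      apply Bridge.pr_ext
      · rw [Bridge.fst_red, map_sub, h11, h1, sub_zero]
      · rw [Bridge.snd_red, map_sub, h12, h2]
        change B.Φ (Bridge.fst x₁ x₂ c) - (B.Φ (Bridge.fst x₁ x₂ c) - Bridge.snd x₁ x₂ c) = _
        ring
    · rintro ⟨y, hy, h⟩
      refine ⟨y₁ - y, hy₁.sub hy, ?_, ?_⟩
      · rw [map_sub, h11, ← Bridge.fst_red B x₁ x₂, h, sub_self]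
      · rw [map_sub, h12, ← Bridge.snd_red B x₁ x₂, h]
        rfl
  · -- tors
    refine ⟨X ^ Q₀ - X, FiniteField.X_pow_card_sub_X_ne_zero k hQ₀, ?_⟩
    rw [map_sub, map_pow, map_sub, map_pow, hpow, sub_self]
  · -- reduced
    refine ⟨fun z hz => ?_⟩
    obtain ⟨N, hN⟩ := hz
    rw [← hpow' N z]
    exact pow_eq_zero_of_le (Nat.lt_pow_self hQ₀).le hN
  · -- Compat.frob
    intro y y' hy hyy'
    have e₁ := hFr₁ y y' hyy'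
    have e₂ := hFr₂ y y' hyy'
    have hy₁ : B.ρ₁ y ∈ B.R := hy.1
    have hy₂ : B.ρ₂ y ∈ B.R := hy.2
    have hmem : Bridge.red B x₁ x₂ y' ∈ Bridge.Ct B h₁ h₂ :=
      ⟨by rw [Bridge.fst_red, e₁]; exact hFrR _ hy₁, by rw [Bridge.snd_red, e₂]; exact hFrR _ hy₂⟩
    refine ⟨hmem, ?_, ?_⟩
    · refine Bridge.mk_pow_of_iter B (n := r) ?_
      change (B.Φ ∘ B.Φ)^[r] (B.Φ (B.ρ₁ y')) = (B.Φ (B.ρ₁ y)) ^ Q
      rw [e₁, hΦFr, hr _ (B.Φ_mem _ hy₁)]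
    · refine Bridge.mk_pow_of_iter B (n := r) ?_
      change (B.Φ ∘ B.Φ)^[r] (B.ρ₂ y') = (B.ρ₂ y) ^ Q
      rw [e₂, hr _ hy₂]
  · -- Compat.eps
    have hmem : Bridge.red B x₁ x₂ ⟨ε, hε⟩ ∈ Bridge.Ct B h₁ h₂ :=
      ⟨by rw [Bridge.fst_red, hε₁]; exact one_mem _, by rw [Bridge.snd_red, hε₂]; exact zero_mem _⟩
    refine ⟨hε, hmem, ?_, ?_⟩
    · have : Bridge.fstR B h₁ h₂ ⟨_, hmem⟩ = 1 := Subtype.ext hε₁
      change Ideal.Quotient.mk (Bridge.I₂ B) (Bridge.ΦR B (Bridge.fstR B h₁ h₂ ⟨_, hmem⟩)) = 1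
      rw [this, map_one, map_one]
    · have : Bridge.sndR B h₁ h₂ ⟨_, hmem⟩ = 0 := Subtype.ext hε₂
      change Ideal.Quotient.mk (Bridge.I₂ B) (Bridge.sndR B h₁ h₂ ⟨_, hmem⟩) = 0
      rw [this, map_zero]

end Fermat.Agent.SS.G2
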