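import Fermat.Agent.SS.G2.Twist

/-!
# SS / G2 : semilinear endomorphisms preserve all the structures of a chart
-/

set_option autoImplicit false
set_option linter.unusedSectionVars false

open Polynomial

namespace Fermat.Agent.SS.G2

open Fermat.Agent.Crux.G

section

variable {A : Type*} [CommRing A] {π : A}
variable {F : Type*} [Field F] [Algebra A[X] F]
variable (τ : F →+* F) (τA : A →+* A) (hτ : ∀ (r : A[X]) (y : F), τ (r • y) = (r.map τA) • τ y)

include hτ

theorem semi_algebraMap (r : A[X]) : τ (algebraMap A[X] F r) = algebraMap A[X] F (r.map τA) := by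
  have := hτ r 1
  rwa [map_one, Algebra.smul_def, mul_one, Algebra.smul_def, mul_one] at this

theorem semi_isIntegral {y : F} (hy : IsIntegral A[X] y) : IsIntegral A[X] (τ y) := by
  obtain ⟨p, hp, hpy⟩ := hy
  refine ⟨p.map (mapRingHom τA), hp.map _, ?_⟩
  rw [eval₂_map]
  have : (algebraMap A[X] F).comp (mapRingHom τA) = τ.comp (algebraMap A[X] F) := by
    refine RingHom.ext fun r => ?_
    exact (semi_algebraMap τ τA hτ r).symm
  rw [this, ← hom_eval₂, hpy, map_zero]

theorem semi_isTw {m : ℕ} {W y : F} (hy : IsTw (A := A) m W y) :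
    IsTw (A := A) m (τ W) (τ y) := by
  have := semi_isIntegral τ τA hτ hy
  rwa [map_mul, map_pow] at this

end

section

variable {A : Type*} [CommRing A] [IsDomain A] {π : A}
variable {F : Type*} [Field F] [Algebra A[X] F]
variable (τ : F →+* F) (τA : A →+* A) (hτ : ∀ (r : A[X]) (y : F), τ (r • y) = (r.map τA) • τ y)
variable (Q : ℕ) (hQ : ∀ a, π ∣ τA a - a ^ Q)

include hQ in
theorem semi_not_dvd (hπ : Prime π) {s : A[X]} (hs : ¬ C π ∣ s) : ¬ C π ∣ s.map τA := by
  intro h
  apply hs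
  rw [C_dvd_iff_dvd_coeff] at h ⊢
  intro i
  have h1 := h i
  rw [coeff_map] at h1
  have h2 : π ∣ s.coeff i ^ Q := by
    have := dvd_sub h1 (hQ (s.coeff i))
    simpa using this
  exact hπ.dvd_of_dvd_pow h2

include hτ hQ in
theorem semi_isOL (hπ : Prime π) {y : F} (hy : IsOL π y) : IsOL π (τ y) := by
  obtain ⟨s, hs, hsy⟩ := hy
  refine ⟨s.map τA, semi_not_dvd τA Q hQ hπ hs, ?_⟩
  rw [← hτ]
  exact semi_isIntegral τ τA hτ hsy

include hτ hQ in
theorem semi_isPiOL (hπ : Prime π) (hQ0 : 0 < Q) {y : F} (hy : IsPiOL π y) : IsPiOL π (τ y) := by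
  obtain ⟨z, hz, rfl⟩ := hy
  have h1 : π ∣ τA π := by
    have := dvd_add (hQ π) (dvd_pow_self π hQ0.ne')
    simpa using this
  obtain ⟨a, ha⟩ := h1
  refine ⟨(C a : A[X]) • τ z, (semi_isOL τ τA hτ Q hQ hπ hz).smul _, ?_⟩
  rw [hτ, map_C, ha, C_mul, mul_smul]

end

section

variable {A : Type*} [CommRing A] [IsDomain A] [IsDiscreteValuationRing A] {π : A}
variable {F : Type*} [Field F] [Algebra A[X] F] [FaithfulSMul A[X] F]
variable (τ : F →+* F) (τA : A →+* A) (hτ : ∀ (r : A[X]) (y : F), τ (r • y) = (r.map τA) • τ y)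

include hτ

theorem semi_isBK (hπ : Irreducible π) {y : F} (hy : IsBK π y) : IsBK π (τ y) := by
  obtain ⟨j, hj⟩ := hy
  have h0 : τA π ≠ 0 := by
    intro h
    have h1 := semi_algebraMap τ τA hτ (C π)
    rw [map_C, h, map_zero, map_zero, map_eq_zero,
      map_eq_zero_iff _ (FaithfulSMul.algebraMap_injective A[X] F)] at h1
    exact hπ.ne_zero (C_eq_zero.mp h1)
  obtain ⟨i, u, hu⟩ := IsDiscreteValuationRing.eq_unit_mul_pow_irreducible h0 hπ
  have h2 := semi_isIntegral τ τA hτ hj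
  rw [hτ, Polynomial.map_pow, map_C, hu] at h2
  refine ⟨i * j, ?_⟩
  have h3 : (C π : A[X]) ^ (i * j) • τ y
      = (C ((u⁻¹ : Aˣ) : A) : A[X]) ^ j • ((C ((u : A) * π ^ i) : A[X]) ^ j • τ y) := by
    rw [smul_smul, ← mul_pow, ← C_mul, ← mul_assoc, Units.inv_mul, one_mul, C_pow, ← pow_mul]
  rw [h3]
  exact h2.smul _

theorem semi_invK (hπ : Irreducible π) {m : ℕ} {W : F} (h : InvK π m W) : InvK π m (τ W) := by
  obtain ⟨r, a, b, ha, hb, hab⟩ := h
  refine ⟨r, fun i => τ (a i), fun i => τ (b i), fun i => ?_, fun i => ?_, ?_⟩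
  · have := semi_isBK τ τA hτ hπ (ha i)
    rwa [map_mul, map_pow] at this
  · have := semi_isBK τ τA hτ hπ (hb i)
    rwa [map_mul, map_pow, map_inv₀] at this
  · have := congrArg τ hab
    rw [map_sum, map_one] at this
    rw [← this]
    exact Finset.sum_congr rfl fun i _ => (map_mul τ _ _).symm

end

end Fermat.Agent.SS.G2
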