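import Fermat.Agent.SS.G2.CT
import Fermat.Agent.SS.G2.Semi

/-!
# SS / G2 : rigidity in one chart

`τ` a semilinear endomorphism of `F` (over `τA : A → A`, `τA a ≡ a^Q mod π`, fixing `X`) acting on
the gluing locus `Z` by `z ↦ z^Q`; `ε` a lift of the idempotent `(1,0)`;
`W ≡ c₁ ε + c₂ (1 - ε)`, `c_i ∈ A^×`; `Q = e + m g`.  Then `V = τ W / W^e` satisfies:
`c₁^{-g} ε + c₂^{-g} (1 - ε)` lifts to an element `y` of `I_m(V)`, and `y^m V ≡ 1`.
(owner: helper10)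
-/

set_option autoImplicit false

open Polynomial

namespace Fermat.Agent.SS.G2

open Fermat.Agent.Crux.G

/-- `a e + b (1 - e)`. -/
def mix {R : Type*} [CommRing R] (e a b : R) : R := a * e + b * (1 - e)

theorem mix_mul {R : Type*} [CommRing R] {e : R} (he : e * e = e) (a b a' b' : R) :
    mix e a b * mix e a' b' = mix e (a * a') (b * b') := by
  unfold mix
  linear_combination (a * a' - a * b' - a' * b + b * b') * he

theorem mix_one {R : Type*} [CommRing R] (e : R) : mix e 1 1 = 1 := by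
  unfold mix; ring

theorem mix_pow {R : Type*} [CommRing R] {e : R} (he : e * e = e) (a b : R) (n : ℕ) :
    mix e a b ^ n = mix e (a ^ n) (b ^ n) := by
  induction n with
  | zero => simp [mix_one]
  | succ n ih => rw [pow_succ, ih, mix_mul he, pow_succ, pow_succ]

theorem eq_of_mul_eq_one {R : Type*} [CommRing R] {x y z : R} (h1 : x * y = 1) (h2 : x * z = 1) :
    y = z := by
  calc y = y * (x * z) := by rw [h2, mul_one]
    _ = (x * y) * z := by ring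
    _ = z := by rw [h1, one_mul]

theorem pow_mul_pow_of_eq {R : Type*} [CommRing R] {Q e m g : ℕ} (hQe : Q = e + m * g) (x y : R)
    (hxy : x * y = 1) : x ^ Q * y ^ e = x ^ (m * g) := by
  rw [hQe, pow_add, mul_comm (x ^ e), mul_assoc, ← mul_pow, hxy, one_pow, mul_one]

variable {A : Type*} [CommRing A] [IsDomain A] [IsDiscreteValuationRing A] {π : A}
variable {E : Type*} [Field E] [Algebra A[X] E] [IsFractionRing A[X] E] [CharZero E]
variable {F : Type*} [Field F] [Algebra A[X] F] [Algebra E F] [IsScalarTower A[X] E F]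
  [FiniteDimensional E F]
variable {k 𝒜 Z : Type*} [Field k] [CommRing 𝒜] [Algebra k[X] 𝒜] [CommRing Z]

variable (E) in
include E in
theorem CR (hπ : Irreducible π) (D : SFData hπ.prime F k 𝒜 Z) {m : ℕ} (hm : 0 < m)
    (τ : F →+* F) (τA : A →+* A) (hτ : ∀ (r : A[X]) (y : F), τ (r • y) = (r.map τA) • τ y)
    (Q e g : ℕ) (hQ0 : 0 < Q) (hQ : ∀ a, π ∣ τA a - a ^ Q) (hQe : Q = e + m * g)
    (ε : F) (hD : D.Compat τ Q ε)
    (hεε : IsPiOL π (ε ^ 2 - ε)) (hτε : IsPiOL π (τ ε - ε))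
    (W : F) (c₁ c₂ : Aˣ)
    (hW : IsPiOL π (W - ((C (c₁ : A) : A[X]) • ε + (C (c₂ : A) : A[X]) • (1 - ε))))
    (hinv : InvK π m W) :
    IsOL π (τ W / W ^ e) ∧ ∃ y : F, IsTw (A := A) m (τ W / W ^ e) y ∧
      IsPiOL π (y - ((C ((c₁⁻¹ ^ g : Aˣ) : A) : A[X]) • ε
        + (C ((c₂⁻¹ ^ g : Aˣ) : A) : A[X]) • (1 - ε))) ∧
      IsPiOL π (y ^ m * (τ W / W ^ e) - 1) := by
  classical
  have hp : Prime π := hπ.prime
  have hF : FaithfulSMul A[X] F := s1_faithfulSMul E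
  obtain ⟨hε, hεt, hε1, hε2⟩ := hD.eps
  let εo : OF hp F := ⟨ε, hε⟩
  let cst : A →+* OF hp F := (algebraMap A[X] (OF hp F)).comp C
  let κ : A →+* 𝒜 := D.red.comp cst
  let eb : 𝒜 := D.red εo
  have heb : eb * eb = eb := by
    have h : D.red (εo ^ 2) = D.red εo := (D.red_eq_iff _ _).mpr hεε
    rw [map_pow, sq] at h
    exact h
  let mo : A → A → OF hp F := fun a b => cst a * εo + cst b * (1 - εo)
  have hmo_coe : ∀ a b, ((mo a b : OF hp F) : F)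
      = (C a : A[X]) • ε + (C b : A[X]) • (1 - ε) := by
    intro a b
    rw [Algebra.smul_def, Algebra.smul_def]
    rfl
  have hmo_red : ∀ a b, D.red (mo a b) = mix eb (κ a) (κ b) := by
    intro a b
    simp only [mo, mix, map_add, map_mul, map_sub, map_one]
    rfl
  have hκu : ∀ c : Aˣ, κ c * κ ((c⁻¹ : Aˣ) : A) = 1 := by
    intro c
    rw [← map_mul, Units.mul_inv, map_one]
  have hκπ : κ π = 0 := by
    show D.red (cst π) = 0
    rw [D.red_ker]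
    refine ⟨1, isOL_one hp, ?_⟩
    rw [Algebra.smul_def, mul_one]
    rfl
  have hκτ : ∀ a, κ (τA a) = κ a ^ Q := by
    intro a
    obtain ⟨a', ha'⟩ := hQ a
    rw [← map_pow, ← sub_eq_zero, ← map_sub, ha', map_mul, hκπ, zero_mul]
  -- `W`
  have hWOL : IsOL π W := by
    have := (hW.isOL).add hp (mo c₁ c₂).2
    rw [hmo_coe, sub_add_cancel] at this
    exact this
  let Wo : OF hp F := ⟨W, hWOL⟩
  have hredW : D.red Wo = mix eb (κ c₁) (κ c₂) := by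
    rw [← hmo_red]
    refine (D.red_eq_iff _ _).mpr ?_
    rw [hmo_coe]
    exact hW
  have hWu : IsPiOL π (W * (mo ((c₁⁻¹ : Aˣ) : A) ((c₂⁻¹ : Aˣ) : A) : OF hp F) - 1) := by
    refine (D.red_eq_iff (Wo * mo _ _) 1).mp ?_
    rw [map_mul, hredW, hmo_red, mix_mul heb, hκu, hκu, mix_one, map_one]
  have hne : W * (mo ((c₁⁻¹ : Aˣ) : A) ((c₂⁻¹ : Aˣ) : A) : OF hp F) ≠ 0 := by
    intro h
    rw [h, zero_sub] at hWu
    exact not_isPiOL_one E hπ (by simpa using hWu.neg)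
  have hW0 : W ≠ 0 := left_ne_zero_of_mul hne
  have hWinv : IsOL π W⁻¹ := by
    have h1 := IsOL.inv_of_sub_one hp hWu
    have h2 : W⁻¹ = (mo ((c₁⁻¹ : Aˣ) : A) ((c₂⁻¹ : Aˣ) : A) : OF hp F)
        * (W * (mo ((c₁⁻¹ : Aˣ) : A) ((c₂⁻¹ : Aˣ) : A) : OF hp F))⁻¹ := by
      have h3 := right_ne_zero_of_mul hne
      rw [mul_inv, mul_comm W⁻¹, ← mul_assoc, mul_inv_cancel₀ h3, one_mul]
    rw [h2]
    exact (mo _ _).2.mul hp h1
  let Wi : OF hp F := ⟨W⁻¹, hWinv⟩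
  have hWW : Wo * Wi = 1 := Subtype.ext (mul_inv_cancel₀ hW0)
  have hredWi : D.red Wi = mix eb (κ ((c₁⁻¹ : Aˣ) : A)) (κ ((c₂⁻¹ : Aˣ) : A)) := by
    refine eq_of_mul_eq_one (x := D.red Wo) ?_ ?_
    · rw [← map_mul, hWW, map_one]
    · rw [hredW, mix_mul heb, hκu, hκu, mix_one]
  -- membership in `Ct` and the values of `p₁`, `p₂`
  let κt : A →+* D.Ct := (algebraMap k[X] D.Ct).comp (C.comp D.res)
  have hκt_coe : ∀ a, ((κt a : D.Ct) : 𝒜) = κ a := by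
    intro a
    have h := D.algebraMap_map (C a)
    rw [map_C] at h
    exact h
  let et : D.Ct := ⟨eb, hεt⟩
  let mt : A → A → D.Ct := fun a b => κt a * et + κt b * (1 - et)
  have hmt_coe : ∀ a b, ((mt a b : D.Ct) : 𝒜) = mix eb (κ a) (κ b) := by
    intro a b
    show (κt a : 𝒜) * eb + (κt b : 𝒜) * (1 - eb) = _
    rw [hκt_coe, hκt_coe]
    rfl
  let ζ : A →+* Z := D.p₁.comp κt
  have hp₁mt : ∀ a b, D.p₁ (mt a b) = ζ a := by
    intro a b
    simp only [mt, map_add, map_mul, map_sub, map_one]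
    rw [show D.p₁ et = 1 from hε1]
    simp [ζ]
  have hp₂mt : ∀ a b, D.p₂ (mt a b) = ζ b := by
    intro a b
    simp only [mt, map_add, map_mul, map_sub, map_one]
    rw [show D.p₂ et = 0 from hε2]
    have : D.p₂ (κt b) = D.p₁ (κt b) := (D.p_algebraMap _).symm
    simp [ζ, this]
  have hζu : ∀ c : Aˣ, ζ c * ζ ((c⁻¹ : Aˣ) : A) = 1 := by
    intro c
    rw [← map_mul, Units.mul_inv, map_one]
  -- `τ`
  have hτOL : ∀ {y : F}, IsOL π y → IsOL π (τ y) := fun hy => semi_isOL τ τA hτ Q hQ hp hy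
  have hτPi : ∀ {y : F}, IsPiOL π y → IsPiOL π (τ y) := fun hy =>
    semi_isPiOL τ τA hτ Q hQ hp hQ0 hy
  let τo : OF hp F → OF hp F := fun y => ⟨τ y, hτOL y.2⟩
  have hredτε : D.red (τo εo) = eb := (D.red_eq_iff _ _).mpr hτε
  have hredτW : D.red (τo Wo) = mix eb (κ c₁ ^ Q) (κ c₂ ^ Q) := by
    have h1 : D.red (τo Wo) = D.red (cst (τA c₁) * τo εo + cst (τA c₂) * (1 - τo εo)) := by
      refine (D.red_eq_iff _ _).mpr ?_
      have h2 := hτPi hW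
      rw [map_sub, map_add, hτ, hτ, map_C, map_C, map_sub, map_one, Algebra.smul_def,
        Algebra.smul_def] at h2
      exact h2
    rw [h1]
    simp only [map_add, map_mul, map_sub, map_one, hredτε]
    rw [← hκτ, ← hκτ]
    rfl
  -- `V`
  have hVeq : τ W / W ^ e = τ W * W⁻¹ ^ e := by rw [div_eq_mul_inv, inv_pow]
  let Vo : OF hp F := τo Wo * Wi ^ e
  have hVo_coe : (Vo : F) = τ W / W ^ e := hVeq.symm
  have hredV : D.red Vo = mix eb (κ c₁ ^ (m * g)) (κ c₂ ^ (m * g)) := by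
    show D.red (τo Wo * Wi ^ e) = _
    rw [map_mul, map_pow, hredτW, hredWi, mix_pow heb, mix_mul heb, pow_mul_pow_of_eq hQe _ _ (hκu c₁),
      pow_mul_pow_of_eq hQe _ _ (hκu c₂)]
  let Vi : OF hp F := Wo ^ e * τo Wi
  have hVV : Vo * Vi = 1 := by
    apply Subtype.ext
    show (τ W * W⁻¹ ^ e) * (W ^ e * τ W⁻¹) = 1
    have h1 : τ W ≠ 0 := by simpa using hW0
    rw [map_inv₀, inv_pow]
    field_simp
  have hV0 : τ W / W ^ e ≠ 0 := by
    have h1 : τ W ≠ 0 := by simpa using hW0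
    exact div_ne_zero h1 (pow_ne_zero _ hW0)
  have hVi_coe : (Vi : F) = (τ W / W ^ e)⁻¹ := by
    have := congrArg Subtype.val hVV
    have h2 : (τ W / W ^ e) * (Vi : F) = 1 := by rw [← hVo_coe]; exact this
    exact eq_inv_of_mul_eq_one_right h2
  have hredVi : D.red Vi = mix eb (κ ((c₁⁻¹ : Aˣ) : A) ^ (m * g)) (κ ((c₂⁻¹ : Aˣ) : A) ^ (m * g)) := by
    refine eq_of_mul_eq_one (x := D.red Vo) ?_ ?_
    · rw [← map_mul, hVV, map_one]
    · rw [hredV, mix_mul heb, ← mul_pow, ← mul_pow, hκu, hκu, one_pow, mix_one]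
  have hVOL : IsOL π (τ W / W ^ e) := hVo_coe ▸ Vo.2
  have hViOL : IsOL π (τ W / W ^ e)⁻¹ := hVi_coe ▸ Vi.2
  have hinvV : InvK π m (τ W / W ^ e) := by
    rw [hVeq]
    exact (semi_invK τ τA hτ hπ hinv).mul (hinv.inv.pow e)
  have hmixt : ∀ a b, mix eb (κ a) (κ b) ∈ D.Ct := fun a b => hmt_coe a b ▸ (mt a b).2
  -- the two chart theorems
  obtain ⟨ξ, hξ, hξ'⟩ := CT E hπ D hm hW0 hWOL hWinv (by
      show D.red Wo ∈ D.Ct
      rw [hredW]; exact hmixt _ _) (by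
      show D.red Wi ∈ D.Ct
      rw [hredWi]; exact hmixt _ _) hinv
  obtain ⟨ξV, hξV, -⟩ := CT E hπ D hm hV0 hVOL hViOL (by
      have : (⟨τ W / W ^ e, hVOL⟩ : OF hp F) = Vo := Subtype.ext hVo_coe.symm
      rw [this, hredV, ← map_pow, ← map_pow]; exact hmixt _ _) (by
      have : (⟨(τ W / W ^ e)⁻¹, hViOL⟩ : OF hp F) = Vi := Subtype.ext hVi_coe.symm
      rw [this, hredVi, ← map_pow, ← map_pow]; exact hmixt _ _) hinvV
  -- the elements `a`, `b`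
  obtain ⟨ca, hca1, hca2⟩ := D.surj ξ 1
  obtain ⟨cb, hcb1, hcb2⟩ := D.surj ((ξ⁻¹ : Zˣ) : Z) 1
  obtain ⟨a, ha, hac⟩ := (hξ ca).mpr (by rw [hca1, hca2, mul_one])
  obtain ⟨b, hb, hbc⟩ := (hξ' cb).mpr (by rw [hcb1, hcb2, mul_one])
  have hat : D.red a ∈ D.Ct := hac ▸ ca.2
  have hca : (⟨D.red a, hat⟩ : D.Ct) = ca := Subtype.ext hac
  obtain ⟨hτat, hτa1, hτa2⟩ := hD.frob a (τo a) hat rfl
  rw [hca, hca1] at hτa1
  rw [hca, hca2, one_pow] at hτa2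
  -- `ξ_V = ξ ^ (m g)`
  have hξVeq : (ξV : Z) = (ξ : Z) ^ (m * g) := by
    have h1 := (hξV (⟨_, hτat⟩ * cb ^ e)).mp ⟨τo a * b ^ e, by
      show IsTw (A := A) m (τ W / W ^ e) (τ a * (b : F) ^ e)
      rw [hVeq]
      exact (semi_isTw τ τA hτ ha).mul (hb.pow e), by
      rw [map_mul, map_pow, hbc]; rfl⟩
    rw [map_mul, map_mul, map_pow, map_pow, hτa1, hτa2, hcb1, hcb2, one_pow, mul_one, mul_one,
      pow_mul_pow_of_eq hQe _ _ (Units.mul_inv ξ)] at h1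
    exact h1.symm
  -- `ξ ^ m ζ(c₁) = ζ(c₂)`
  have hξm : (ξ : Z) ^ m * ζ c₁ = ζ c₂ := by
    have h1 := (D.eq_iff (ca ^ m * mt c₁ c₂)).mpr ⟨a ^ m * Wo, ha, by
      rw [map_mul, map_pow, hac, hredW, ← hmt_coe]; rfl⟩
    rw [map_mul, map_mul, map_pow, map_pow, hca1, hca2, hp₁mt, hp₂mt, one_pow, one_mul] at h1
    exact h1
  -- the element `y♭`
  have hkey : D.p₁ (mt ((c₁⁻¹ ^ g : Aˣ) : A) ((c₂⁻¹ ^ g : Aˣ) : A))
      = ξV * D.p₂ (mt ((c₁⁻¹ ^ g : Aˣ) : A) ((c₂⁻¹ ^ g : Aˣ) : A)) := by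
    rw [hp₁mt, hp₂mt, hξVeq, Units.val_pow_eq_pow_val, Units.val_pow_eq_pow_val, map_pow, map_pow,
      pow_mul, ← mul_pow]
    congr 1
    have h1 := hζu c₁
    have h2 := hζu c₂
    calc ζ ((c₁⁻¹ : Aˣ) : A) = ζ ((c₁⁻¹ : Aˣ) : A) * (ζ c₂ * ζ ((c₂⁻¹ : Aˣ) : A)) := by
          rw [h2, mul_one]
      _ = ζ ((c₁⁻¹ : Aˣ) : A) * ((ξ : Z) ^ m * ζ c₁ * ζ ((c₂⁻¹ : Aˣ) : A)) := by rw [hξm]
      _ = (ξ : Z) ^ m * ζ ((c₂⁻¹ : Aˣ) : A) * (ζ c₁ * ζ ((c₁⁻¹ : Aˣ) : A)) := by ring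
      _ = (ξ : Z) ^ m * ζ ((c₂⁻¹ : Aˣ) : A) := by rw [h1, mul_one]
  obtain ⟨y, hy, hyc⟩ := (hξV _).mpr hkey
  rw [hmt_coe, ← hmo_red] at hyc
  refine ⟨hVOL, y, hy, ?_, ?_⟩
  · have := (D.red_eq_iff _ _).mp hyc
    rw [hmo_coe] at this
    exact this
  · have h1 : D.red (y ^ m * Vo) = D.red 1 := by
      rw [map_mul, map_pow, hyc, hmo_red, hredV, mix_pow heb, mix_mul heb, map_one,
        Units.val_pow_eq_pow_val, Units.val_pow_eq_pow_val, map_pow, map_pow, ← pow_mul, ← pow_mul,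
        mul_comm g m, ← mul_pow, ← mul_pow, mul_comm (κ _) (κ (c₁ : A)),
        mul_comm (κ _) (κ (c₂ : A)), hκu, hκu, one_pow, mix_one]
    have := (D.red_eq_iff _ _).mp h1
    rw [← hVo_coe]
    exact this

end Fermat.Agent.SS.G2
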