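import Fermat.Agent.SS.G2.Twist
import Fermat.Agent.Crux.G.Tame

/-!
# SS / G2 : the index inequality on the generic fibre

TASK `SS/G2-Idx`.

`b` an `E`-basis of `F` inside `M`; `l`, `l'` families with `sl I ⊆ ∑ A[X] l_j`,
`sl' I' ⊆ ∑ A[X] l'_j` (`I = I_m(W)`, `I' = I_m(W⁻¹)`), `r I ⊆ M`, `r' I' ⊆ M`, and matrices over
`A[X]` with `(sb r) l_i = ∑ T_ij b_j`, `(sb r') l'_i = ∑ T'_ij b_j`.  If `1 ∈ I_K I'_K` then
`det T det T'` divides `π^j (sb sl sl')^N (r r')^n`.

PROOF.  Dictionary as in `Crux/G/Tame.lean` (`tame_of_unram`, `tame_of_unram_aux`,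
`isBK_iff_isIntegral`): `K = FractionRing A`, `A' = K[X]` (a PID, localisation of `A[X]`),
`B' = integralClosure A' F` (Dedekind, finite, torsion free over `A'`), `IsBK π y ↔ y ∈ B'`.
* `𝔞 = {z ∈ B' : z = r • y, IsBK π (y^m W)}`, `𝔞' = {z : z = r' • y', IsBK π (y'^m W⁻¹)}` are
  ideals of `B'` (additivity: the `w`-trick of `IsTw.add`, now over `A'`; note `r • y ∈ B'` because
  `π^j y ∈ I` for `j` large).
* `𝔞 𝔞' = (r r') B'`: `⊆` since `y y' ∈ B'` (its `m`-th power is in `B'`); `⊇` by `InvK`: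
  `r r' = ∑ (r a_i)(r' b_i)`.
* Mathlib: `Ideal.spanNorm_mul`, `Ideal.spanNorm_singleton`, `Algebra.intNorm`/
  `Algebra.algebraMap_intNorm` : `spanNorm A' 𝔞 * spanNorm A' 𝔞' = span {(r r')^n}`.
* EASY INCLUSION.  Let `𝒩 ⊆ E` be the subring `{c : ∃ j N, π^j (sb sl sl')^N c ∈ A[X]}`.  For
  `z = r • y ∈ 𝔞` and every `i`: `y b_i ∈ I_K`, so `π^j y b_i ∈ I`, `sl π^j y b_i = ∑_k c_ik l_k`,
  `(sb sl π^j) z b_i = ∑_k c_ik ∑_j' T_kj' b_j'`.  Hence (`Algebra.norm_eq_matrix_det`,
  `Algebra.leftMulMatrix`) `(sb sl π^j)^n N_{F/E}(z) = det c * det T`, i.e. `N(z) ∈ det T * 𝒩`.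
  So `spanNorm A' 𝔞 ⊆ {c : c ∈ det T * 𝒩}` (`Ideal.span_le`), same for `𝔞'`, and
  `(r r')^n ∈ det T det T' 𝒩` (`Ideal.mul_le`).
-/

set_option autoImplicit false

open Polynomial

namespace Fermat.Agent.SS.G2

open Fermat.Agent.Crux.G

/-! ### the `w`-trick over an arbitrary base ring -/

section Root

variable {R : Type*} [CommRing R] {F : Type*} [Field F] [Algebra R F]

theorem idx_isIntegral_iff {m : ℕ} (hm : 0 < m) {W : F} {w : AlgebraicClosure F}
    (hw : w ^ m = algebraMap F (AlgebraicClosure F) W) (y : F) :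
    IsIntegral R (y ^ m * W) ↔ IsIntegral R (algebraMap F (AlgebraicClosure F) y * w) := by
  have h : (algebraMap F (AlgebraicClosure F) y * w) ^ m =
      algebraMap F (AlgebraicClosure F) (y ^ m * W) := by
    rw [mul_pow, hw, map_mul, map_pow]
  constructor
  · intro hy
    refine IsIntegral.of_pow hm ?_
    rw [h]
    exact hy.algebraMap
  · intro hy
    have h2 := hy.pow m
    rw [h] at h2
    exact (isIntegral_algebraMap_iff (algebraMap F (AlgebraicClosure F)).injective).1 h2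

/-- the ideal `ρ I ∩ B'` of `B'`, `I = {y : y w` integral`}`. -/
def idxIdeal (R : Type*) [CommRing R] {F : Type*} [Field F] [Algebra R F] (ρ : F)
    (w : AlgebraicClosure F) : Ideal (integralClosure R F) where
  carrier := {z | ∃ y : F, (z : F) = ρ * y ∧
    IsIntegral R (algebraMap F (AlgebraicClosure F) y * w)}
  add_mem' := by
    rintro z1 z2 ⟨y1, h1, i1⟩ ⟨y2, h2, i2⟩
    refine ⟨y1 + y2, ?_, ?_⟩
    · rw [mul_add, ← h1, ← h2]
      rfl
    · rw [map_add, add_mul]
      exact i1.add i2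
  zero_mem' := ⟨0, by simp, by simpa using isIntegral_zero⟩
  smul_mem' := by
    rintro c z ⟨y, h, i⟩
    refine ⟨c * y, ?_, ?_⟩
    · rw [mul_left_comm, ← h]
      rfl
    · rw [map_mul, mul_assoc]
      exact (IsIntegral.algebraMap c.2).mul i

theorem mem_idxIdeal {ρ : F} {w : AlgebraicClosure F} {z : integralClosure R F} :
    z ∈ idxIdeal R ρ w ↔ ∃ y : F, (z : F) = ρ * y ∧
      IsIntegral R (algebraMap F (AlgebraicClosure F) y * w) := Iff.rfl

end Root

/-! ### the relation `x ∈ D · A[X][1/π, 1/s]` -/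

section Q

variable {A : Type*} [CommRing A] {E : Type*} [Field E] [Algebra A[X] E]

/-- `x ∈ D · A[X][1/π, 1/s]`. -/
def IdxQ (π : A) (s : A[X]) (D x : E) : Prop :=
  ∃ (r₀ : A[X]) (j N : ℕ),
    algebraMap A[X] E r₀ * D = algebraMap A[X] E ((C π) ^ j * s ^ N) * x

variable {π : A} {s : A[X]} {D D' x y : E}

theorem IdxQ.zero : IdxQ π s D (0 : E) := ⟨0, 0, 0, by simp⟩

theorem IdxQ.add (hx : IdxQ π s D x) (hy : IdxQ π s D y) : IdxQ π s D (x + y) := by
  obtain ⟨r1, j1, N1, h1⟩ := hx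
  obtain ⟨r2, j2, N2, h2⟩ := hy
  refine ⟨r1 * ((C π) ^ j2 * s ^ N2) + r2 * ((C π) ^ j1 * s ^ N1), j1 + j2, N1 + N2, ?_⟩
  have e : ((C π) ^ (j1 + j2) * s ^ (N1 + N2) : A[X]) =
      ((C π) ^ j1 * s ^ N1) * ((C π) ^ j2 * s ^ N2) := by ring
  rw [e]
  generalize (C π) ^ j1 * s ^ N1 = u1 at h1 ⊢
  generalize (C π) ^ j2 * s ^ N2 = u2 at h2 ⊢
  rw [map_add, map_mul, map_mul, map_mul]
  linear_combination (algebraMap A[X] E u2) * h1 + (algebraMap A[X] E u1) * h2

theorem IdxQ.mul (hx : IdxQ π s D x) (hy : IdxQ π s D' y) : IdxQ π s (D * D') (x * y) := by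
  obtain ⟨r1, j1, N1, h1⟩ := hx
  obtain ⟨r2, j2, N2, h2⟩ := hy
  refine ⟨r1 * r2, j1 + j2, N1 + N2, ?_⟩
  have e : ((C π) ^ (j1 + j2) * s ^ (N1 + N2) : A[X]) =
      ((C π) ^ j1 * s ^ N1) * ((C π) ^ j2 * s ^ N2) := by ring
  rw [e]
  generalize (C π) ^ j1 * s ^ N1 = u1 at h1 ⊢
  generalize (C π) ^ j2 * s ^ N2 = u2 at h2 ⊢
  rw [map_mul, map_mul]
  linear_combination (algebraMap A[X] E r2 * D') * h1 + (algebraMap A[X] E u1 * x) * h2

theorem IdxQ.smul {a : E}
    (ha : ∃ (i : ℕ) (a₁ : A[X]), algebraMap A[X] E ((C π) ^ i) * a = algebraMap A[X] E a₁)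
    (hx : IdxQ π s D x) : IdxQ π s D (a * x) := by
  obtain ⟨r1, j1, N1, h1⟩ := hx
  obtain ⟨i, a₁, hi⟩ := ha
  refine ⟨r1 * a₁, j1 + i, N1, ?_⟩
  have e : ((C π) ^ (j1 + i) * s ^ N1 : A[X]) = ((C π) ^ j1 * s ^ N1) * (C π) ^ i := by ring
  rw [e]
  generalize (C π) ^ j1 * s ^ N1 = u1 at h1 ⊢
  generalize (C π) ^ i = u2 at hi ⊢
  rw [map_mul, map_mul, ← hi]
  linear_combination (algebraMap A[X] E u2 * a) * h1

/-- the ideal of `A'` of the elements in `D · A[X][1/π, 1/s]`. -/
def idxJ (A' : Type*) [CommRing A'] [Algebra A' E] (π : A) (s : A[X]) (D : E)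
    (hA' : ∀ a : A', ∃ (i : ℕ) (a₁ : A[X]),
      algebraMap A[X] E ((C π) ^ i) * algebraMap A' E a = algebraMap A[X] E a₁) : Ideal A' where
  carrier := {c | IdxQ π s D (algebraMap A' E c)}
  add_mem' := by
    intro c1 c2 h1 h2
    show IdxQ π s D (algebraMap A' E (c1 + c2))
    rw [map_add]
    exact IdxQ.add h1 h2
  zero_mem' := by
    show IdxQ π s D (algebraMap A' E 0)
    rw [map_zero]
    exact IdxQ.zero
  smul_mem' := by
    intro a c hc
    show IdxQ π s D (algebraMap A' E (a • c))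
    rw [smul_eq_mul, map_mul]
    exact IdxQ.smul (hA' a) hc

end Q

/-! ### the easy inclusion -/

section Norm

variable {A : Type*} [CommRing A] {π : A}
variable {E : Type*} [Field E] [Algebra A[X] E]
variable {F : Type*} [Field F] [Algebra A[X] F] [Algebra E F] [IsScalarTower A[X] E F]

/-- `I_K = ⋃ π^{-j} I`, uniformly after multiplication by integral elements. -/
theorem exists_isTw_of_isBK {m : ℕ} (hm : 0 < m) {W y : F} (hy : IsBK π (y ^ m * W)) :
    ∃ j : ℕ, ∀ c : F, IsIntegral A[X] c → IsTw (A := A) m W ((C π : A[X]) ^ j • (y * c)) := by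
  obtain ⟨j, hj⟩ := hy
  refine ⟨j, fun c hc => ?_⟩
  obtain ⟨m', rfl⟩ : ∃ m', m = m' + 1 := ⟨m - 1, by omega⟩
  have e : ((C π : A[X]) ^ j • (y * c)) ^ (m' + 1) * W =
      ((C π : A[X]) ^ j) ^ m' • (c ^ (m' + 1) * ((C π : A[X]) ^ j • (y ^ (m' + 1) * W))) := by
    simp only [Algebra.smul_def, map_pow]
    ring
  show IsIntegral A[X] (((C π : A[X]) ^ j • (y * c)) ^ (m' + 1) * W)
  rw [e]
  exact ((hc.pow _).mul hj).smul _

theorem idx_norm {m : ℕ} (hm : 0 < m) {W : F} {n : ℕ} (b : Module.Basis (Fin n) E F)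
    (l : Fin n → F) (hb : ∀ i, IsIntegral A[X] (b i)) (sb sl s' r : A[X])
    (hl : ∀ y : F, IsTw (A := A) m W y → sl • y ∈ Submodule.span A[X] (Set.range l))
    (T : Matrix (Fin n) (Fin n) A[X]) (hT : ∀ i, (sb * r) • l i = ∑ j, T i j • b j)
    (y : F) (hy : IsBK π (y ^ m * W)) :
    IdxQ π (sb * sl * s') (algebraMap A[X] E T.det) (Algebra.norm E (r • y)) := by
  obtain ⟨j0, hj0⟩ := exists_isTw_of_isBK hm hy
  choose c hc using fun i =>
    (Submodule.mem_span_range_iff_exists_fun A[X]).1 (hl _ (hj0 (b i) (hb i)))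
  set g : A[X] := sb * sl * (C π) ^ j0 with hg
  have key : ∀ i, (g • (r • y)) * b i = ∑ j, (Matrix.of c * T) i j • b j := by
    intro i
    have h1 : (g • (r • y)) * b i = (sb * r) • (sl • ((C π : A[X]) ^ j0 • (y * b i))) := by
      simp only [hg, Algebra.smul_def, map_mul, map_pow]
      ring
    rw [h1, ← hc i, Finset.smul_sum]
    simp only [Matrix.mul_apply, Matrix.of_apply, Finset.sum_smul]
    rw [Finset.sum_comm]
    refine Finset.sum_congr rfl fun k _ => ?_
    rw [smul_comm, hT k, Finset.smul_sum]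
    refine Finset.sum_congr rfl fun j _ => ?_
    rw [smul_smul]
  have hmat : Algebra.leftMulMatrix b (g • (r • y)) =
      Matrix.transpose ((Matrix.of c * T).map (algebraMap A[X] E)) := by
    ext j' i
    rw [Algebra.leftMulMatrix_eq_repr_mul, key i, Matrix.transpose_apply, Matrix.map_apply]
    have h2 : ∑ j, (Matrix.of c * T) i j • b j =
        ∑ j, (algebraMap A[X] E ((Matrix.of c * T) i j)) • b j :=
      Finset.sum_congr rfl fun j _ => (algebraMap_smul E _ _).symm
    rw [h2, Module.Basis.repr_sum_self]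
  have hfr : Module.finrank E F = n := by
    rw [Module.finrank_eq_card_basis b, Fintype.card_fin]
  have hnorm : algebraMap A[X] E g ^ n * Algebra.norm E (r • y) =
      algebraMap A[X] E ((Matrix.of c).det * T.det) := by
    have h3 : Algebra.norm E (g • (r • y)) = algebraMap A[X] E g ^ n * Algebra.norm E (r • y) := by
      rw [← algebraMap_smul E g (r • y), Algebra.smul_def, map_mul, Algebra.norm_algebraMap, hfr]
    rw [← h3, Algebra.norm_eq_matrix_det b, hmat, Matrix.det_transpose,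
      ← RingHom.mapMatrix_apply, ← RingHom.map_det, Matrix.det_mul]
  refine ⟨(Matrix.of c).det * s' ^ n, j0 * n, n, ?_⟩
  have e : ((C π) ^ (j0 * n) * (sb * sl * s') ^ n : A[X]) = s' ^ n * g ^ n := by
    rw [hg, pow_mul]
    ring
  rw [e, map_mul, map_mul, map_pow (algebraMap A[X] E) g, mul_assoc (algebraMap A[X] E (s' ^ n)),
    hnorm, map_mul]
  ring

end Norm

/-! ### the abstract Dedekind argument -/

section Aux

variable {A : Type*} [CommRing A] {π : A}
variable {E : Type*} [Field E] [Algebra A[X] E] [IsFractionRing A[X] E] [CharZero E]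
variable {F : Type*} [Field F] [Algebra A[X] F] [Algebra E F] [IsScalarTower A[X] E F]
  [FiniteDimensional E F]
variable (A' : Type*) [CommRing A'] [IsDedekindDomain A'] [Algebra A[X] A'] (M : Submonoid A[X])
  [IsLocalization M A'] [Algebra A' E] [IsScalarTower A[X] A' E] [IsFractionRing A' E]
  [Algebra A' F] [IsScalarTower A' E F] [IsScalarTower A[X] A' F]

theorem idx_aux (hM : ∀ m ∈ M, ∃ (u : A[X]) (j : ℕ), u * m = (C π) ^ j)
    (hπM : IsUnit (algebraMap A[X] A' (C π))) {m : ℕ} (hm : 0 < m) {W : F}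
    (hinv : InvK π m W) {n : ℕ} (b : Module.Basis (Fin n) E F) (l l' : Fin n → F)
    (hb : ∀ i, IsIntegral A[X] (b i))
    (sb sl sl' r r' : A[X])
    (hl : ∀ y : F, IsTw (A := A) m W y → sl • y ∈ Submodule.span A[X] (Set.range l))
    (hl' : ∀ y : F, IsTw (A := A) m W⁻¹ y → sl' • y ∈ Submodule.span A[X] (Set.range l'))
    (hr : ∀ y : F, IsTw (A := A) m W y → IsIntegral A[X] (r • y))
    (hr' : ∀ y : F, IsTw (A := A) m W⁻¹ y → IsIntegral A[X] (r' • y))
    (T T' : Matrix (Fin n) (Fin n) A[X])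
    (hT : ∀ i, (sb * r) • l i = ∑ j, T i j • b j)
    (hT' : ∀ i, (sb * r') • l' i = ∑ j, T' i j • b j) :
    ∃ (r₀ : A[X]) (j N : ℕ),
      r₀ * (T.det * T'.det) = (C π) ^ j * (sb * sl * sl') ^ N * (r * r') ^ n := by
  have hBK : ∀ y : F, IsBK π y ↔ IsIntegral A' y := isBK_iff_isIntegral A' M hM hπM
  let B' := integralClosure A' F
  have hsep : Algebra.IsSeparable E F := inferInstance
  have hinjL : Function.Injective (algebraMap A' F) := by
    rw [IsScalarTower.algebraMap_eq A' E F]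
    exact (algebraMap E F).injective.comp (IsFractionRing.injective A' E)
  have hTFL : Module.IsTorsionFree A' F := Module.isTorsionFree_iff_algebraMap_injective.mpr hinjL
  have hDed : IsDedekindDomain B' := integralClosure.isDedekindDomain A' E F
  have hFr : IsFractionRing B' F := integralClosure.isFractionRing_of_finite_extension E F
  have hFin : Module.Finite A' B' := IsIntegralClosure.finite A' E F B'
  have hTF : Module.IsTorsionFree A' B' := inferInstance
  -- elements of `A'` have denominators `π^i`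
  have hA' : ∀ a : A', ∃ (i : ℕ) (a₁ : A[X]),
      algebraMap A[X] E ((C π) ^ i) * algebraMap A' E a = algebraMap A[X] E a₁ := by
    intro a
    obtain ⟨⟨a₀, μ⟩, ha⟩ := IsLocalization.surj M a
    obtain ⟨u, i, hu⟩ := hM μ μ.2
    refine ⟨i, u * a₀, ?_⟩
    have ha' : a * algebraMap A[X] A' (μ : A[X]) = algebraMap A[X] A' a₀ := ha
    rw [← hu, map_mul, map_mul, IsScalarTower.algebraMap_apply A[X] A' E (μ : A[X]),
      IsScalarTower.algebraMap_apply A[X] A' E a₀, ← ha', map_mul]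
    ring
  -- the root `w`
  obtain ⟨w, hw⟩ := IsAlgClosed.exists_pow_nat_eq (algebraMap F (AlgebraicClosure F) W) hm
  have hw' : (w⁻¹) ^ m = algebraMap F (AlgebraicClosure F) W⁻¹ := by
    rw [inv_pow, hw, map_inv₀]
  set 𝔞 : Ideal B' := idxIdeal A' (algebraMap A[X] F r) w with h𝔞
  set 𝔞' : Ideal B' := idxIdeal A' (algebraMap A[X] F r') w⁻¹ with h𝔞'
  -- `r I_K ⊆ B'`
  have hrB : ∀ (W₁ : F) (r₁ : A[X]), (∀ y : F, IsTw (A := A) m W₁ y → IsIntegral A[X] (r₁ • y)) →
      ∀ y : F, IsBK π (y ^ m * W₁) → IsIntegral A' (algebraMap A[X] F r₁ * y) := by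
    intro W₁ r₁ h₁ y hy
    obtain ⟨j, hj⟩ := exists_isTw_of_isBK hm hy
    have h2 := h₁ _ (hj 1 isIntegral_one)
    rw [mul_one, smul_comm] at h2
    rw [← Algebra.smul_def]
    exact (hBK _).1 ⟨j, h2⟩
  -- `r r' ∈ 𝔞 𝔞'`
  have hmem : algebraMap A' B' (algebraMap A[X] A' (r * r')) ∈ 𝔞 * 𝔞' := by
    obtain ⟨k, a, a', ha, ha', hsum⟩ := hinv
    have h1 : algebraMap A' B' (algebraMap A[X] A' (r * r')) =
        ∑ i, (⟨algebraMap A[X] F r * a i, hrB W r hr _ (ha i)⟩ : B') *
          (⟨algebraMap A[X] F r' * a' i, hrB W⁻¹ r' hr' _ (ha' i)⟩ : B') := by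
      apply Subtype.ext
      rw [AddSubmonoidClass.coe_finsetSum]
      have h2 : ((algebraMap A' B' (algebraMap A[X] A' (r * r')) : B') : F) =
          algebraMap A[X] F (r * r') := by
        show algebraMap B' F (algebraMap A' B' (algebraMap A[X] A' (r * r'))) = _
        rw [← IsScalarTower.algebraMap_apply A' B' F, ← IsScalarTower.algebraMap_apply A[X] A' F]
      rw [h2]
      have h3 : ∀ i, (((⟨algebraMap A[X] F r * a i, hrB W r hr _ (ha i)⟩ : B') *
          (⟨algebraMap A[X] F r' * a' i, hrB W⁻¹ r' hr' _ (ha' i)⟩ : B') : B') : F) =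
          algebraMap A[X] F (r * r') * (a i * a' i) := by
        intro i
        rw [map_mul]
        show (algebraMap A[X] F r * a i) * (algebraMap A[X] F r' * a' i) = _
        ring
      rw [Finset.sum_congr rfl fun i _ => h3 i, ← Finset.mul_sum, hsum, mul_one]
    rw [h1]
    refine Ideal.sum_mem _ fun i _ => Ideal.mul_mem_mul ?_ ?_
    · exact ⟨a i, rfl, (idx_isIntegral_iff hm hw _).1 ((hBK _).1 (ha i))⟩
    · exact ⟨a' i, rfl, (idx_isIntegral_iff hm hw' _).1 ((hBK _).1 (ha' i))⟩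
  -- norms
  have hN : ∀ z : B', algebraMap A' E (Algebra.intNorm A' B' z) = Algebra.norm E (z : F) :=
    fun z => Algebra.algebraMap_intNorm (K := E) (L := F) z
  have hJ : Ideal.spanNorm A' 𝔞 ≤
      idxJ A' π (sb * sl * sl') (algebraMap A[X] E T.det) hA' := by
    refine Ideal.span_le.2 ?_
    rintro _ ⟨z, ⟨y, hzy, hy⟩, rfl⟩
    show IdxQ π (sb * sl * sl') _ (algebraMap A' E (Algebra.intNorm A' B' z))
    rw [hN, hzy, ← Algebra.smul_def]
    exact idx_norm hm b l hb sb sl sl' r hl T hT y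
      ((hBK _).2 ((idx_isIntegral_iff hm hw _).2 hy))
  have hJ' : Ideal.spanNorm A' 𝔞' ≤
      idxJ A' π (sb * sl * sl') (algebraMap A[X] E T'.det) hA' := by
    refine Ideal.span_le.2 ?_
    rintro _ ⟨z, ⟨y, hzy, hy⟩, rfl⟩
    show IdxQ π (sb * sl * sl') _ (algebraMap A' E (Algebra.intNorm A' B' z))
    rw [hN, hzy, ← Algebra.smul_def, mul_right_comm sb sl sl']
    exact idx_norm hm b l' hb sb sl' sl r' hl' T' hT' y
      ((hBK _).2 ((idx_isIntegral_iff hm hw' _).2 hy))
  have hprod : Ideal.spanNorm A' 𝔞 * Ideal.spanNorm A' 𝔞' ≤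
      idxJ A' π (sb * sl * sl') (algebraMap A[X] E T.det * algebraMap A[X] E T'.det) hA' := by
    refine Ideal.mul_le.2 fun c hc c' hc' => ?_
    show IdxQ π (sb * sl * sl') _ (algebraMap A' E (c * c'))
    rw [map_mul]
    exact IdxQ.mul (hJ hc) (hJ' hc')
  have hfin : IdxQ π (sb * sl * sl') (algebraMap A[X] E T.det * algebraMap A[X] E T'.det)
      (algebraMap A' E (Algebra.intNorm A' B' (algebraMap A' B' (algebraMap A[X] A' (r * r'))))) := by
    apply hprod
    rw [← Ideal.spanNorm_mul]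
    exact Ideal.intNorm_mem_spanNorm _ hmem
  have hfr : Module.finrank E F = n := by
    rw [Module.finrank_eq_card_basis b, Fintype.card_fin]
  have hval : algebraMap A' E
      (Algebra.intNorm A' B' (algebraMap A' B' (algebraMap A[X] A' (r * r')))) =
      algebraMap A[X] E ((r * r') ^ n) := by
    rw [hN]
    have h2 : ((algebraMap A' B' (algebraMap A[X] A' (r * r')) : B') : F) =
        algebraMap E F (algebraMap A[X] E (r * r')) := by
      show algebraMap B' F (algebraMap A' B' (algebraMap A[X] A' (r * r'))) = _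
      rw [← IsScalarTower.algebraMap_apply A' B' F, ← IsScalarTower.algebraMap_apply A[X] A' F,
        ← IsScalarTower.algebraMap_apply A[X] E F]
    rw [h2, Algebra.norm_algebraMap, hfr, map_pow]
  rw [hval] at hfin
  obtain ⟨r₀, j, N, h⟩ := hfin
  refine ⟨r₀, j, N, IsFractionRing.injective A[X] E ?_⟩
  rw [map_mul, map_mul, map_mul, h]

end Aux

section Final

open nonZeroDivisors

variable {A : Type*} [CommRing A] [IsDomain A] [IsDiscreteValuationRing A] {π : A}
variable {E : Type*} [Field E] [Algebra A[X] E] [IsFractionRing A[X] E] [CharZero E]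
variable {F : Type*} [Field F] [Algebra A[X] F] [Algebra E F] [IsScalarTower A[X] E F]
  [FiniteDimensional E F]

attribute [local instance] Polynomial.algebra

theorem idx (hπ : Irreducible π) {m : ℕ} (hm : 0 < m) {W : F} (hW0 : W ≠ 0)
    (hinv : InvK π m W) {n : ℕ} (b : Module.Basis (Fin n) E F) (l l' : Fin n → F)
    (hb : ∀ i, IsIntegral A[X] (b i))
    (sb sl sl' r r' : A[X])
    (hl : ∀ y : F, IsTw (A := A) m W y → sl • y ∈ Submodule.span A[X] (Set.range l))
    (hl' : ∀ y : F, IsTw (A := A) m W⁻¹ y → sl' • y ∈ Submodule.span A[X] (Set.range l'))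
    (hr : ∀ y : F, IsTw (A := A) m W y → IsIntegral A[X] (r • y))
    (hr' : ∀ y : F, IsTw (A := A) m W⁻¹ y → IsIntegral A[X] (r' • y))
    (T T' : Matrix (Fin n) (Fin n) A[X])
    (hT : ∀ i, (sb * r) • l i = ∑ j, T i j • b j)
    (hT' : ∀ i, (sb * r') • l' i = ∑ j, T' i j • b j) :
    ∃ (r₀ : A[X]) (j N : ℕ),
      r₀ * (T.det * T'.det) = (C π) ^ j * (sb * sl * sl') ^ N * (r * r') ^ n := by
  let K := FractionRing A
  let M : Submonoid A[X] := Submonoid.map (C : A →+* A[X]) A⁰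
  have hloc : IsLocalization M K[X] := Polynomial.isLocalization A⁰ K
  have hunits : ∀ m : M, IsUnit (algebraMap A[X] E m) := by
    rintro ⟨_, a, ha, rfl⟩
    apply IsUnit.mk0
    rw [Ne, map_eq_zero_iff _ (IsFractionRing.injective A[X] E)]
    exact C_ne_zero.mpr (nonZeroDivisors.ne_zero ha)
  let algE : Algebra K[X] E := (IsLocalization.lift (M := M) (S := K[X]) hunits).toAlgebra
  have tw1 : IsScalarTower A[X] K[X] E :=
    IsScalarTower.of_algebraMap_eq (fun r => (IsLocalization.lift_eq hunits r).symm)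
  have : IsFractionRing K[X] E :=
    IsFractionRing.isFractionRing_of_isDomain_of_isLocalization M K[X] E
  let algL : Algebra K[X] F := ((algebraMap E F).comp (algebraMap K[X] E)).toAlgebra
  have tw2 : IsScalarTower K[X] E F := IsScalarTower.of_algebraMap_eq (fun _ => rfl)
  have tw3 : IsScalarTower A[X] K[X] F := IsScalarTower.of_algebraMap_eq (fun r => by
    rw [IsScalarTower.algebraMap_apply A[X] E F, IsScalarTower.algebraMap_apply A[X] K[X] E]
    rfl)
  refine idx_aux (π := π) K[X] M ?_ ?_ hm hinv b l l' hb sb sl sl' r r' hl hl' hr hr' T T'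
    hT hT'
  · rintro _ ⟨a, ha, rfl⟩
    obtain ⟨j, u, hu⟩ := IsDiscreteValuationRing.eq_unit_mul_pow_irreducible
      (nonZeroDivisors.ne_zero ha) hπ
    refine ⟨C ((u⁻¹ : Aˣ) : A), j, ?_⟩
    rw [hu]
    show C ((u⁻¹ : Aˣ) : A) * C ((u : A) * π ^ j) = C π ^ j
    rw [← C_mul, ← mul_assoc, Units.inv_mul, one_mul, C_pow]
  · have h1 : algebraMap A[X] K[X] (C π) = C (algebraMap A K π) := by
      simp [Polynomial.algebraMap_def]
    rw [h1]
    apply Polynomial.isUnit_C.mpr
    apply IsUnit.mk0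
    rw [Ne, map_eq_zero_iff _ (IsFractionRing.injective A K)]
    exact hπ.ne_zero

end Final

end Fermat.Agent.SS.G2
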