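import Fermat.Agent.SS.G2.Twist

/-!
# SS / G2 : the basis package for the twisted lattice `I = I_m(W)`, `W ∈ O_F^×`

TASK `SS/G2-Pkg`.

PROOF (same as `Crux.G.exists_pkg`, with `M` replaced by `I`).
(1) `I = twSub A hm W` is f.g. (`twSub_fg`) and contained in `O_F` (`IsTw.isOL`):
    `Crux.G.exists_basis_mod E hπ I ..` gives `l_j ∈ I` (`j < n'`), generating `I` mod `π O_F`,
    independent mod `π`.
(2) NAK: `N = ∑ A[X] l_j ⊆ I`.  `I ⊆ N + π I`: for `y ∈ I`, `y - ∑ r_j l_j = π z`, `z ∈ O_F`, and
    `z ∈ I` by saturation (`IsTw.of_C_smul`).  So `I ≤ N ⊔ (C π) • I`, and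
    `Submodule.exists_sub_one_mem_and_smul_eq_zero_of_fg_of_le_smul` (applied to `I / N`) or
    `Submodule.le_of_le_smul_of_le_jacobson_bot`-style determinant trick
    (cf. `Crux.G.exists_smul_mem_of_le`, `det_smul_mem_of_mulVec_mem`, `dvd_det_sub_pow`) gives
    `s ≡ 1 mod π` with `s I ⊆ N`.
(3) `l` is `E`-independent (`linearIndependent_of_indep_mod`) and spans: for `y ∈ F` there is
    `a ≠ 0` in `A[X]` with `a • y` integral, `r' • a • y ∈ I` (`exists_smul_isTw_of_isIntegral`),
    `s • r' • a • y ∈ N`.  So `l` is a basis, `n' = finrank E F`; reindex (`Basis.reindex`,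
    `finCongr`).
-/

set_option autoImplicit false

open Polynomial

namespace Fermat.Agent.SS.G2

open Fermat.Agent.Crux.G

variable {A : Type*} [CommRing A] [IsDomain A] [IsDiscreteValuationRing A] {π : A}
variable {E : Type*} [Field E] [Algebra A[X] E] [IsFractionRing A[X] E] [CharZero E]
variable {F : Type*} [Field F] [Algebra A[X] F] [Algebra E F] [IsScalarTower A[X] E F]
  [FiniteDimensional E F]

open scoped Pointwise in
theorem exists_pkg_tw (hπ : Irreducible π) {m : ℕ} (hm : 0 < m) {W : F} (hW0 : W ≠ 0)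
    (hW : IsOL π W) (hW' : IsOL π W⁻¹) :
    ∃ (l : Module.Basis (Fin (Module.finrank E F)) E F) (s : A[X]),
      (∀ i, IsTw (A := A) m W (l i)) ∧ C π ∣ s - 1 ∧
      (∀ y : F, IsTw (A := A) m W y → s • y ∈ Submodule.span A[X] (Set.range l)) ∧
      (∀ c : Fin (Module.finrank E F) → A[X], IsPiOL π (∑ j, c j • l j) → ∀ j, C π ∣ c j) := by
  have hp : Prime π := hπ.prime
  have hfg : (twSub A hm W).FG := twSub_fg E hm hW0 hW'
  obtain ⟨n', l, hlI, hgen, hind⟩ := exists_basis_mod E hπ (twSub A hm W) hfg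
    (fun y hy => IsTw.isOL hp hm hW0 hW' hy)
  have hNI : Submodule.span A[X] (Set.range l) ≤ twSub A hm W := by
    rw [Submodule.span_le]
    rintro _ ⟨j, rfl⟩
    exact hlI j
  have hle : twSub A hm W ≤ Submodule.span A[X] (Set.range l) ⊔
      Ideal.span {(C π : A[X])} • twSub A hm W := by
    intro y hy
    obtain ⟨r, z, hz, e⟩ := hgen y hy
    have hsum : ∑ j, r j • l j ∈ Submodule.span A[X] (Set.range l) :=
      Submodule.sum_mem _ fun j _ => Submodule.smul_mem _ _ (Submodule.subset_span ⟨j, rfl⟩)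
    have hz' : IsTw (A := A) m W z := IsTw.of_C_smul E hp hW hz (by
      rw [← e]
      exact (twSub A hm W).sub_mem hy (hNI hsum))
    have hy' : y = ∑ j, r j • l j + (C π : A[X]) • z := by rw [← e]; abel
    rw [hy']
    exact Submodule.add_mem_sup hsum
      (Submodule.smul_mem_smul (Ideal.mem_span_singleton_self _) hz')
  obtain ⟨s, hs1, hs⟩ := Submodule.exists_sub_one_mem_and_smul_le_of_fg_of_le_sup hfg le_rfl hle
  have hsdvd : C π ∣ s - 1 := Ideal.mem_span_singleton.mp hs1
  have hCp : Prime (C π : A[X]) := Polynomial.prime_C_iff.mpr hp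
  have hs0 : s ≠ 0 := by
    rintro rfl
    have : C π ∣ (1 : A[X]) := by simpa using hsdvd
    exact hCp.not_isUnit (isUnit_of_dvd_one this)
  have hsI : ∀ y : F, IsTw (A := A) m W y → s • y ∈ Submodule.span A[X] (Set.range l) :=
    fun y hy => hs (Submodule.smul_mem_pointwise_smul y s _ hy)
  have hli := linearIndependent_of_indep_mod (E := E) hπ l hind
  obtain ⟨r', hr', hr'M⟩ := exists_smul_isTw_of_isIntegral (A := A) (π := π) hm hW
  have hr'0 : r' ≠ 0 := fun h => hr' (h ▸ dvd_zero _)
  have hinj : Function.Injective (algebraMap A[X] E) := IsFractionRing.injective A[X] E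
  have hle2 : Submodule.span A[X] (Set.range l) ≤
      (Submodule.span E (Set.range l)).restrictScalars A[X] :=
    Submodule.span_le.mpr fun x hx => Submodule.subset_span hx
  have hsp : ⊤ ≤ Submodule.span E (Set.range l) := by
    intro y _
    have halg : IsAlgebraic A[X] y :=
      (IsFractionRing.isAlgebraic_iff A[X] E F).mpr (Algebra.IsAlgebraic.isAlgebraic y)
    obtain ⟨t, ht, hty⟩ := halg.exists_integral_multiple
    have h1 : s • r' • t • y ∈ Submodule.span E (Set.range l) := hle2 (hsI _ (hr'M _ hty))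
    have hst : algebraMap A[X] E (s * r' * t) ≠ 0 := by
      rw [Ne, map_eq_zero_iff _ hinj]; exact mul_ne_zero (mul_ne_zero hs0 hr'0) ht
    have h2 : y = (algebraMap A[X] E (s * r' * t))⁻¹ • (s • r' • t • y) := by
      rw [← mul_smul, ← mul_smul, ← algebraMap_smul E (s * r' * t) y, smul_smul,
        inv_mul_cancel₀ hst, one_smul]
    rw [h2]
    exact Submodule.smul_mem _ _ h1
  let b : Module.Basis (Fin n') E F := Module.Basis.mk hli hsp
  have hb : ∀ j, b j = l j := fun j => Module.Basis.mk_apply hli hsp j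
  have hn : n' = Module.finrank E F := by
    rw [Module.finrank_eq_card_basis b, Fintype.card_fin]
  subst hn
  have hbl : (b : Fin _ → F) = l := funext hb
  refine ⟨b, s, fun i => by rw [hb]; exact hlI i, hsdvd, ?_, ?_⟩
  · rw [hbl]; exact hsI
  · simp only [hb]; exact hind

end Fermat.Agent.SS.G2
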