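import Fermat.Agent.SS.G2.Twist

/-!
# SS / G2 : API for `SFData`
-/

set_option autoImplicit false

open Polynomial

namespace Fermat.Agent.SS.G2

open Fermat.Agent.Crux.G

variable {A : Type*} [CommRing A] [IsDomain A] {π : A}
variable {F : Type*} [Field F] [Algebra A[X] F]
variable {k 𝒜 Z : Type*} [Field k] [CommRing 𝒜] [Algebra k[X] 𝒜] [CommRing Z]
variable {hπ : Prime π} (D : SFData hπ F k 𝒜 Z)

namespace SFData

theorem map_eq_zero_iff (r : A[X]) : r.map D.res = 0 ↔ C π ∣ r := by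
  rw [C_dvd_iff_dvd_coeff]
  constructor
  · intro h i
    rw [← D.res_ker, ← coeff_map, h, coeff_zero]
  · intro h
    ext i
    rw [coeff_map, coeff_zero, D.res_ker]
    exact h i

theorem map_surj (p : k[X]) : ∃ r : A[X], r.map D.res = p :=
  Polynomial.map_surjective _ D.res_surj p

theorem map_eq_one {s : A[X]} (h : C π ∣ s - 1) : s.map D.res = 1 := by
  have := (D.map_eq_zero_iff _).mpr h
  rw [Polynomial.map_sub, Polynomial.map_one, sub_eq_zero] at this
  exact this

theorem red_eq_iff (y y' : OF hπ F) : D.red y = D.red y' ↔ IsPiOL π ((y : F) - y') := by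
  rw [← sub_eq_zero, ← map_sub, D.red_ker]
  rfl

theorem algebraMap_map (r : A[X]) :
    algebraMap k[X] 𝒜 (r.map D.res) = D.red (algebraMap A[X] (OF hπ F) r) := by
  have := D.red_smul r 1
  rw [map_one, Algebra.smul_def, mul_one, Algebra.smul_def, mul_one] at this
  exact this.symm

theorem red_sum_smul {n : ℕ} (c : Fin n → A[X]) (l : Fin n → OF hπ F) :
    D.red (∑ j, c j • l j) = ∑ j, (c j).map D.res • D.red (l j) := by
  rw [map_sum]
  exact Finset.sum_congr rfl fun j _ => D.red_smul _ _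

theorem tf [FaithfulSMul A[X] F] {p : k[X]} (hp : p ≠ 0) {y : OF hπ F} (h : p • D.red y = 0) :
    D.red y = 0 := by
  obtain ⟨r, rfl⟩ := D.map_surj p
  rw [← D.red_smul, D.red_ker] at h
  rw [D.red_ker]
  refine IsPiOL.of_smul hπ (fun hd => hp ((D.map_eq_zero_iff r).mpr hd)) (s := r) ?_
  exact h

theorem tf' [FaithfulSMul A[X] F] (p : k[X]) (c : D.Ct) (hp : p ≠ 0) (h : p • c = 0) : c = 0 := by
  obtain ⟨y, hy⟩ := D.lift c c.2
  apply Subtype.ext
  have h' : p • (c : 𝒜) = 0 := by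
    have := congrArg (Subtype.val) h
    simpa using this
  rw [← hy] at h' ⊢
  exact D.tf hp h'

theorem p_algebraMap (p : k[X]) :
    D.p₁ (algebraMap k[X] D.Ct p) = D.p₂ (algebraMap k[X] D.Ct p) := by
  obtain ⟨r, rfl⟩ := D.map_surj p
  rw [D.eq_iff]
  refine ⟨algebraMap A[X] (OF hπ F) r, isIntegral_algebraMap, ?_⟩
  rw [← D.algebraMap_map]
  rfl

variable {m : ℕ} {W : F}

theorem red_mem_of_isTw (hm : 0 < m) (hW0 : W ≠ 0) (hW : IsOL π W) (hW' : IsOL π W⁻¹)
    (hWt' : D.red ⟨W⁻¹, hW'⟩ ∈ D.Ct) (y : OF hπ F) (hy : IsTw (A := A) m W (y : F)) :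
    D.red y ∈ D.Ct := by
  apply D.root y m hm
  have h1 : y ^ m = (y ^ m * ⟨W, hW⟩) * ⟨W⁻¹, hW'⟩ := by
    apply Subtype.ext
    show (y : F) ^ m = ((y : F) ^ m * W) * W⁻¹
    rw [mul_assoc, mul_inv_cancel₀ hW0, mul_one]
  rw [← map_pow, h1, map_mul]
  exact D.Ct.mul_mem (D.int_mem _ hy) hWt'

/-- independence mod `π` gives `k[X]`-linear independence of the reductions. -/
theorem linearIndependent_red {n : ℕ} (l : Fin n → OF hπ F)
    (hind : ∀ c : Fin n → A[X], IsPiOL π (∑ j, c j • (l j : F)) → ∀ j, C π ∣ c j)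
    (lb : Fin n → D.Ct) (hlb : ∀ i, (lb i : 𝒜) = D.red (l i)) : LinearIndependent k[X] lb := by
  rw [Fintype.linearIndependent_iff]
  intro g hg i
  choose c hc using fun j => D.map_surj (g j)
  have h1 : D.red (∑ j, c j • l j) = 0 := by
    rw [D.red_sum_smul]
    have := congrArg (Subtype.val) hg
    simp only [hc, ← hlb]
    simpa using this
  rw [D.red_ker] at h1
  have h2 : ((∑ j, c j • l j : OF hπ F) : F) = ∑ j, c j • (l j : F) := by
    simp
  rw [h2] at h1
  rw [← hc i, D.map_eq_zero_iff]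
  exact hind c h1 i

/-- the reduction of a twisted lattice is spanned by the reductions of a package. -/
theorem mem_span_red_iff (hm : 0 < m) {n : ℕ} (l : Fin n → OF hπ F)
    (hlI : ∀ i, IsTw (A := A) m W (l i : F)) (s : A[X]) (hs1 : C π ∣ s - 1)
    (hs : ∀ y : F, IsTw (A := A) m W y →
      s • y ∈ Submodule.span A[X] (Set.range fun i => (l i : F)))
    (lb : Fin n → D.Ct) (hlb : ∀ i, (lb i : 𝒜) = D.red (l i)) (c : D.Ct) :
    c ∈ Submodule.span k[X] (Set.range lb) ↔
      ∃ y : OF hπ F, IsTw (A := A) m W (y : F) ∧ D.red y = c := by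
  constructor
  · intro h
    obtain ⟨g, hg⟩ := (Submodule.mem_span_range_iff_exists_fun _).mp h
    choose a ha using fun j => D.map_surj (g j)
    refine ⟨∑ j, a j • l j, ?_, ?_⟩
    · have h2 : ((∑ j, a j • l j : OF hπ F) : F) = ∑ j, a j • (l j : F) := by
        simp
      rw [h2]
      exact IsTw.sum hm _ _ fun j _ => (hlI j).smul _
    · rw [D.red_sum_smul, ← hg]
      simp only [ha, ← hlb]
      simp
  · rintro ⟨y, hy, hyc⟩
    obtain ⟨a, ha⟩ := (Submodule.mem_span_range_iff_exists_fun _).mp (hs _ hy)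
    rw [Submodule.mem_span_range_iff_exists_fun]
    refine ⟨fun j => (a j).map D.res, ?_⟩
    apply Subtype.ext
    have h1 : s • y = ∑ j, a j • l j := by
      apply Subtype.ext
      have h2 : ((∑ j, a j • l j : OF hπ F) : F) = ∑ j, a j • (l j : F) := by
        simp
      rw [h2, ha]
      rfl
    have h3 := congrArg D.red h1
    rw [D.red_smul, D.map_eq_one hs1, one_smul, D.red_sum_smul] at h3
    rw [← hyc, h3]
    simp [hlb]

end SFData

end Fermat.Agent.SS.G2
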