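import Fermat.Agent.SS.G2.SFL
import Fermat.Agent.SS.G2.Pkg
import Fermat.Agent.SS.G2.Idx
import Fermat.Agent.SS.G2.SFApi

/-!
# SS / G2 : the chart theorem

For `W ∈ O_F^×` with `red W, red W⁻¹ ∈ Ct` and `1 ∈ I_K(W) I_K(W⁻¹)`: the reduction of the twisted
lattice `I_m(W)` is `{c ∈ Ct : p₁ c = ξ p₂ c}` for a unit `ξ` of `Z`.   (owner: helper10)
-/

set_option autoImplicit false

open Polynomial

namespace Fermat.Agent.SS.G2

open Fermat.Agent.Crux.G

/-- cancel a power of a prime. -/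
theorem exists_mul_eq_of_pow_mul {R : Type*} [CommRing R] [IsDomain R] {p : R} (hp : Prime p)
    {D S : R} (hD : ¬ p ∣ D) : ∀ (j : ℕ) (r₀ : R), r₀ * D = p ^ j * S → ∃ r₁, r₁ * D = S := by
  intro j
  induction j with
  | zero => intro r₀ h; exact ⟨r₀, by simpa using h⟩
  | succ j ih =>
    intro r₀ h
    have h1 : p ∣ r₀ * D := ⟨p ^ j * S, by rw [h]; ring⟩
    rcases hp.dvd_or_dvd h1 with ⟨r', rfl⟩ | h2
    · apply ih r'
      apply mul_left_cancel₀ hp.ne_zero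
      rw [← mul_assoc, h]; ring
    · exact absurd h2 hD

variable {A : Type*} [CommRing A] [IsDomain A] [IsDiscreteValuationRing A] {π : A}
variable {E : Type*} [Field E] [Algebra A[X] E] [IsFractionRing A[X] E] [CharZero E]
variable {F : Type*} [Field F] [Algebra A[X] F] [Algebra E F] [IsScalarTower A[X] E F]
  [FiniteDimensional E F]
variable {k 𝒜 Z : Type*} [Field k] [CommRing 𝒜] [Algebra k[X] 𝒜] [CommRing Z]

variable (E) in
include E in
theorem CT (hπ : Irreducible π) (D : SFData hπ.prime F k 𝒜 Z) {m : ℕ} (hm : 0 < m) {W : F}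
    (hW0 : W ≠ 0) (hW : IsOL π W) (hW' : IsOL π W⁻¹)
    (hWt : D.red ⟨W, hW⟩ ∈ D.Ct) (hWt' : D.red ⟨W⁻¹, hW'⟩ ∈ D.Ct) (hinv : InvK π m W) :
    ∃ ξ : Zˣ,
      (∀ c : D.Ct, (∃ y : OF hπ.prime F, IsTw (A := A) m W (y : F) ∧ D.red y = c) ↔
        D.p₁ c = ξ * D.p₂ c) ∧
      (∀ c : D.Ct, (∃ y : OF hπ.prime F, IsTw (A := A) m W⁻¹ (y : F) ∧ D.red y = c) ↔
        D.p₁ c = ↑ξ⁻¹ * D.p₂ c) := by
  classical
  have hp : Prime π := hπ.prime
  have hCp : Prime (C π : A[X]) := Sat.prime_C hp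
  have := D.reduced
  have hF : FaithfulSMul A[X] F := s1_faithfulSMul E
  have hW'' : IsOL π (W⁻¹)⁻¹ := by rwa [inv_inv]
  have hWi0 : W⁻¹ ≠ 0 := inv_ne_zero hW0
  have h1' : IsOL π ((1 : F))⁻¹ := by rw [inv_one]; exact isOL_one hp
  -- packages
  set n := Module.finrank E F with hn
  obtain ⟨b, sb, hbI, hsb1, hsb, hbind⟩ := exists_pkg_tw (E := E) hπ hm (W := (1 : F)) one_ne_zero
    (isOL_one hp) h1'
  obtain ⟨l, sl, hlI, hsl1, hsl, hlind⟩ := exists_pkg_tw (E := E) hπ hm hW0 hW hW'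
  obtain ⟨l', sl', hl'I, hsl'1, hsl', hl'ind⟩ := exists_pkg_tw (E := E) hπ hm hWi0 hW' hW''
  obtain ⟨r, hrπ, hr⟩ := exists_smul_isIntegral_of_isTw (π := π) hm hW0 hW'
  obtain ⟨r', hr'π, hr'⟩ := exists_smul_isIntegral_of_isTw (π := π) hm hWi0 hW''
  -- elements of `O_F`
  have hbint : ∀ i, IsIntegral A[X] (b i) := fun i => (isTw_one_iff hm).mp (hbI i)
  let bo : Fin n → OF hp F := fun i => ⟨b i, IsOL.of_isIntegral hp (hbint i)⟩
  let lo : Fin n → OF hp F := fun i => ⟨l i, (hlI i).isOL hp hm hW0 hW'⟩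
  let lo' : Fin n → OF hp F := fun i => ⟨l' i, (hl'I i).isOL hp hm hWi0 hW''⟩
  let bb : Fin n → D.Ct := fun i => ⟨D.red (bo i), D.int_mem _ (hbint i)⟩
  let lb : Fin n → D.Ct := fun i =>
    ⟨D.red (lo i), D.red_mem_of_isTw hm hW0 hW hW' hWt' _ (hlI i)⟩
  have hWt'' : D.red ⟨(W⁻¹)⁻¹, hW''⟩ ∈ D.Ct := by
    have : (⟨(W⁻¹)⁻¹, hW''⟩ : OF hp F) = ⟨W, hW⟩ := Subtype.ext (inv_inv W)
    rw [this]; exact hWt
  let lb' : Fin n → D.Ct := fun i =>
    ⟨D.red (lo' i), D.red_mem_of_isTw hm hWi0 hW' hW'' hWt'' _ (hl'I i)⟩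
  -- spans
  have spb := D.mem_span_red_iff hm bo hbI sb hsb1 hsb bb (fun _ => rfl)
  have spl := D.mem_span_red_iff hm lo hlI sl hsl1 hsl lb (fun _ => rfl)
  have spl' := D.mem_span_red_iff hm lo' hl'I sl' hsl'1 hsl' lb' (fun _ => rfl)
  have indb := D.linearIndependent_red bo hbind bb (fun _ => rfl)
  have indl := D.linearIndependent_red lo hlind lb (fun _ => rfl)
  have indl' := D.linearIndependent_red lo' hl'ind lb' (fun _ => rfl)
  -- the matrices
  have hTex : ∀ i, ∃ c : Fin n → A[X], (sb * r) • l i = ∑ j, c j • b j := by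
    intro i
    obtain ⟨c, hc⟩ := (Submodule.mem_span_range_iff_exists_fun _).mp
      (hsb _ ((isTw_one_iff hm).mpr (hr _ (hlI i))))
    exact ⟨c, by rw [hc, mul_smul]⟩
  have hT'ex : ∀ i, ∃ c : Fin n → A[X], (sb * r') • l' i = ∑ j, c j • b j := by
    intro i
    obtain ⟨c, hc⟩ := (Submodule.mem_span_range_iff_exists_fun _).mp
      (hsb _ ((isTw_one_iff hm).mpr (hr' _ (hl'I i))))
    exact ⟨c, by rw [hc, mul_smul]⟩
  choose Th hTh using hTex
  choose Th' hTh' using hT'ex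
  obtain ⟨r₀, j, N, hidx⟩ := idx (E := E) hπ hm hW0 hinv b l l' hbint sb sl sl' r r' hsl hsl' hr hr'
    (Matrix.of Th) (Matrix.of Th') hTh hTh'
  let φ : A[X] →+* k[X] := mapRingHom D.res
  have hφ : ∀ a : A[X], φ a = a.map D.res := fun _ => rfl
  let T : Matrix (Fin n) (Fin n) k[X] := φ.mapMatrix (Matrix.of Th)
  let T' : Matrix (Fin n) (Fin n) k[X] := φ.mapMatrix (Matrix.of Th')
  have hdetT : T.det = φ (Matrix.of Th).det := (RingHom.map_det φ _).symm
  have hdetT' : T'.det = φ (Matrix.of Th').det := (RingHom.map_det φ _).symm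
  have ht : φ r ≠ 0 := fun h => hrπ ((D.map_eq_zero_iff r).mp h)
  have ht' : φ r' ≠ 0 := fun h => hr'π ((D.map_eq_zero_iff r').mp h)
  have hT : ∀ i, φ r • lb i = ∑ j, T i j • bb j := by
    intro i
    apply Subtype.ext
    have h1 : (sb * r) • lo i = ∑ j, Th i j • bo j := by
      apply Subtype.ext
      have h2 : ((∑ j, Th i j • bo j : OF hp F) : F) = ∑ j, Th i j • b j := by
        simp [bo]
      rw [h2, ← hTh i]
      rfl
    have h3 := congrArg D.red h1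
    rw [D.red_smul, Polynomial.map_mul, D.map_eq_one hsb1, one_mul, D.red_sum_smul] at h3
    have h4 : ((∑ j, T i j • bb j : D.Ct) : 𝒜) = ∑ j, (Th i j).map D.res • D.red (bo j) := by
      simp [T, bb, φ]
    rw [h4, ← h3]
    rfl
  have hT' : ∀ i, φ r' • lb' i = ∑ j, T' i j • bb j := by
    intro i
    apply Subtype.ext
    have h1 : (sb * r') • lo' i = ∑ j, Th' i j • bo j := by
      apply Subtype.ext
      have h2 : ((∑ j, Th' i j • bo j : OF hp F) : F) = ∑ j, Th' i j • b j := by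
        simp [bo]
      rw [h2, ← hTh' i]
      rfl
    have h3 := congrArg D.red h1
    rw [D.red_smul, Polynomial.map_mul, D.map_eq_one hsb1, one_mul, D.red_sum_smul] at h3
    have h4 : ((∑ j, T' i j • bb j : D.Ct) : 𝒜) = ∑ j, (Th' i j).map D.res • D.red (bo j) := by
      simp [T', bb, φ]
    rw [h4, ← h3]
    rfl
  -- nonvanishing of the determinants
  have hdet_ne : ∀ (t : k[X]) (ht : t ≠ 0) (lb : Fin n → D.Ct) (hind : LinearIndependent k[X] lb)
      (T : Matrix (Fin n) (Fin n) k[X]) (hT : ∀ i, t • lb i = ∑ j, T i j • bb j), T.det ≠ 0 := by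
    intro t ht lb hind T hT h0
    obtain ⟨v, hv0, hv⟩ := Matrix.exists_vecMul_eq_zero_iff.mpr h0
    apply hv0
    have h1 : t • ∑ i, v i • lb i = 0 := by
      rw [Finset.smul_sum]
      calc ∑ i, t • v i • lb i = ∑ i, v i • ∑ j, T i j • bb j := by
            refine Finset.sum_congr rfl fun i _ => ?_
            rw [smul_comm, hT]
        _ = ∑ j, (∑ i, v i * T i j) • bb j := by
            simp only [Finset.smul_sum, Finset.sum_smul, mul_smul]
            exact Finset.sum_comm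
        _ = 0 := by
            refine Finset.sum_eq_zero fun j _ => ?_
            have := congrFun hv j
            simp only [Matrix.vecMul, dotProduct, Pi.zero_apply] at this
            rw [this, zero_smul]
    have h2 := D.tf' t _ ht h1
    funext i
    exact (Fintype.linearIndependent_iff.mp hind) v h2 i
  have hTne := hdet_ne _ ht lb indl T hT
  have hT'ne := hdet_ne _ ht' lb' indl' T' hT'
  have hdet : T.det * T'.det ∣ (φ r * φ r') ^ n := by
    have hnd : ¬ (C π : A[X]) ∣ (Matrix.of Th).det * (Matrix.of Th').det := by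
      intro h
      have := (D.map_eq_zero_iff _).mpr h
      rw [← hφ, map_mul, ← hdetT, ← hdetT'] at this
      exact mul_ne_zero hTne hT'ne this
    obtain ⟨r₁, hr₁⟩ := exists_mul_eq_of_pow_mul hCp hnd j r₀ (by rw [hidx, mul_assoc])
    have := congrArg φ hr₁
    rw [map_mul, map_mul, ← hdetT, ← hdetT', map_mul, map_pow, map_pow, map_mul, map_mul, map_mul,
      hφ sb, hφ sl, hφ sl', D.map_eq_one hsb1, D.map_eq_one hsl1, D.map_eq_one hsl'1] at this
    simp only [one_mul, one_pow] at this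
    exact Dvd.intro_left _ this
  obtain ⟨t₀, ht₀, ht₀Z⟩ := D.tors
  -- the special fibre lemma
  let u : D.Ct := ⟨_, hWt⟩
  let u' : D.Ct := ⟨_, hWt'⟩
  have huu' : u * u' = 1 := by
    apply Subtype.ext
    show D.red ⟨W, hW⟩ * D.red ⟨W⁻¹, hW'⟩ = 1
    rw [← map_mul]
    have : (⟨W, hW⟩ * ⟨W⁻¹, hW'⟩ : OF hp F) = 1 := Subtype.ext (mul_inv_cancel₀ hW0)
    rw [this, map_one]
  have hCmul : ∀ (W₁ : F) (lb₁ : Fin n → D.Ct)
      (sp : ∀ c : D.Ct, c ∈ Submodule.span k[X] (Set.range lb₁) ↔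
        ∃ y : OF hp F, IsTw (A := A) m W₁ (y : F) ∧ D.red y = c) (c y : D.Ct),
      D.p₁ c = D.p₂ c → y ∈ Submodule.span k[X] (Set.range lb₁) →
      c * y ∈ Submodule.span k[X] (Set.range lb₁) := by
    intro W₁ lb₁ sp c y hc hy
    obtain ⟨a, ha, hac⟩ := (D.eq_iff c).mp hc
    obtain ⟨y', hy', hyy⟩ := (sp y).mp hy
    refine (sp _).mpr ⟨a * y', hy'.mul_int ha, ?_⟩
    rw [map_mul, hac, hyy]
    rfl
  obtain ⟨ξ, hξ, hξ'⟩ := sfl D.p₁ D.p₂ D.surj D.p_algebraMap t₀ ht₀ ht₀Z D.tf' m hm u u' huu'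
    (Submodule.span k[X] (Set.range lb)) (Submodule.span k[X] (Set.range lb'))
    (hCmul W lb spl) (hCmul W⁻¹ lb' spl')
    (by
      intro y hy
      obtain ⟨y', hy', hyy⟩ := (spl y).mp hy
      rw [D.eq_iff]
      refine ⟨⟨W, hW⟩ * y' ^ m, ?_, ?_⟩
      · show IsIntegral A[X] (W * (y' : F) ^ m)
        rw [mul_comm]; exact hy'
      · rw [map_mul, map_pow, hyy]; rfl)
    (by
      intro y hy
      obtain ⟨y', hy', hyy⟩ := (spl' y).mp hy
      rw [D.eq_iff]
      refine ⟨⟨W⁻¹, hW'⟩ * y' ^ m, ?_, ?_⟩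
      · show IsIntegral A[X] (W⁻¹ * (y' : F) ^ m)
        rw [mul_comm]; exact hy'
      · rw [map_mul, map_pow, hyy]; rfl)
    (by
      intro y hy z hz
      obtain ⟨y', hy', hyy⟩ := (spl y).mp hy
      obtain ⟨z', hz', hzz⟩ := (spl' z).mp hz
      rw [D.eq_iff]
      refine ⟨y' * z', hy'.isIntegral_mul hm hW0 hz', ?_⟩
      rw [map_mul, hyy, hzz]; rfl)
    n bb lb lb'
    (by
      intro c
      rw [D.eq_iff, spb]
      constructor
      · rintro ⟨y, hy, h⟩; exact ⟨y, (isTw_one_iff hm).mpr hy, h⟩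
      · rintro ⟨y, hy, h⟩; exact ⟨y, (isTw_one_iff hm).mp hy, h⟩)
    indb rfl rfl (φ r) (φ r') ht ht' T T' hT hT' hdet
  refine ⟨ξ, fun c => ?_, fun c => ?_⟩
  · rw [← spl, hξ]
  · rw [← spl', hξ']

end Fermat.Agent.SS.G2
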