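import Fermat.Agent.Crux.G.GK

/-!
# SS / G2 : the twisted-lattice engine (semistable analogue of Theorem G).  Definitions.

Setting of one *chart* (as in `Crux/G/Defs.lean`): `A` a DVR with uniformiser `π`, `E = Frac A[X]`,
`F / E` finite, char. 0.  `M` = integral closure of `A[X]` in `F`, `O_F` = integral closure of the
Gauss local ring `A[X]_(π)` (`IsOL π`), `π O_F` (`IsPiOL π`), `B_K = M[1/π]` (`IsBK π`).

* `OF hπ F`      : `O_F` as a subalgebra of `F`;
* `IsTw m W y`   : `y ∈ I_m(W) = {y : y^m W ∈ M}` (the *twisted lattice*: `y w` integral, `w^m = W`);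
* `InvK π m W`   : `1 ∈ I_{m,K}(W) · I_{m,K}(W⁻¹)` on the generic fibre
                   (`⇔ div W ∈ m Div` on the affine curve `Spec B_K`);
* `SFData`       : a model of the special fibre of the chart: a `k[X]`-algebra `𝒜`, a reduction map
                   `red : O_F → 𝒜` with kernel `π O_F`, a subalgebra `Ct ⊆ red(O_F)` (the
                   normalisation `C̃` of `C = red(M)`) and two ring homs `p₁ p₂ : Ct → Z`, jointly
                   surjective, `Z` reduced and torsion, with `C = {p₁ = p₂}`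
                   ("`Spec C` is obtained from `Spec C̃` by gluing two disjoint copies of `Spec Z`").
  In the application `𝒜 = k((q)) × k((q))`, `red = (red_∞, red_∞ ∘ w_q)`, `Ct = R × R`,
  `Z = R / I`, `p₁(a,b) = [Φ a]`, `p₂(a,b) = [b]`.
-/

set_option autoImplicit false

open Polynomial

namespace Fermat.Agent.SS.G2

open Fermat.Agent.Crux.G

section Chart

variable {A : Type*} [CommRing A] [IsDomain A] {π : A}

/-- `O_F` as a subalgebra of `F`. -/
def OF (hπ : Prime π) (F : Type*) [Field F] [Algebra A[X] F] : Subalgebra A[X] F where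
  carrier := {y | IsOL π y}
  mul_mem' := fun ha hb => IsOL.mul hπ ha hb
  add_mem' := fun ha hb => IsOL.add hπ ha hb
  algebraMap_mem' := fun r => isOL_algebraMap hπ r

theorem mem_OF (hπ : Prime π) {F : Type*} [Field F] [Algebra A[X] F] {y : F} :
    y ∈ OF hπ F ↔ IsOL π y := Iff.rfl

variable {F : Type*} [Field F] [Algebra A[X] F]

/-- `y ∈ I_m(W)`: `y ^ m * W` is integral over `A[X]`. -/
def IsTw (m : ℕ) (W y : F) : Prop := IsIntegral A[X] (y ^ m * W)

/-- `1 ∈ I_{m,K}(W) · I_{m,K}(W⁻¹)`. -/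
def InvK (π : A) (m : ℕ) (W : F) : Prop :=
  ∃ (r : ℕ) (a b : Fin r → F), (∀ i, IsBK π (a i ^ m * W)) ∧ (∀ i, IsBK π (b i ^ m * W⁻¹)) ∧
    ∑ i, a i * b i = 1

/-- A model of the special fibre of a chart. -/
structure SFData (hπ : Prime π) (F : Type*) [Field F] [Algebra A[X] F]
    (k 𝒜 Z : Type*) [Field k] [CommRing 𝒜] [Algebra k[X] 𝒜] [CommRing Z] where
  /-- the residue map of `A` -/
  res : A →+* k
  res_surj : Function.Surjective res
  res_ker : ∀ a, res a = 0 ↔ π ∣ a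
  /-- the reduction map -/
  red : OF hπ F →+* 𝒜
  red_smul : ∀ (r : A[X]) (y : OF hπ F), red (r • y) = (r.map res) • red y
  red_ker : ∀ y, red y = 0 ↔ IsPiOL π (y : F)
  /-- the normalisation of the special fibre -/
  Ct : Subalgebra k[X] 𝒜
  lift : ∀ c ∈ Ct, ∃ y, red y = c
  root : ∀ (y : OF hπ F) (n : ℕ), 0 < n → red y ^ n ∈ Ct → red y ∈ Ct
  int_mem : ∀ y : OF hπ F, IsIntegral A[X] (y : F) → red y ∈ Ct
  /-- first gluing map -/
  p₁ : Ct →+* Z
  /-- second gluing map -/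
  p₂ : Ct →+* Z
  surj : ∀ z₁ z₂ : Z, ∃ c : Ct, p₁ c = z₁ ∧ p₂ c = z₂
  eq_iff : ∀ c : Ct, p₁ c = p₂ c ↔ ∃ y : OF hπ F, IsIntegral A[X] (y : F) ∧ red y = c
  tors : ∃ t : k[X], t ≠ 0 ∧ p₁ (algebraMap k[X] Ct t) = 0
  reduced : IsReduced Z

/-- Compatibility of a special fibre model with a semilinear endomorphism `τ` of `F` ("Frobenius
acts on the gluing locus `Z` by `z ↦ z ^ Q`") and with a lift `ε` of the idempotent `(1,0)`. -/
structure SFData.Compat {hπ : Prime π} {k 𝒜 Z : Type*} [Field k] [CommRing 𝒜] [Algebra k[X] 𝒜]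
    [CommRing Z] (D : SFData hπ F k 𝒜 Z) (τ : F →+* F) (Q : ℕ) (ε : F) : Prop where
  frob : ∀ (y y' : OF hπ F) (hy : D.red y ∈ D.Ct), (y' : F) = τ y →
    ∃ h : D.red y' ∈ D.Ct, D.p₁ ⟨_, h⟩ = D.p₁ ⟨_, hy⟩ ^ Q ∧ D.p₂ ⟨_, h⟩ = D.p₂ ⟨_, hy⟩ ^ Q
  eps : ∃ (h : IsOL π ε) (h' : D.red ⟨ε, h⟩ ∈ D.Ct), D.p₁ ⟨_, h'⟩ = 1 ∧ D.p₂ ⟨_, h'⟩ = 0

end Chart

section Top

variable {A : Type*} [CommRing A] [IsDomain A] {π : A}
variable {E : Type*} [Field E] [Algebra A E]

/-- `y ∈ I_m(W)` for the chart `X ↦ x`. -/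
def IsTwx (A : Type*) [CommRing A] [Algebra A E] {F : Type*} [Field F] [Algebra E F]
    (x : E) (m : ℕ) (W y : F) : Prop := IntX A x (y ^ m * W)

/-- `InvK` for the chart `X ↦ x`. -/
def InvKx {F : Type*} [Field F] [Algebra E F] (π : A) (x : E) (m : ℕ) (W : F) : Prop :=
  letI := algL (A := A) F x; InvK π m W

/-- `SFData` for the chart `X ↦ x`. -/
def SFDatax (hπ : Prime π) (x : E) (F : Type*) [Field F] [Algebra E F]
    (k 𝒜 Z : Type*) [Field k] [CommRing 𝒜] [Algebra k[X] 𝒜] [CommRing Z] :=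
  letI := algL (A := A) F x; SFData hπ F k 𝒜 Z

/-- `SFData.Compat` for the chart `X ↦ x`. -/
def SFDatax.Compat {hπ : Prime π} {x : E} {F : Type*} [Field F] [Algebra E F]
    {k 𝒜 Z : Type*} [Field k] [CommRing 𝒜] [Algebra k[X] 𝒜] [CommRing Z]
    (D : SFDatax hπ x F k 𝒜 Z) (τ : F →+* F) (Q : ℕ) (ε : F) : Prop :=
  letI := algL (A := A) F x; SFData.Compat (hπ := hπ) (F := F) D τ Q ε

end Top

end Fermat.Agent.SS.G2
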