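import Mathlib

/-!
# SS / G2 : index of a sublattice of a free `k[X]`-module = degree of the determinant

Mathlib only.  TASK `SS/G2-Det`.

PROOF.  Copy `Submodule.natAbs_det_equiv` / `Submodule.natAbs_det_basis_change`
(`Mathlib/LinearAlgebra/FreeModule/Finite/CardQuotient.lean`) with `ℤ` replaced by `k[X]`:
`N := span (range fun i => ∑ j, T i j • b j)` has full rank (`T.det ≠ 0`), Smith normal form
(`Submodule.smithNormalFormCoeffs`, `smithNormalFormTopBasis`, `smithNormalFormBotBasis`),
`Submodule.finrank_quotient_eq_sum`, `finrank_quotient_span_eq_natDegree`,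
`LinearMap.associated_det_comp_equiv`, `natDegree_prod`,
`Polynomial.degree_eq_degree_of_associated` (see also
`finrank_quotient_span_eq_natDegree_norm` in `Mathlib/LinearAlgebra/FreeModule/Norm.lean`).
-/

set_option autoImplicit false

open Polynomial Module

namespace Fermat.Agent.SS.G2

/-- Over a PID: the determinant of an injective endomorphism with image `N` is associated to the
product of the Smith coefficients of `N`. -/
theorem Det_associated_det_prod_smith {R : Type*} [CommRing R] [IsDomain R]
    [IsPrincipalIdealRing R] {Λ : Type*} [AddCommGroup Λ] [Module R Λ] {n : ℕ}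
    (b : Basis (Fin n) R Λ) (N : Submodule R Λ) (e : Λ ≃ₗ[R] N)
    (h : Module.finrank R N = Module.finrank R Λ) :
    Associated (LinearMap.det (N.subtype ∘ₗ (e : Λ →ₗ[R] N)))
      (∏ i, Submodule.smithNormalFormCoeffs b h i) := by
  classical
  let a := Submodule.smithNormalFormCoeffs b h
  let b' := Submodule.smithNormalFormTopBasis b h
  let ab := Submodule.smithNormalFormBotBasis b h
  have ab_eq := Submodule.smithNormalFormBotBasis_def b h
  let e' : Λ ≃ₗ[R] N := b'.equiv ab (Equiv.refl _)
  let f : Λ →ₗ[R] Λ := N.subtype.comp (e' : Λ →ₗ[R] N)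
  have f_apply : ∀ x, f x = b'.equiv ab (Equiv.refl _) x := fun x ↦ rfl
  have ha : ∀ i, f (b' i) = a i • b' i := by
    intro i
    rw [f_apply, b'.equiv_apply, Equiv.refl_apply]
    exact ab_eq i
  have hdet : LinearMap.det f = ∏ i, a i := by
    rw [← LinearMap.det_toMatrix b', ← Matrix.det_diagonal]
    congr 1
    ext i j
    rw [LinearMap.toMatrix_apply, ha, map_smul, Basis.repr_self, Finsupp.smul_single,
      smul_eq_mul, mul_one]
    by_cases h : i = j
    · rw [h, Matrix.diagonal_apply_eq, Finsupp.single_eq_same]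
    · rw [Matrix.diagonal_apply_ne _ h, Finsupp.single_eq_of_ne h]
  rw [← hdet]
  exact LinearMap.associated_det_comp_equiv _ _ _

theorem finrank_quotient_span_eq_natDegree_det {k : Type*} [Field k] {Λ : Type*} [AddCommGroup Λ]
    [Module k[X] Λ] [Module k Λ] [IsScalarTower k k[X] Λ] {n : ℕ} (b : Basis (Fin n) k[X] Λ)
    (T : Matrix (Fin n) (Fin n) k[X]) (hT : T.det ≠ 0) :
    Module.Finite k (Λ ⧸ Submodule.span k[X] (Set.range fun i => ∑ j, T i j • b j)) ∧
    Module.finrank k (Λ ⧸ Submodule.span k[X] (Set.range fun i => ∑ j, T i j • b j))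
      = T.det.natDegree := by
  classical
  set N := Submodule.span k[X] (Set.range fun i => ∑ j, T i j • b j) with hN
  -- the endomorphism
  let φ : Λ →ₗ[k[X]] Λ := Matrix.toLin b b T.transpose
  have hφb : ∀ i, φ (b i) = ∑ j, T i j • b j := by
    intro i
    simp only [φ, Matrix.toLin_self, Matrix.transpose_apply]
  have hdetφ : LinearMap.det φ = T.det := by
    simp only [φ, LinearMap.det_toLin, Matrix.det_transpose]
  have hrange : LinearMap.range φ = N := by
    rw [hN, ← Submodule.map_top, ← b.span_eq, Submodule.map_span, ← Set.range_comp]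
    congr 2
    funext i
    exact hφb i
  have hinj : Function.Injective φ := by
    rw [← LinearMap.ker_eq_bot, LinearMap.ker_eq_bot']
    intro x hx
    have h1 : T.transpose.mulVec (b.repr x) = 0 := by
      have h2 : b.repr (φ x) = 0 := by rw [hx, map_zero]
      have h3 : (b.repr (φ x) : Fin n → k[X]) = T.transpose.mulVec (b.repr x) := by
        simp only [φ]
        exact Matrix.repr_toLin b b T.transpose x
      rw [← h3, h2]
      rfl
    have h4 := Matrix.eq_zero_of_mulVec_eq_zero (by rwa [Matrix.det_transpose]) h1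
    apply b.repr.injective
    rw [map_zero]
    refine Finsupp.ext fun i => ?_
    exact congrFun h4 i
  let e : Λ ≃ₗ[k[X]] N := (LinearEquiv.ofInjective φ hinj).trans (LinearEquiv.ofEq _ _ hrange)
  have he : N.subtype ∘ₗ (e : Λ →ₗ[k[X]] N) = φ := by
    ext x
    rfl
  have h : Module.finrank k[X] N = Module.finrank k[X] Λ := e.symm.finrank_eq
  have hassoc := Det_associated_det_prod_smith b N e h
  rw [he, hdetφ] at hassoc
  have hne : ∀ i, Submodule.smithNormalFormCoeffs b h i ≠ 0 :=
    fun i => Submodule.smithNormalFormCoeffs_ne_zero b h i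
  have hfin : ∀ i, Module.Finite k
      (k[X] ⧸ Ideal.span ({Submodule.smithNormalFormCoeffs b h i} : Set k[X])) :=
    fun i => PowerBasis.finite (AdjoinRoot.powerBasis (hne i))
  refine ⟨Module.Finite.equiv (Submodule.quotientEquivDirectSum k b h).symm, ?_⟩
  rw [natDegree_eq_of_degree_eq (degree_eq_degree_of_associated hassoc),
    natDegree_prod _ _ fun i _ => hne i, Submodule.finrank_quotient_eq_sum k b h]
  congr with i
  exact (AdjoinRoot.powerBasis (hne i)).finrank

end Fermat.Agent.SS.G2
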