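import Fermat.Agent.SS.G2.EndCore

/-!
# SS / G2 : the end game, connectedness of the special fibre of `F` itself

TASK `SS/G2-EndConn`.

If `z ∈ M(x)`, `z' ∈ M(x⁻¹)`, `z ≡ z'`, `z^m ≡ 1 mod π O_F`, `π ∤ m`, `ζ ∈ A` a primitive `m`-th
root of unity, then `z ≡ ζ^i` for some `i`.

PROOF.  `m` and `ζ` are units of `A`.  For `i < m` put `u_i = ζ^{-i} z`,
`e_i = m⁻¹ ∑_{j<m} u_i^j ∈ M(x)`, `e_i' =` the same with `z'` (`∈ M(x⁻¹)`), `e_i ≡ e_i'`.
`u_i^m ≡ 1` gives `u_i e_i ≡ e_i` (telescoping), hence `u_i^j e_i ≡ e_i`, hence `e_i² ≡ e_i`.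
By `core` (with `L := F`) `e_i ≡ 0` or `e_i ≡ 1`.
`∑_i e_i = m⁻¹ ∑_j z^j ∑_i ζ^{-ij} = 1` (`IsPrimitiveRoot.geom_sum_eq_zero` / `pow` versions:
`∑_i (ζ^{-j})^i = 0` for `0 < j < m`).  Not all `e_i ≡ 0` (`not_isPiOL_one`); if `e_i ≡ 1` then
`u_i ≡ u_i e_i ≡ e_i ≡ 1`, i.e. `z ≡ ζ^i`.
-/

set_option autoImplicit false

open Polynomial

namespace Fermat.Agent.SS.G2

open Fermat.Agent.Crux.G

namespace EndConn

/-- `u e - e = μ (u^m - 1)` for `e = μ ∑_{j<m} u^j`. -/
theorem mul_e_sub {R : Type*} [CommRing R] (u μ : R) (m : ℕ) :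
    u * (μ * ∑ j ∈ Finset.range m, u ^ j) - μ * ∑ j ∈ Finset.range m, u ^ j = μ * (u ^ m - 1) := by
  rw [← geom_sum_mul u m]
  ring

/-- `e² - e = cofactor * (u^m - 1)`. -/
theorem e_sq_sub {R : Type*} [CommRing R] (u μ : R) (m : ℕ) (hμ : μ * (m : R) = 1) :
    (μ * ∑ j ∈ Finset.range m, u ^ j) ^ 2 - μ * ∑ j ∈ Finset.range m, u ^ j =
      (μ ^ 2 * ∑ j ∈ Finset.range m, ∑ l ∈ Finset.range j, u ^ l) * (u ^ m - 1) := by
  have h1 : μ * ∑ j ∈ Finset.range m, u ^ j - 1 =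
      μ * ((∑ j ∈ Finset.range m, ∑ l ∈ Finset.range j, u ^ l) * (u - 1)) := by
    rw [Finset.sum_mul]
    simp only [geom_sum_mul]
    rw [Finset.sum_sub_distrib, Finset.sum_const, Finset.card_range, nsmul_eq_mul, mul_one, mul_sub,
      hμ]
  have h2 := geom_sum_mul u m
  calc (μ * ∑ j ∈ Finset.range m, u ^ j) ^ 2 - μ * ∑ j ∈ Finset.range m, u ^ j
      = (μ * ∑ j ∈ Finset.range m, u ^ j) * (μ * ∑ j ∈ Finset.range m, u ^ j - 1) := by ring
    _ = (μ ^ 2 * ∑ j ∈ Finset.range m, ∑ l ∈ Finset.range j, u ^ l) *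
          ((∑ j ∈ Finset.range m, u ^ j) * (u - 1)) := by rw [h1]; ring
    _ = _ := by rw [h2]

/-- `∑_i e_i = 1`. -/
theorem sum_e {R : Type*} [CommRing R] [IsDomain R] (c z μ : R) (m : ℕ) (hμ : μ * (m : R) = 1)
    (hc : IsPrimitiveRoot c m) :
    ∑ i ∈ Finset.range m, μ * ∑ j ∈ Finset.range m, (c ^ i * z) ^ j = 1 := by
  have hm0 : 0 < m := by
    rcases Nat.eq_zero_or_pos m with rfl | h
    · simp at hμ
    · exact h
  rw [← Finset.mul_sum, Finset.sum_comm]
  have h1 : ∀ j ∈ Finset.range m, ∑ i ∈ Finset.range m, (c ^ i * z) ^ j =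
      if j = 0 then (m : R) else 0 := by
    intro j hj
    have hj' := Finset.mem_range.mp hj
    split_ifs with h0
    · subst h0
      simp
    · have h2 : ∀ i ∈ Finset.range m, (c ^ i * z) ^ j = (c ^ j) ^ i * z ^ j := by
        intro i _
        rw [mul_pow, ← pow_mul, ← pow_mul, mul_comm i j]
      rw [Finset.sum_congr rfl h2, ← Finset.sum_mul]
      have h3 : (∑ i ∈ Finset.range m, (c ^ j) ^ i) * (c ^ j - 1) = 0 := by
        rw [geom_sum_mul, ← pow_mul, mul_comm, pow_mul, hc.pow_eq_one, one_pow, sub_self]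
      have h4 : c ^ j - 1 ≠ 0 := by
        intro h
        have := hc.dvd_of_pow_eq_one j (sub_eq_zero.mp h)
        exact h0 (Nat.eq_zero_of_dvd_of_lt this hj')
      rw [(mul_eq_zero.mp h3).resolve_right h4, zero_mul]
  rw [Finset.sum_congr rfl h1, Finset.sum_ite_eq' (Finset.range m) 0 (fun _ => (m : R)),
    if_pos (Finset.mem_range.mpr hm0), hμ]

end EndConn

theorem end_conn {A E F : Type*} [CommRing A] [IsDomain A] [IsDiscreteValuationRing A]
    [Field E] [Field F] [CharZero E] [Algebra A E] [Algebra E F] [Algebra A F]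
    [IsScalarTower A E F] [FiniteDimensional E F]
    (π : A) (hπ : Irreducible π) (x : E) (hx : Transcendental A x)
    (hgen : ∀ c : E, ∃ p q : A[X], q ≠ 0 ∧ c * aeval x q = aeval x p)
    (H0 : ∀ z : F, IsIntegral A z → z ∈ Set.range (algebraMap A F))
    (m : ℕ) (hm0 : 0 < m) (hmπ : ¬ π ∣ (m : A)) (ζ : A) (hζ : IsPrimitiveRoot ζ m)
    (z z' : F) (hz : IntX A x z) (hz' : IntX A x⁻¹ z') (hzz' : IsPiOLx π x (z - z'))
    (hzm : IsPiOLx π x (z ^ m - 1)) :
    ∃ i : ℕ, IsPiOLx π x (z - algebraMap A F (ζ ^ i)) := by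
  have hx0 : x ≠ 0 := by
    rintro rfl
    exact hx (isAlgebraic_zero)
  -- `A → F` is injective
  have hinjE : Function.Injective (algebraMap A E) := by
    rw [injective_iff_map_eq_zero]
    intro a ha
    have h1 : aeval x (C a) = 0 := by rw [aeval_C, ha]
    exact C_eq_zero.mp ((transcendental_iff.mp hx) _ h1)
  have hinj : Function.Injective (algebraMap A F) := by
    rw [IsScalarTower.algebraMap_eq A E F]
    exact (algebraMap E F).injective.comp hinjE
  -- `m` is a unit of `A`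
  have hmu : IsUnit (m : A) := by
    by_contra hnu
    have h1 : (m : A) ∈ IsLocalRing.maximalIdeal A := (IsLocalRing.mem_maximalIdeal _).mpr hnu
    rw [hπ.maximalIdeal_eq, Ideal.mem_span_singleton] at h1
    exact hmπ h1
  obtain ⟨μ0, hμ0⟩ := hmu.exists_left_inv
  set μ : F := algebraMap A F μ0 with hμdef
  have hμ : μ * (m : F) = 1 := by
    rw [hμdef, ← map_natCast (algebraMap A F), ← map_mul, hμ0, map_one]
  -- the inverse of `ζ`
  set c : F := algebraMap A F (ζ ^ (m - 1)) with hcdef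
  set ζF : F := algebraMap A F ζ with hζFdef
  have hζF : IsPrimitiveRoot ζF m := hζ.map_of_injective hinj
  have hcζ : ζF * c = 1 := by
    rw [hζFdef, hcdef, ← map_mul, ← pow_succ', Nat.sub_add_cancel hm0, hζ.pow_eq_one, map_one]
  have hc : IsPrimitiveRoot c m := by
    have : c = ζF⁻¹ := eq_inv_of_mul_eq_one_right hcζ
    rw [this]
    exact hζF.inv
  -- closure properties
  have hzero : IsPiOLx π x (0 : F) := by
    have := IsPiOLx.sub hπ hzm hzm
    rwa [sub_self] at this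
  have Omul : ∀ a b : F, IsOLx π x a → IsOLx π x b → IsOLx π x (a * b) := by
    intro a b ha hb
    let _ := algL (A := A) F x
    exact IsOL.mul hπ.prime ha hb
  have Opow : ∀ (a : F) (n : ℕ), IsOLx π x a → IsOLx π x (a ^ n) := by
    intro a n ha
    induction n with
    | zero => rw [pow_zero]; exact isOLx_one hπ
    | succ n ih => rw [pow_succ]; exact Omul _ _ ih ha
  have hzO : IsOLx π x z := IntX.isOLx hπ hz
  have hz'O : IsOLx π x z' := (isOLx_inv_iff hπ.prime hx0 z').mp (IntX.isOLx hπ hz')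
  have hA : ∀ t : A, IsOLx π x (algebraMap A F t) := fun t =>
    IntX.isOLx hπ ((Mx A F x).algebraMap_mem t)
  have Psum : ∀ (s : Finset ℕ) (f : ℕ → F), (∀ i ∈ s, IsPiOLx π x (f i)) →
      IsPiOLx π x (∑ i ∈ s, f i) := by
    intro s f hf
    induction s using Finset.cons_induction with
    | empty => simpa using hzero
    | cons a s ha ih =>
      rw [Finset.sum_cons]
      exact IsPiOLx.add hπ (hf a (Finset.mem_cons_self a s))
        (ih fun i hi => hf i (Finset.mem_cons_of_mem hi))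
  have Ppow : ∀ (a b : F) (n : ℕ), IsOLx π x a → IsOLx π x b → IsPiOLx π x (a - b) →
      IsPiOLx π x (a ^ n - b ^ n) := by
    intro a b n ha hb hab
    induction n with
    | zero => simpa using hzero
    | succ n ih =>
      have : a ^ (n + 1) - b ^ (n + 1) = a * (a ^ n - b ^ n) + b ^ n * (a - b) := by ring
      rw [this]
      exact IsPiOLx.add hπ (IsPiOLx.mul_left hπ ha ih) (IsPiOLx.mul_left hπ (Opow b n hb) hab)
  -- the idempotents
  have key : ∀ i : ℕ, IsPiOLx π x (μ * ∑ j ∈ Finset.range m, (c ^ i * z) ^ j) ∨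
      IsPiOLx π x (μ * ∑ j ∈ Finset.range m, (c ^ i * z) ^ j - 1) := by
    intro i
    have hci : (c ^ i) ^ m = 1 := by rw [← pow_mul, mul_comm, pow_mul, hc.pow_eq_one, one_pow]
    have hum : (c ^ i * z) ^ m - 1 = z ^ m - 1 := by rw [mul_pow, hci, one_mul]
    have hcM : ∀ y : E, c ^ i ∈ Mx A F y := fun y =>
      (Mx A F y).pow_mem ((Mx A F y).algebraMap_mem _) i
    have huM : c ^ i * z ∈ Mx A F x := (Mx A F x).mul_mem (hcM x) hz
    have hu'M : c ^ i * z' ∈ Mx A F x⁻¹ := (Mx A F x⁻¹).mul_mem (hcM x⁻¹) hz'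
    have heM : μ * ∑ j ∈ Finset.range m, (c ^ i * z) ^ j ∈ Mx A F x :=
      (Mx A F x).mul_mem ((Mx A F x).algebraMap_mem _)
        ((Mx A F x).sum_mem fun j _ => (Mx A F x).pow_mem huM j)
    have he'M : μ * ∑ j ∈ Finset.range m, (c ^ i * z') ^ j ∈ Mx A F x⁻¹ :=
      (Mx A F x⁻¹).mul_mem ((Mx A F x⁻¹).algebraMap_mem _)
        ((Mx A F x⁻¹).sum_mem fun j _ => (Mx A F x⁻¹).pow_mem hu'M j)
    refine core π hπ x hx hgen H0 _ _ _ (IntX.isOLx hπ heM) ?_ heM ?_ he'M ?_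
    · rw [EndConn.e_sq_sub _ _ _ hμ, hum]
      refine IsPiOLx.mul_left hπ (IntX.isOLx hπ (x := x) ?_) hzm
      exact (Mx A F x).mul_mem ((Mx A F x).pow_mem ((Mx A F x).algebraMap_mem _) 2)
        ((Mx A F x).sum_mem fun j _ => (Mx A F x).sum_mem fun l _ => (Mx A F x).pow_mem huM l)
    · rw [sub_self]; exact hzero
    · rw [← mul_sub, ← Finset.sum_sub_distrib]
      refine IsPiOLx.mul_left hπ (hA _) (Psum _ _ fun j _ => ?_)
      have hciO : IsOLx π x (c ^ i) := IntX.isOLx hπ (hcM x)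
      refine Ppow _ _ j (Omul _ _ hciO hz'O) (Omul _ _ hciO hzO) ?_
      have : c ^ i * z' - c ^ i * z = c ^ i * (0 - (z - z')) := by ring
      rw [this]
      exact IsPiOLx.mul_left hπ hciO (IsPiOLx.sub hπ hzero hzz')
  -- not all of them are `≡ 0`
  have hex : ∃ i, IsPiOLx π x (μ * ∑ j ∈ Finset.range m, (c ^ i * z) ^ j - 1) := by
    by_contra hno
    push Not at hno
    have hall : ∀ i ∈ Finset.range m, IsPiOLx π x (μ * ∑ j ∈ Finset.range m, (c ^ i * z) ^ j) :=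
      fun i _ => (key i).resolve_right (hno i)
    have h1 := Psum _ _ hall
    rw [EndConn.sum_e c z μ m hμ hc, ← map_one (algebraMap A F)] at h1
    exact hπ.not_isUnit (isUnit_of_dvd_one (dvd_of_isPiOLx_algebraMap hπ hx hgen h1))
  obtain ⟨i, hi⟩ := hex
  refine ⟨i, ?_⟩
  have hciO : IsOLx π x (c ^ i) := Opow _ _ (hA _)
  have huO : IsOLx π x (c ^ i * z) := Omul _ _ hciO hzO
  have hci : (c ^ i) ^ m = 1 := by rw [← pow_mul, mul_comm, pow_mul, hc.pow_eq_one, one_pow]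
  have hum : (c ^ i * z) ^ m - 1 = z ^ m - 1 := by rw [mul_pow, hci, one_mul]
  have h1 : IsPiOLx π x (c ^ i * z * (μ * ∑ j ∈ Finset.range m, (c ^ i * z) ^ j) -
      μ * ∑ j ∈ Finset.range m, (c ^ i * z) ^ j) := by
    rw [EndConn.mul_e_sub, hum]
    exact IsPiOLx.mul_left hπ (hA _) hzm
  have h2 : IsPiOLx π x (c ^ i * z - 1) := by
    have : c ^ i * z - 1 = (c ^ i * z * (μ * ∑ j ∈ Finset.range m, (c ^ i * z) ^ j) -
        μ * ∑ j ∈ Finset.range m, (c ^ i * z) ^ j) +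
        ((μ * ∑ j ∈ Finset.range m, (c ^ i * z) ^ j - 1) -
          c ^ i * z * (μ * ∑ j ∈ Finset.range m, (c ^ i * z) ^ j - 1)) := by ring
    rw [this]
    exact IsPiOLx.add hπ h1 (IsPiOLx.sub hπ hi (IsPiOLx.mul_left hπ huO hi))
  have h3 : z - algebraMap A F (ζ ^ i) = algebraMap A F (ζ ^ i) * (c ^ i * z - 1) := by
    have h4 : algebraMap A F (ζ ^ i) * c ^ i = 1 := by
      rw [map_pow, ← mul_pow, hcζ, one_pow]
    calc z - algebraMap A F (ζ ^ i) = (algebraMap A F (ζ ^ i) * c ^ i) * z - algebraMap A F (ζ ^ i) := by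
          rw [h4, one_mul]
      _ = _ := by ring
  rw [h3]
  exact IsPiOLx.mul_left hπ (hA _) h2

end Fermat.Agent.SS.G2
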