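import Fermat.Agent.SS.G2.EndPrime
import Fermat.Agent.SS.G2.EndConn

/-!
# SS / G2 : the end game, general `m`

TASK `SS/G2-End`.

`𝕃 ⊇ F` a (big) field in which `A` is integrally closed (e.g. `K((q))`), `z ∈ 𝕃` with
`z^m = Wz ∈ M(x)`, `Wz ≡ 1`, `t ≡ 1 mod π O_F`, `t^m Wz ∈ M(x⁻¹)`, `π ∤ m`, `μ_m ⊆ A`.
Then `z ∈ F`.

PROOF.  Strong induction on `m` (generalising `z Wz ζ`; `t` fixed).  `m = 1`: clear.
`m = p m'`, `p = m.minFac`.  `z₁ := z^{m'}`, `z₁^p = Wz`.
(a) `z₁ ∈ F`.  If not: no `b ∈ F` has `b^p = Wz` (else `(z₁/b)^p = 1`, `z₁/b` is integral over `A`,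
    so lies in `A` by `H0`, so `z₁ ∈ F`); `X^p - C Wz` is irreducible
    (`X_pow_sub_C_irreducible_of_prime`); `L := F⟮z₁⟯ ⊆ 𝕃` has degree `p`
    (`IntermediateField.adjoin.finrank`, `minpoly.eq_of_irreducible_of_monic`), `hli` from
    `Crux.G.kummer_linearIndependent_of_adjoin`; (H0) for `L` from `H0`; `end_prime` with
    `t₁ = t^{m'}`.
(b) `z₁ = algebraMap h₁`.  `h₁ ∈ M(x)`, `t^{m'} h₁ ∈ M(x⁻¹)` (`IsIntegral.of_pow`),
    `h₁ - t^{m'} h₁ ∈ π O_F`, `h₁^p = Wz ≡ 1`.  `end_conn` with `p`, `ζ^{m'}`: `h₁ ≡ ζ^{m' i}`.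
(c) `η := ζ^i` (a unit of `A`), `z' := z / η`, `z'^{m'} = algebraMap (h₁ / η^{m'})`,
    `h₁/η^{m'} ∈ M(x)`, `≡ 1`, `t^{m'} h₁/η^{m'} ∈ M(x⁻¹)`; `ζ^p` is a primitive `m'`-th root of
    unity; induction hypothesis for `m'`: `z' ∈ F`, so `z ∈ F`.
-/

set_option autoImplicit false
set_option linter.style.haveILetI false

open Polynomial

namespace Fermat.Agent.SS.G2

open Fermat.Agent.Crux.G

namespace EndAux

/-- `t ≡ 1` implies `t ^ n ≡ 1`. -/
theorem isPiOLx_pow_sub_one {A E F : Type*} [CommRing A] [IsDomain A] [IsDiscreteValuationRing A]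
    [Field E] [Field F] [Algebra A E] [Algebra E F]
    (π : A) (hπ : Irreducible π) (x : E) (t : F) (ht : IsPiOLx π x (t - 1)) (n : ℕ) :
    IsPiOLx π x (t ^ n - 1) := by
  letI := algL (A := A) F x
  have hp := hπ.prime
  have ht' : IsPiOL π (t - 1) := ht
  have htO : IsOL π t := by
    have := (IsPiOL.isOL ht').add hp (isOL_one (L := F) hp)
    simpa using this
  show IsPiOL π (t ^ n - 1)
  rw [← geom_sum_mul]
  exact IsPiOL.mul_left hp (IsOL.sum hp _ _ fun l _ => htO.pow hp l) ht'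

theorem intX_of_pow {A E F : Type*} [CommRing A]
    [Field E] [Field F] [Algebra A E] [Algebra E F] (x : E) (y : F) (n : ℕ) (hn : 0 < n)
    (h : IntX A x (y ^ n)) : IntX A x y := by
  letI := algL (A := A) F x
  exact IsIntegral.of_pow hn h

theorem intX_algebraMap {A E F : Type*} [CommRing A]
    [Field E] [Field F] [Algebra A E] [Algebra E F] [Algebra A F] [IsScalarTower A E F]
    (x : E) (a : A) : IntX A x (algebraMap A F a) :=
  (Mx A F x).algebraMap_mem a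

end EndAux

open EndAux

theorem g2_end {A E F 𝕃 : Type*} [CommRing A] [IsDomain A] [IsDiscreteValuationRing A]
    [Field E] [Field F] [Field 𝕃] [CharZero E] [Algebra A E] [Algebra E F] [Algebra A F]
    [IsScalarTower A E F] [FiniteDimensional E F]
    [Algebra F 𝕃] [Algebra E 𝕃] [IsScalarTower E F 𝕃] [Algebra A 𝕃] [IsScalarTower A E 𝕃]
    (π : A) (hπ : Irreducible π) (x : E) (hx : Transcendental A x)
    (hgen : ∀ c : E, ∃ p q : A[X], q ≠ 0 ∧ c * aeval x q = aeval x p)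
    (H0 : ∀ z : 𝕃, IsIntegral A z → z ∈ Set.range (algebraMap A 𝕃))
    (t : F) (ht : IsPiOLx π x (t - 1))
    (m : ℕ) (hm0 : 0 < m) (hmπ : ¬ π ∣ (m : A)) (ζ : A) (hζ : IsPrimitiveRoot ζ m)
    (z : 𝕃) (Wz : F) (hz : z ^ m = algebraMap F 𝕃 Wz) (hW : IntX A x Wz)
    (hW1 : IsPiOLx π x (Wz - 1)) (htW : IntX A x⁻¹ (t ^ m * Wz)) :
    ∃ h : F, algebraMap F 𝕃 h = z := by
  haveI tow : IsScalarTower A F 𝕃 := IsScalarTower.of_algebraMap_eq fun a => by
    rw [IsScalarTower.algebraMap_apply A E 𝕃, IsScalarTower.algebraMap_apply E F 𝕃,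
      ← IsScalarTower.algebraMap_apply A E F]
  have hinjF : Function.Injective (algebraMap F 𝕃) := (algebraMap F 𝕃).injective
  -- (H0) for `F`
  have H0F : ∀ y : F, IsIntegral A y → y ∈ Set.range (algebraMap A F) := by
    intro y hy
    obtain ⟨a, ha⟩ := H0 (algebraMap F 𝕃 y) (hy.map (IsScalarTower.toAlgHom A F 𝕃))
    refine ⟨a, hinjF ?_⟩
    rw [← IsScalarTower.algebraMap_apply, ha]
  induction m using Nat.strong_induction_on generalizing z Wz ζ with
  | _ m ih =>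
  rcases Nat.lt_or_ge 1 m with hm1 | hm1
  swap
  · have : m = 1 := by omega
    subst this
    exact ⟨Wz, by rw [← hz, pow_one]⟩
  set p := m.minFac with hpdef
  have hp : p.Prime := Nat.minFac_prime (by omega)
  obtain ⟨m', hm'⟩ : p ∣ m := Nat.minFac_dvd m
  have hm'0 : 0 < m' := by
    rcases Nat.eq_zero_or_pos m' with h | h
    · subst h; omega
    · exact h
  have hm'lt : m' < m := by
    have := hp.two_le
    nlinarith
  have hpπ : ¬ π ∣ (p : A) := fun h => hmπ (by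
    rw [hm', Nat.cast_mul]; exact Dvd.dvd.mul_right h _)
  have hm'π : ¬ π ∣ (m' : A) := fun h => hmπ (by
    rw [hm', Nat.cast_mul]; exact Dvd.dvd.mul_left h _)
  set z₁ : 𝕃 := z ^ m' with hz₁def
  have hz₁ : z₁ ^ p = algebraMap F 𝕃 Wz := by
    rw [hz₁def, ← pow_mul, mul_comm, ← hm', hz]
  have htm' : IsPiOLx π x (t ^ m' - 1) := isPiOLx_pow_sub_one π hπ x t ht m'
  have htW' : IntX A x⁻¹ ((t ^ m') ^ p * Wz) := by
    rw [← pow_mul, mul_comm m' p, ← hm']; exact htW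
  -- (a)
  have ha : ∃ h₁ : F, algebraMap F 𝕃 h₁ = z₁ := by
    by_contra hno
    have hnob : ∀ b : F, b ^ p ≠ Wz := by
      intro b hb
      rcases eq_or_ne b 0 with rfl | hb0
      · rw [zero_pow hp.ne_zero] at hb
        rw [← hb, map_zero] at hz₁
        exact hno ⟨0, by rw [map_zero, pow_eq_zero_iff hp.ne_zero |>.mp hz₁]⟩
      · have hb0' : algebraMap F 𝕃 b ≠ 0 := by
          rw [Ne, map_eq_zero]; exact hb0
        have hu : (z₁ / algebraMap F 𝕃 b) ^ p = 1 := by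
          rw [div_pow, hz₁, ← hb, map_pow, div_self (pow_ne_zero _ hb0')]
        have hint : IsIntegral A (z₁ / algebraMap F 𝕃 b) :=
          IsIntegral.of_pow hp.pos (by rw [hu]; exact isIntegral_one)
        obtain ⟨a, ha⟩ := H0 _ hint
        refine hno ⟨algebraMap A F a * b, ?_⟩
        rw [map_mul, ← IsScalarTower.algebraMap_apply, ha, div_mul_cancel₀ _ hb0']
    have hirr : Irreducible (X ^ p - C Wz : F[X]) := X_pow_sub_C_irreducible_of_prime hp hnob
    have hmonic : (X ^ p - C Wz : F[X]).Monic := monic_X_pow_sub_C _ hp.ne_zero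
    have hroot : aeval z₁ (X ^ p - C Wz : F[X]) = 0 := by
      rw [map_sub, map_pow, aeval_X, aeval_C, hz₁, sub_self]
    have hmin : minpoly F z₁ = X ^ p - C Wz :=
      (minpoly.eq_of_irreducible_of_monic hirr hroot hmonic).symm
    have hintz : IsIntegral F z₁ := ⟨_, hmonic, hroot⟩
    have hnd : (minpoly F z₁).natDegree = p := by
      rw [hmin, natDegree_X_pow_sub_C]
    let L := IntermediateField.adjoin F {z₁}
    haveI : FiniteDimensional F L := IntermediateField.adjoin.finiteDimensional hintz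
    haveI : IsScalarTower A E L := IsScalarTower.of_algebraMap_eq fun a => Subtype.ext (by
      show algebraMap A 𝕃 a = algebraMap E 𝕃 (algebraMap A E a)
      rw [← IsScalarTower.algebraMap_apply])
    haveI : FiniteDimensional E L := FiniteDimensional.trans E F L
    have hdeg : Module.finrank F L = p := by
      rw [IntermediateField.adjoin.finrank hintz, hnd]
    let w : L := IntermediateField.AdjoinSimple.gen F z₁
    have hw : w ^ p = algebraMap F L Wz := Subtype.ext (by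
      show z₁ ^ p = algebraMap F 𝕃 Wz
      exact hz₁)
    have hli : LinearIndependent F (fun j : Fin p => w ^ (j : ℕ)) := by
      have h1 := linearIndependent_pow (K := F) z₁
      rw [hnd] at h1
      exact LinearIndependent.of_comp (L.val.toLinearMap) h1
    have H0L : ∀ y : L, IsIntegral A y → y ∈ Set.range (algebraMap A L) := by
      intro y hy
      haveI : IsScalarTower A L 𝕃 := IsScalarTower.of_algebraMap_eq fun a => rfl
      obtain ⟨a, ha⟩ := H0 (y : 𝕃) (hy.map (IsScalarTower.toAlgHom A L 𝕃))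
      exact ⟨a, Subtype.ext ha⟩
    exact end_prime π hπ x hx hgen p hp.two_le hpπ Wz hW hW1 (t ^ m') htm' htW' w hw hdeg hli H0L
  obtain ⟨h₁, hh₁⟩ := ha
  -- (b)
  have hh₁p : h₁ ^ p = Wz := hinjF (by rw [map_pow, hh₁, hz₁])
  have hh₁I : IntX A x h₁ := intX_of_pow x h₁ p hp.pos (by rw [hh₁p]; exact hW)
  have hth₁I : IntX A x⁻¹ (t ^ m' * h₁) :=
    intX_of_pow x⁻¹ _ p hp.pos (by rw [mul_pow, hh₁p]; exact htW')
  have hdiff : IsPiOLx π x (h₁ - t ^ m' * h₁) := by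
    have h1 : h₁ - t ^ m' * h₁ = (-h₁) * (t ^ m' - 1) := by ring
    rw [h1]
    refine IsPiOLx.mul_left hπ ?_ htm'
    have := IsOLx.sub hπ (IsOLx.sub hπ (hh₁I.isOLx hπ) (hh₁I.isOLx hπ)) (hh₁I.isOLx hπ)
    simpa using this
  have hζp : IsPrimitiveRoot (ζ ^ m') p := hζ.pow hm0 (by rw [hm', mul_comm])
  obtain ⟨i, hi⟩ := end_conn π hπ x hx hgen H0F p hp.pos hpπ (ζ ^ m') hζp h₁ (t ^ m' * h₁) hh₁I
    hth₁I hdiff (by rw [hh₁p]; exact hW1)
  -- (c)
  obtain ⟨η, hηdef⟩ : ∃ η : A, η = ζ ^ i := ⟨_, rfl⟩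
  obtain ⟨c, hηc⟩ : ∃ c : A, η * c = 1 := ⟨(ζ ^ (m - 1)) ^ i, by
    rw [hηdef, ← mul_pow, ← pow_succ', Nat.sub_add_cancel hm0, hζ.pow_eq_one, one_pow]⟩
  have hηm : (ζ ^ m') ^ i = η ^ m' := by
    rw [hηdef, ← pow_mul, ← pow_mul, mul_comm]
  have hcI : IntX A x (algebraMap A F (c ^ m')) := intX_algebraMap x _
  have hcI' : IntX A x⁻¹ (algebraMap A F (c ^ m')) := intX_algebraMap x⁻¹ _
  have hζm' : IsPrimitiveRoot (ζ ^ p) m' := hζ.pow hm0 hm'
  obtain ⟨h, hh⟩ := ih m' hm'lt hm'0 hm'π (ζ ^ p) hζm' (z * algebraMap A 𝕃 c)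
    (h₁ * algebraMap A F (c ^ m'))
    (by rw [mul_pow, ← hz₁def, map_mul, hh₁, ← IsScalarTower.algebraMap_apply, map_pow])
    (hh₁I.mul hcI)
    (by
      have h1 : h₁ * algebraMap A F (c ^ m') - 1 =
          algebraMap A F (c ^ m') * (h₁ - algebraMap A F ((ζ ^ m') ^ i)) := by
        have h2 : algebraMap A F (c ^ m') * algebraMap A F ((ζ ^ m') ^ i) = 1 := by
          rw [← map_mul, hηm, ← mul_pow, mul_comm c η, hηc, one_pow, map_one]
        rw [mul_sub, h2]; ring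
      rw [h1]
      exact IsPiOLx.mul_left hπ (hcI.isOLx hπ) hi)
    (by
      rw [← mul_assoc]
      exact hth₁I.mul hcI')
  refine ⟨h * algebraMap A F η, ?_⟩
  rw [map_mul, hh, ← IsScalarTower.algebraMap_apply, mul_assoc, ← map_mul, mul_comm c η, hηc,
    map_one, mul_one]

end Fermat.Agent.SS.G2
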