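import Fermat.Agent.SS.G2.Twist

/-!
# SS / G2 : the end game, core = second half of the proof of Theorem G

No (H1), no (H2): if an idempotent `e` of `O_L/π` is the reduction of an element of `M(x)` and of an
element of `M(x⁻¹)`, then `e ≡ 0` or `e ≡ 1`.
-/

set_option autoImplicit false
set_option linter.unusedVariables false

open Polynomial

namespace Fermat.Agent.SS.G2

open Fermat.Agent.Crux.G

theorem core {A E L : Type*} [CommRing A] [IsDomain A] [IsDiscreteValuationRing A]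
    [Field E] [Field L] [CharZero E] [Algebra A E] [Algebra E L] [Algebra A L]
    [IsScalarTower A E L] [FiniteDimensional E L]
    (π : A) (hπ : Irreducible π) (x : E) (hx : Transcendental A x)
    (hgen : ∀ c : E, ∃ p q : A[X], q ≠ 0 ∧ c * aeval x q = aeval x p)
    (H0 : ∀ z : L, IsIntegral A z → z ∈ Set.range (algebraMap A L))
    (e a b : L) (he : IsOLx π x e) (hee : IsPiOLx π x (e ^ 2 - e))
    (ha : IntX A x a) (hae : IsPiOLx π x (a - e))
    (hb : IntX A x⁻¹ b) (hbe : IsPiOLx π x (b - e)) :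
    IsPiOLx π x e ∨ IsPiOLx π x (e - 1) := by
  have hx0 : x ≠ 0 := by
    rintro rfl
    exact hx (isAlgebraic_zero)
  have hxi := transcendental_inv hx
  have hgeni := hgen_inv hx hgen
  have hxL : algebraMap E L x ≠ 0 := by simpa using hx0
  have hbe' : IsPiOLx π x⁻¹ (b - e) := (isPiOLx_inv_iff hπ.prime hx0 _).mpr hbe
  have hπsmul : ∀ u : L, algebraMap E L (algebraMap A E π) * u = π • u := by
    intro u
    rw [Algebra.smul_def, ← IsScalarTower.algebraMap_apply]
  -- hypotheses of `connected_core`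
  obtain ⟨r0, μ, -, hμ⟩ := exists_generators (L := L) hx hgen
  obtain ⟨ri, ν, hν, hν'⟩ := exists_generators (L := L) hxi hgeni
  have haa : ∃ a' ∈ Mx A L x, a ^ 2 - a = π • a' := by
    obtain ⟨z, hz, h⟩ := intX_of_smul hπ hx hgen (y := a ^ 2 - a)
      ((Mx A L x).sub_mem ((Mx A L x).pow_mem ha 2) ha)
      (isPiOLx_sq_sub hπ (IntX.isOLx hπ ha) he hae hee)
    exact ⟨z, hz, by rw [h, hπsmul]⟩
  have hbb : ∃ b' ∈ Mx A L x⁻¹, b ^ 2 - b = π • b' := by
    obtain ⟨z, hz, h⟩ := intX_of_smul hπ hxi hgeni (y := b ^ 2 - b)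
      ((Mx A L x⁻¹).sub_mem ((Mx A L x⁻¹).pow_mem hb 2) hb)
      (isPiOLx_sq_sub hπ (IntX.isOLx hπ hb) ((isOLx_inv_iff hπ.prime hx0 e).mpr he) hbe'
        ((isPiOLx_inv_iff hπ.prime hx0 _).mpr hee))
    exact ⟨z, hz, by rw [h, hπsmul]⟩
  have h0inf : ∀ y ∈ Mx A L x, ∃ N : ℕ, (algebraMap E L x)⁻¹ ^ N * y ∈ Mx A L x⁻¹ := by
    intro y hy
    obtain ⟨N, hN⟩ := exists_intX_inv_pow_mul hx0 (A := A) (y := y) hy
    exact ⟨N, by rw [← map_inv₀]; exact hN⟩
  have hinf0 : ∀ y ∈ Mx A L x⁻¹, ∃ N : ℕ, (algebraMap E L x) ^ N * y ∈ Mx A L x := by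
    intro y hy
    obtain ⟨N, hN⟩ := exists_intX_inv_pow_mul (inv_ne_zero hx0) (A := A) (y := y) hy
    rw [inv_inv] at hN
    exact ⟨N, hN⟩
  have hab : ∃ (c : L) (N : ℕ), (algebraMap E L x) ^ N * c ∈ Mx A L x ∧ a - b = π • c := by
    obtain ⟨N, hN⟩ := hinf0 b hb
    have h1 : IntX A x (algebraMap E L x ^ N * (a - b)) := by
      rw [mul_sub]
      exact (Mx A L x).sub_mem ((Mx A L x).mul_mem ((Mx A L x).pow_mem (intX_self x) N) ha) hN
    have h2 : IsPiOLx π x (a - b) := by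
      have : a - b = (a - e) - (b - e) := by ring
      rw [this]
      exact IsPiOLx.sub hπ hae hbe
    obtain ⟨c, hc, h⟩ := intX_of_smul' hπ hx hgen N h1 h2
    exact ⟨c, N, hc, by rw [h, hπsmul]⟩
  obtain ⟨z, hz0, hzinf, a'', ha'', hza⟩ := connected_core π (algebraMap E L x) hxL
    (Mx A L x) (Mx A L x⁻¹) (intX_self x) (by rw [← map_inv₀]; exact intX_self x⁻¹)
    ⟨r0, μ, hμ⟩ ⟨ri, ν, hν, by rw [← map_inv₀]; exact hν'⟩ h0inf hinf0 a b ha hb haa hbb hab
  -- `z` is a constant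
  obtain ⟨c0, rfl⟩ := H0 z (isIntegral_of_intX_of_intX_inv hx hgen hz0 hzinf)
  have hze : IsPiOLx π x (algebraMap A L c0 - e) := by
    have : algebraMap A L c0 - e = (algebraMap A L c0 - a) + (a - e) := by ring
    rw [this, hza]
    exact IsPiOLx.add hπ (isPiOLx_smul (IntX.isOLx hπ ha'')) hae
  have hzz := isPiOLx_sq_sub hπ (IntX.isOLx hπ hz0) he hze hee
  have h3 : algebraMap A L c0 ^ 2 - algebraMap A L c0 = algebraMap A L (c0 * (c0 - 1)) := by
    rw [map_mul, map_sub, map_one]; ring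
  rw [h3] at hzz
  have hmem : ∀ t : A, IsOLx π x (algebraMap A L t) := fun t =>
    IntX.isOLx hπ ((Mx A L x).algebraMap_mem t)
  rcases hπ.prime.dvd_or_dvd (dvd_of_isPiOLx_algebraMap hπ hx hgen hzz) with ⟨c', hc'⟩ | ⟨c', hc'⟩
  · left
    have h4 : IsPiOLx π x (algebraMap A L c0) := by
      rw [hc', map_mul, ← Algebra.smul_def]
      exact isPiOLx_smul (hmem c')
    have : e = algebraMap A L c0 - (algebraMap A L c0 - e) := by ring
    rw [this]
    exact IsPiOLx.sub hπ h4 hze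
  · right
    have h4 : IsPiOLx π x (algebraMap A L c0 - 1) := by
      rw [← map_one (algebraMap A L), ← map_sub, hc', map_mul, ← Algebra.smul_def]
      exact isPiOLx_smul (hmem c')
    have : e - 1 = (algebraMap A L c0 - 1) - (algebraMap A L c0 - e) := by ring
    rw [this]
    exact IsPiOLx.sub hπ h4 hze

end Fermat.Agent.SS.G2
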