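import Fermat.Agent.SS.G2.EndCore

/-!
# SS / G2 : the end game, Kummer extension of degree `d`

TASK `SS/G2-EndPrime`.

`L = F(w)`, `w^d = W ∈ M(x)`, `[L:F] = d ≥ 2`, `π ∤ d`, `W ≡ 1 mod π O_F`, `t ≡ 1 mod π O_F`,
`t^d W ∈ M(x⁻¹)`, (H0) for `L`: contradiction.

PROOF (copy the structure of `Crux.G.GK`).  `W ∈ O_F` (`IntX.isOLx`), `W⁻¹ ∈ O_F`
(`IsOL.inv_of_sub_one`).  `kummer_idempotent` : `e = d⁻¹ ∑_{i<d} w^i ∈ O_L`, `e² ≡ e`, `e ≢ 0, 1`.
`a := e` is integral over `A[x]` (`w^d = W` is; `d` is a unit of `A` because `π ∤ d`, so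
`(d : L)⁻¹ = algebraMap A L (d⁻¹)`).  `b := d⁻¹ ∑ (t w)^i` is integral over `A[x⁻¹]`
(`(t w)^d = t^d W`).  `b - e = d⁻¹ ∑ (t^i - 1) w^i ∈ π O_L` (`IsPiOL.algebraMap_FL`,
`kummer_isOL_w`, `t^i - 1 = (t - 1)(..)`, `t ∈ O_F`).  Apply `core`.
-/

set_option autoImplicit false
set_option linter.style.haveILetI false

open Polynomial

namespace Fermat.Agent.SS.G2

open Fermat.Agent.Crux.G

theorem end_prime {A E F L : Type*} [CommRing A] [IsDomain A] [IsDiscreteValuationRing A]
    [Field E] [Field F] [Field L] [CharZero E] [Algebra A E]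
    [Algebra E F] [FiniteDimensional E F]
    [Algebra E L] [Algebra A L] [IsScalarTower A E L] [FiniteDimensional E L]
    [Algebra F L] [IsScalarTower E F L]
    (π : A) (hπ : Irreducible π) (x : E) (hx : Transcendental A x)
    (hgen : ∀ c : E, ∃ p q : A[X], q ≠ 0 ∧ c * aeval x q = aeval x p)
    (d : ℕ) (hd2 : 2 ≤ d) (hdπ : ¬ π ∣ (d : A))
    (W : F) (hW : IntX A x W) (hW1 : IsPiOLx π x (W - 1))
    (t : F) (ht : IsPiOLx π x (t - 1)) (htW : IntX A x⁻¹ (t ^ d * W))
    (w : L) (hw : w ^ d = algebraMap F L W) (hdeg : Module.finrank F L = d)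
    (hli : LinearIndependent F (fun j : Fin d => w ^ (j : ℕ)))
    (H0 : ∀ z : L, IsIntegral A z → z ∈ Set.range (algebraMap A L)) : False := by
  classical
  have hp := hπ.prime
  have hd0 : d ≠ 0 := by omega
  have hdpos : 0 < d := by omega
  -- `d` is a unit of `A`
  have hdu : IsUnit (d : A) := by
    rw [← IsLocalRing.notMem_maximalIdeal, hπ.maximalIdeal_eq, Ideal.mem_span_singleton]
    exact hdπ
  obtain ⟨u, hu⟩ := hdu
  have hdinv : (d : L)⁻¹ = algebraMap A L ((u⁻¹ : Aˣ) : A) := by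
    symm
    apply eq_inv_of_mul_eq_one_left
    rw [← map_natCast (algebraMap A L) d, ← hu, ← map_mul, Units.inv_mul, map_one]
  set e : L := (d : L)⁻¹ * ∑ i ∈ Finset.range d, w ^ i with he_def
  set b : L := (d : L)⁻¹ * ∑ i ∈ Finset.range d, (algebraMap F L t * w) ^ i with hb_def
  have hbe_eq : b - e = (d : L)⁻¹ * ∑ i ∈ Finset.range d, algebraMap F L (t ^ i - 1) * w ^ i := by
    rw [hb_def, he_def, ← mul_sub, ← Finset.sum_sub_distrib]
    congr 1
    refine Finset.sum_congr rfl fun i _ => ?_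
    rw [mul_pow, map_sub, map_pow, map_one]
    ring
  have key : (IsOLx π x e ∧ IsPiOLx π x (e ^ 2 - e) ∧ ¬ IsPiOLx π x e ∧ ¬ IsPiOLx π x (e - 1)) ∧
      IntX A x w ∧ IsPiOLx π x (b - e) ∧ IsPiOLx π x (e - e) := by
    letI := algE (A := A) x
    letI := algL (A := A) F x
    letI := algL (A := A) L x
    haveI := isScalarTower_alg (A := A) (L := F) x
    haveI := isScalarTower_alg (A := A) (L := L) x
    haveI := isScalarTower_algL (A := A) (F := F) (L := L) x
    haveI := isFractionRing_algE hx hgen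
    have hWI : IsIntegral A[X] W := hW
    have hW1' : IsPiOL π (W - 1) := hW1
    have ht' : IsPiOL π (t - 1) := ht
    have hWO : IsOL π W := IsOL.of_isIntegral hp hWI
    have hW' : IsOL π W⁻¹ := IsOL.inv_of_sub_one hp hW1'
    have hwO : IsOL π w := kummer_isOL_w hd0 hw hWO
    have htO : IsOL π t := by
      have := (IsPiOL.isOL ht').add hp (isOL_one (L := F) hp)
      simpa using this
    have hti : ∀ i : ℕ, IsPiOL π (t ^ i - 1) := by
      intro i
      rw [← geom_sum_mul]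
      exact IsPiOL.mul_left hp (IsOL.sum hp _ _ fun l _ => htO.pow hp l) ht'
    have hdO : IsOL π ((d : L)⁻¹) := by
      simpa using IsOL.natCast_inv_mul hπ hdπ (isOL_one (L := L) hp)
    refine ⟨kummer_idempotent E hπ d hd2 hdπ w W hw hdeg hli hWO hW' hW1', ?_, ?_, ?_⟩
    · show IsIntegral A[X] w
      apply IsIntegral.of_pow hdpos
      rw [hw]
      exact IsIntegral.algebraMap hWI
    · show IsPiOL π (b - e)
      rw [hbe_eq]
      exact IsPiOL.mul_left hp hdO (IsPiOL.sum hp _ _ fun i _ =>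
        ((hti i).algebraMap_FL).mul_right hp (hwO.pow hp i))
    · show IsPiOL π (e - e)
      rw [sub_self]
      exact isPiOL_zero hp
  obtain ⟨⟨he, hee, hne0, hne1⟩, hwI, hbe, hae⟩ := key
  have ha : IntX A x e := by
    rw [he_def, hdinv]
    exact (Mx A L x).mul_mem ((Mx A L x).algebraMap_mem _)
      ((Mx A L x).sum_mem fun i _ => (Mx A L x).pow_mem hwI i)
  have htwI : IntX A x⁻¹ (algebraMap F L t * w) := by
    letI := algL (A := A) F x⁻¹
    letI := algL (A := A) L x⁻¹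
    haveI := isScalarTower_algL (A := A) (F := F) (L := L) x⁻¹
    have htW' : IsIntegral A[X] (t ^ d * W) := htW
    show IsIntegral A[X] (algebraMap F L t * w)
    apply IsIntegral.of_pow hdpos
    rw [mul_pow, hw, ← map_pow, ← map_mul]
    exact IsIntegral.algebraMap htW'
  have hb : IntX A x⁻¹ b := by
    rw [hb_def, hdinv]
    exact (Mx A L x⁻¹).mul_mem ((Mx A L x⁻¹).algebraMap_mem _)
      ((Mx A L x⁻¹).sum_mem fun i _ => (Mx A L x⁻¹).pow_mem htwI i)
  rcases core π hπ x hx hgen H0 e e b he hee ha hae hb hbe with h | h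
  · exact hne0 h
  · exact hne1 h

end Fermat.Agent.SS.G2
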