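import Mathlib

/-!
# SS / G2 : Goursat's lemma for a subring of a product of two rings

Mathlib only.  TASK `SS/G2-N-Goursat`.

`Ct` a commutative ring, `e` an idempotent, `C` a subring which surjects onto both factors
`e Ct`, `(1-e) Ct` (`proj₁`, `proj₂`).

CONSTRUCTION.  `K₁ = {c : e c ∈ C}`, `K₂ = {c : (1-e) c ∈ C}` are ideals of `Ct`
(for `d ∈ Ct` choose `d' ∈ C` with `(1-e)(d'-d) = 0`: `(1-e) c d = ((1-e) c) d' ∈ C`).
`f_i : C → Ct/K_i` is onto (`proj_i`: `e (c - d) = 0 ∈ C` so `c - d ∈ K₁`), and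
`ker f₁ = ker f₂ = {c ∈ C : e c ∈ C}` (`(1-e) c = c - e c`).
`g := RingHom.liftOfSurjective f₁ _ ⟨f₂, _⟩ : Ct/K₁ → Ct/K₂` (injective), `Z := Ct/K₂`,
`p₁ := g ∘ mk₁`, `p₂ := mk₂`.
* `c ∈ C ⇒ p₁ c = g (f₁ c) = f₂ c = p₂ c`.  Conversely if `p₁ c = p₂ c` take `c' ∈ C` with
  `e (c' - c) = 0`: `p₁ c = p₁ c' = p₂ c'`, so `(1-e)(c - c') ∈ C`, and `c - c' = (1-e)(c - c')`.
* onto: `z_i = mk₂ d_i`, `d₁' ∈ C` with `(1-e)(d₁' - d₁) = 0`, `c := e d₁' + (1-e) d₂`.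
* `p₁ e = p₁ 1 = 1` (`e (e - 1) = 0`), `p₂ e = 0` (`(1-e) e = 0`).
* reduced: `K₂` is radical by `rad₂` (`Ideal.isRadical_iff_pow_one_lt 2`,
  `Ideal.isRadical_iff_quotient_reduced`).
-/

set_option autoImplicit false

namespace Fermat.Agent.SS.G2

universe u

theorem goursat {Ct : Type u} [CommRing Ct] (C : Subring Ct) (e : Ct) (he : e * e = e)
    (proj₁ : ∀ d : Ct, ∃ c ∈ C, e * (c - d) = 0)
    (proj₂ : ∀ d : Ct, ∃ c ∈ C, (1 - e) * (c - d) = 0)
    (rad₂ : ∀ d : Ct, (1 - e) * d ^ 2 ∈ C → (1 - e) * d ∈ C) :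
    ∃ (Z : Type u) (_ : CommRing Z) (p₁ p₂ : Ct →+* Z),
      (∀ z₁ z₂ : Z, ∃ c, p₁ c = z₁ ∧ p₂ c = z₂) ∧ (∀ c, p₁ c = p₂ c ↔ c ∈ C) ∧ IsReduced Z ∧
      p₁ e = 1 ∧ p₂ e = 0 ∧ (∀ c, p₁ c = 0 ↔ e * c ∈ C) ∧ (∀ c, p₂ c = 0 ↔ (1 - e) * c ∈ C) := by
  have he' : e * (1 - e) = 0 := by rw [mul_sub, mul_one, he, sub_self]
  have he'' : (1 - e) * (1 - e) = 1 - e := by
    linear_combination he
  -- the two ideals
  let K₁ : Ideal Ct :=
    { carrier := {c | e * c ∈ C}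
      add_mem' := by
        intro a b ha hb
        change e * (a + b) ∈ C
        rw [mul_add]
        exact C.add_mem ha hb
      zero_mem' := by
        change e * 0 ∈ C
        rw [mul_zero]
        exact C.zero_mem
      smul_mem' := by
        intro d c hc
        change e * (d * c) ∈ C
        obtain ⟨d', hd', h⟩ := proj₁ d
        have : e * (d * c) = d' * (e * c) := by linear_combination (-c) * h
        rw [this]
        exact C.mul_mem hd' hc }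
  let K₂ : Ideal Ct :=
    { carrier := {c | (1 - e) * c ∈ C}
      add_mem' := by
        intro a b ha hb
        change (1 - e) * (a + b) ∈ C
        rw [mul_add]
        exact C.add_mem ha hb
      zero_mem' := by
        change (1 - e) * 0 ∈ C
        rw [mul_zero]
        exact C.zero_mem
      smul_mem' := by
        intro d c hc
        change (1 - e) * (d * c) ∈ C
        obtain ⟨d', hd', h⟩ := proj₂ d
        have : (1 - e) * (d * c) = d' * ((1 - e) * c) := by linear_combination (-c) * h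
        rw [this]
        exact C.mul_mem hd' hc }
  have hK₁ : ∀ c, c ∈ K₁ ↔ e * c ∈ C := fun c => Iff.rfl
  have hK₂ : ∀ c, c ∈ K₂ ↔ (1 - e) * c ∈ C := fun c => Iff.rfl
  let mk₁ : Ct →+* Ct ⧸ K₁ := Ideal.Quotient.mk K₁
  let mk₂ : Ct →+* Ct ⧸ K₂ := Ideal.Quotient.mk K₂
  have hmk₁ : ∀ a b : Ct, e * (a - b) = 0 → mk₁ a = mk₁ b := by
    intro a b h
    refine (Ideal.Quotient.eq).2 ((hK₁ _).2 ?_)
    rw [h]
    exact C.zero_mem
  have hmk₂ : ∀ a b : Ct, (1 - e) * (a - b) = 0 → mk₂ a = mk₂ b := by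
    intro a b h
    refine (Ideal.Quotient.eq).2 ((hK₂ _).2 ?_)
    rw [h]
    exact C.zero_mem
  let f₁ : C →+* Ct ⧸ K₁ := mk₁.comp C.subtype
  let f₂ : C →+* Ct ⧸ K₂ := mk₂.comp C.subtype
  have hf₁ : Function.Surjective f₁ := by
    intro x
    obtain ⟨d, rfl⟩ := Ideal.Quotient.mk_surjective x
    obtain ⟨c, hc, h⟩ := proj₁ d
    exact ⟨⟨c, hc⟩, hmk₁ c d h⟩
  have hker₁ : ∀ c : C, f₁ c = 0 ↔ e * (c : Ct) ∈ C := by
    intro c
    exact (Ideal.Quotient.eq_zero_iff_mem).trans (hK₁ _)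
  have hker₂ : ∀ c : C, f₂ c = 0 ↔ e * (c : Ct) ∈ C := by
    intro c
    have h0 : f₂ c = 0 ↔ (1 - e) * (c : Ct) ∈ C :=
      (Ideal.Quotient.eq_zero_iff_mem).trans (hK₂ _)
    refine h0.trans ?_
    have h1 : (1 - e) * (c : Ct) = c - e * c := by ring
    constructor
    · intro h
      have : e * (c : Ct) = c - (1 - e) * c := by ring
      rw [this]
      exact C.sub_mem c.2 h
    · intro h
      rw [h1]
      exact C.sub_mem c.2 h
  have hle : RingHom.ker f₁ ≤ RingHom.ker f₂ := by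
    intro c hc
    rw [RingHom.mem_ker] at hc ⊢
    exact (hker₂ c).2 ((hker₁ c).1 hc)
  let g : Ct ⧸ K₁ →+* Ct ⧸ K₂ := RingHom.liftOfSurjective f₁ hf₁ ⟨f₂, hle⟩
  have hg : ∀ c : C, g (f₁ c) = f₂ c := fun c =>
    RingHom.liftOfRightInverse_comp_apply f₁ _ _ ⟨f₂, hle⟩ c
  have hginj : ∀ x, g x = 0 → x = 0 := by
    intro x hx
    obtain ⟨c, rfl⟩ := hf₁ x
    rw [hg] at hx
    exact (hker₁ c).2 ((hker₂ c).1 hx)
  let p₁ : Ct →+* Ct ⧸ K₂ := g.comp mk₁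
  have hp₁ : ∀ c, p₁ c = g (mk₁ c) := fun c => rfl
  have hC : ∀ c ∈ C, p₁ c = mk₂ c := fun c hc => hg ⟨c, hc⟩
  refine ⟨Ct ⧸ K₂, inferInstance, p₁, mk₂, ?_, ?_, ?_, ?_, ?_, ?_, ?_⟩
  · intro z₁ z₂
    obtain ⟨d₁, rfl⟩ := Ideal.Quotient.mk_surjective z₁
    obtain ⟨d₂, rfl⟩ := Ideal.Quotient.mk_surjective z₂
    obtain ⟨d₁', hd₁', h⟩ := proj₂ d₁
    refine ⟨e * d₁' + (1 - e) * d₂, ?_, ?_⟩
    · have h1 : mk₁ (e * d₁' + (1 - e) * d₂) = mk₁ d₁' :=
        hmk₁ _ _ (by linear_combination (d₁' - d₂) * he)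
      rw [hp₁, h1, ← hp₁, hC d₁' hd₁']
      exact hmk₂ _ _ h
    · exact hmk₂ _ _ (by linear_combination (d₂ - d₁') * he)
  · intro c
    constructor
    · intro h
      obtain ⟨c', hc', h'⟩ := proj₁ c
      have h1 : p₁ c = mk₂ c' := by
        rw [hp₁, ← hmk₁ c' c h', ← hp₁, hC c' hc']
      have h2 : mk₂ (c - c') = 0 := by
        rw [map_sub, ← h, h1, sub_self]
      have h3 : (1 - e) * (c - c') ∈ C := (hK₂ _).1 ((Ideal.Quotient.eq_zero_iff_mem).1 h2)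
      have h4 : c = c' + (1 - e) * (c - c') := by linear_combination -h'
      rw [h4]
      exact C.add_mem hc' h3
    · exact hC c
  · refine (Ideal.isRadical_iff_quotient_reduced K₂).1 ?_
    refine (Ideal.isRadical_iff_pow_one_lt 2 (by norm_num)).2 ?_
    intro d hd
    exact (hK₂ _).2 (rad₂ d ((hK₂ _).1 hd))
  · have h1 : mk₁ e = mk₁ 1 := hmk₁ _ _ (by linear_combination he)
    rw [hp₁, h1, map_one, map_one]
  · refine (Ideal.Quotient.eq_zero_iff_mem).2 ((hK₂ _).2 ?_)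
    have : (1 - e) * e = 0 := by linear_combination -he
    rw [this]
    exact C.zero_mem
  · intro c
    constructor
    · intro h
      exact (hK₁ _).1 ((Ideal.Quotient.eq_zero_iff_mem).1 (hginj _ h))
    · intro h
      have : mk₁ c = 0 := (Ideal.Quotient.eq_zero_iff_mem).2 ((hK₁ _).2 h)
      rw [hp₁, this, map_zero]
  · intro c
    exact (Ideal.Quotient.eq_zero_iff_mem).trans (hK₂ _)

end Fermat.Agent.SS.G2
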