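import Fermat.Agent.SS.G2.Twist
import Fermat.Agent.SS.GM2.NodalDefs

/-!
# SS / G2 : the intrinsic model `O_F / π O_F` of the special fibre of a chart

TASK `SS/G2-N-Intrinsic` (the five lemmas at the end).
-/

set_option autoImplicit false

open Polynomial IsLocalRing

namespace Fermat.Agent.SS.G2

open Fermat.Agent.Crux.G Fermat.Agent.SS.GM2

variable {A : Type*} [CommRing A] [IsDomain A] {π : A}

/-- `π O_F` as an ideal of `O_F`. -/
noncomputable def piOF (hp : Prime π) (F : Type*) [Field F] [Algebra A[X] F] : Ideal (OF hp F) :=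
  Ideal.span {algebraMap A[X] (OF hp F) (C π)}

theorem mem_piOF (hp : Prime π) {F : Type*} [Field F] [Algebra A[X] F] {y : OF hp F} :
    y ∈ piOF hp F ↔ IsPiOL π (y : F) := by
  rw [piOF, Ideal.mem_span_singleton']
  constructor
  · rintro ⟨z, rfl⟩
    refine ⟨z, z.2, ?_⟩
    rw [Algebra.smul_def, mul_comm]
    rfl
  · rintro ⟨z, hz, h⟩
    refine ⟨⟨z, hz⟩, Subtype.ext ?_⟩
    rw [h, Algebra.smul_def, mul_comm]
    rfl

variable [IsDiscreteValuationRing A]

/-- `O_F / π O_F`. -/
def AAt (hπ : Irreducible π) (F : Type*) [Field F] [Algebra A[X] F] : Type _ :=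
  OF hπ.prime F ⧸ piOF hπ.prime F

noncomputable instance (hπ : Irreducible π) (F : Type*) [Field F] [Algebra A[X] F] :
    CommRing (AAt hπ F) :=
  inferInstanceAs (CommRing (OF hπ.prime F ⧸ piOF hπ.prime F))

/-- the reduction map. -/
noncomputable def mkA (hπ : Irreducible π) (F : Type*) [Field F] [Algebra A[X] F] :
    OF hπ.prime F →+* AAt hπ F :=
  Ideal.Quotient.mk (piOF hπ.prime F)

/-- `k = A/π → O_F/π O_F`. -/
noncomputable def kToA (hπ : Irreducible π) (F : Type*) [Field F] [Algebra A[X] F] :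
    ResidueField A →+* AAt hπ F :=
  Ideal.Quotient.lift (maximalIdeal A)
    ((mkA hπ F).comp ((algebraMap A[X] (OF hπ.prime F)).comp C)) (by
      intro a ha
      rw [hπ.maximalIdeal_eq, Ideal.mem_span_singleton] at ha
      obtain ⟨a', rfl⟩ := ha
      refine Ideal.Quotient.eq_zero_iff_mem.mpr ?_
      show algebraMap A[X] (OF hπ.prime F) (C (π * a')) ∈ piOF hπ.prime F
      rw [C_mul, map_mul]
      exact Ideal.mul_mem_right _ _ (Ideal.subset_span rfl))

noncomputable instance (hπ : Irreducible π) (F : Type*) [Field F] [Algebra A[X] F] :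
    Algebra (ResidueField A)[X] (AAt hπ F) :=
  (eval₂RingHom (kToA hπ F) (mkA hπ F (algebraMap A[X] (OF hπ.prime F) X))).toAlgebra

variable (hπ : Irreducible π) {F : Type*} [Field F] [Algebra A[X] F]

include hπ in
theorem residue_eq_zero_iff_dvd (a : A) : residue A a = 0 ↔ π ∣ a := by
  rw [IsLocalRing.residue_eq_zero_iff, hπ.maximalIdeal_eq, Ideal.mem_span_singleton]

theorem mkA_surjective : Function.Surjective (mkA hπ F) := Ideal.Quotient.mk_surjective

theorem mkA_eq_zero_iff (y : OF hπ.prime F) : mkA hπ F y = 0 ↔ IsPiOL π (y : F) := by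
  rw [← mem_piOF hπ.prime]
  exact Ideal.Quotient.eq_zero_iff_mem

theorem algebraMap_AAt (r : A[X]) :
    algebraMap (ResidueField A)[X] (AAt hπ F) (r.map (residue A))
      = mkA hπ F (algebraMap A[X] (OF hπ.prime F) r) := by
  have h : (algebraMap (ResidueField A)[X] (AAt hπ F)).comp (mapRingHom (residue A)) =
      (mkA hπ F).comp (algebraMap A[X] (OF hπ.prime F)) := by
    refine Polynomial.ringHom_ext (fun a => ?_) ?_
    · rw [RingHom.comp_apply, coe_mapRingHom, map_C, RingHom.algebraMap_toAlgebra,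
        coe_eval₂RingHom, eval₂_C]
      rfl
    · rw [RingHom.comp_apply, coe_mapRingHom, map_X, RingHom.algebraMap_toAlgebra,
        coe_eval₂RingHom, eval₂_X]
      rfl
  exact congrArg (fun g => g r) h

theorem mkA_smul (r : A[X]) (y : OF hπ.prime F) :
    mkA hπ F (r • y) = (r.map (residue A)) • mkA hπ F y := by
  rw [Algebra.smul_def, map_mul, Algebra.smul_def, algebraMap_AAt]

/-- reduction of a polynomial relation. -/
theorem eval₂_mkA (y : OF hπ.prime F) (P : A[X][X]) :
    eval₂ (algebraMap (ResidueField A)[X] (AAt hπ F)) (mkA hπ F y)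
      (P.map (mapRingHom (residue A))) = mkA hπ F (aeval y P) := by
  have h : (algebraMap (ResidueField A)[X] (AAt hπ F)).comp (mapRingHom (residue A)) =
      (mkA hπ F).comp (algebraMap A[X] (OF hπ.prime F)) :=
    RingHom.ext fun r => algebraMap_AAt hπ r
  rw [eval₂_map, h, aeval_def, hom_eval₂]

theorem coe_aeval_OF (y : OF hπ.prime F) (P : A[X][X]) :
    ((aeval y P : OF hπ.prime F) : F) = aeval (y : F) P :=
  (Polynomial.aeval_algHom_apply (OF hπ.prime F).val y P).symm

/-- integral elements have integral reductions. -/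
theorem isIntegral_mkA (y : OF hπ.prime F) (hy : IsIntegral A[X] (y : F)) :
    IsIntegral (ResidueField A)[X] (mkA hπ F y) := by
  obtain ⟨P, hP, hPy⟩ := hy
  refine ⟨P.map (mapRingHom (residue A)), hP.map _, ?_⟩
  have h0 : (aeval y P : OF hπ.prime F) = 0 := by
    apply Subtype.ext
    rw [coe_aeval_OF hπ]
    exact hPy
  rw [eval₂_mkA, h0, map_zero]

/-- `RedIntegral` = the reduction is integral over `k[X]`.
(`⇐`: lift the monic polynomial: `Polynomial.lifts_and_natDegree_eq_and_monic`,
`Polynomial.map_surjective`.) -/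
theorem isIntegral_mkA_iff (y : OF hπ.prime F) :
    IsIntegral (ResidueField A)[X] (mkA hπ F y) ↔ RedIntegral π (y : F) := by
  constructor
  · rintro ⟨Q, hQ, hQy⟩
    have hsurj : Function.Surjective (mapRingHom (residue A)) :=
      Polynomial.map_surjective (residue A) IsLocalRing.residue_surjective
    obtain ⟨P₀, hP₀⟩ := Polynomial.map_surjective _ hsurj Q
    obtain ⟨P, hPQ, -, hP⟩ := Polynomial.lifts_and_natDegree_eq_and_monic
      ((Polynomial.mem_lifts Q).2 ⟨P₀, hP₀⟩) hQ
    refine ⟨P, hP, ?_⟩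
    rw [← coe_aeval_OF hπ, ← mkA_eq_zero_iff hπ, ← eval₂_mkA, hPQ]
    exact hQy
  · rintro ⟨P, hP, hPy⟩
    refine ⟨P.map (mapRingHom (residue A)), hP.map _, ?_⟩
    rw [eval₂_mkA, mkA_eq_zero_iff, coe_aeval_OF hπ]
    exact hPy

end Fermat.Agent.SS.G2
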