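import Fermat.Agent.SS.G2.Twist
import Fermat.Agent.SS.GM2.NodalDefs

/-!
# SS / G2 : `LocPow ⇒ InvK`

TASK `SS/G2-N-LocPow`.

PROOF.  `𝔟 := {r ∈ A[X] : ∃ n (a b : Fin n → F), IsBK π (a_i^m W), IsBK π (b_i^m W⁻¹),
∑ a_i b_i = algebraMap r}` is an ideal of `A[X]` (sums: concatenate (`Fin.append`, or use
`InvK.of_fintype`-style statements over an arbitrary `Fintype`); multiples: `r' • a_i`).
(1) For every irreducible `g ≁ C π` there is `r ∈ 𝔟` with `g ∤ r`: `y` from `LocPow`,
    `s • (y^m W)` and `s' • (y^m W)⁻¹` integral, `g ∤ s, s'`.  Then `(s • y)^m W = s^(m-1) • (s • y^m W)`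
    and `(s' • y⁻¹)^m W⁻¹ = s'^(m-1) • (s' • (y^m W)⁻¹)` are integral, and
    `(s • y)(s' • y⁻¹) = s s'`; `g` is prime (`A[X]` is a UFD), so `g ∤ s s'`.
(2) Hence `(C π)^j ∈ 𝔟` for some `j`.  [Take `r₀ ∈ 𝔟`, `r₀ ≠ 0` (from `g = X`).  Induct on the number
    of irreducible factors `≁ C π` of `r₀` (`UniqueFactorizationMonoid.induction_on_prime` /
    strong induction on `(normalizedFactors r₀).card`): if `g ∣ r₀`, `g ≁ C π`, pick `r₁ ∈ 𝔟` with
    `g ∤ r₁`...  EASIER: pass to `K[X]`, `K = FractionRing A`, a PID: the ideal `𝔟 K[X] = (d)`;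
    if `d` is not a unit it has an irreducible factor, which is associated in `K[X]` to the image of
    a primitive irreducible `g ∈ A[X]` (`IsPrimitive.irreducible_iff_irreducible_map_fraction_map`,
    `IsPrimitive.dvd_iff_fraction_map_dvd_fraction_map`, `integerNormalization`), and `g` divides all
    elements of `𝔟`: contradiction with (1).  So `1 = ∑ c_i r_i`, `c_i ∈ K[X]`, `r_i ∈ 𝔟`; clear
    denominators: `a = ∑ c_i' r_i ∈ 𝔟` with `a ∈ A`, `a ≠ 0`, `a = unit * π^j`.]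
(3) `(C π)^j = ∑ a_i b_i` gives `1 = ∑ a_i' b_i` with `a_i' = a_i / π^j`; `IsBK π (a_i'^m W)` since
    `(C π)^(j m) • (a_i'^m W) = a_i^m W`.
-/

set_option autoImplicit false

open Polynomial

namespace Fermat.Agent.SS.G2

open Fermat.Agent.Crux.G Fermat.Agent.SS.GM2

section Abstract

variable {R : Type*} [CommRing R] [IsDomain R]

/-- pseudo-division by an element of minimal degree of an ideal of `R[X]` -/
theorem LocPow_pseudo (𝔟 : Ideal R[X]) (d : R[X]) (hd : d ∈ 𝔟) (hd0 : d ≠ 0)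
    (hmin : ∀ r ∈ 𝔟, r ≠ 0 → d.natDegree ≤ r.natDegree) (n : ℕ) :
    ∀ r ∈ 𝔟, r.degree < n → ∃ k : ℕ, d ∣ C (d.leadingCoeff ^ k) * r := by
  induction n with
  | zero =>
    intro r _ hr
    have : r = 0 := by
      rw [← degree_eq_bot]
      exact Nat.WithBot.lt_zero_iff.mp hr
    exact ⟨0, by rw [this, mul_zero]; exact dvd_zero d⟩
  | succ n ih =>
    intro r hrb hr
    by_cases hr0 : r = 0
    · exact ⟨0, by rw [hr0, mul_zero]; exact dvd_zero d⟩
    have hle := hmin r hrb hr0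
    have hlc : d.leadingCoeff ≠ 0 := leadingCoeff_ne_zero.mpr hd0
    have hlr : r.leadingCoeff ≠ 0 := leadingCoeff_ne_zero.mpr hr0
    set e := r.natDegree - d.natDegree with he
    set p := C d.leadingCoeff * r with hp
    set q := C r.leadingCoeff * X ^ e * d with hq
    have hdp : p.degree = r.degree := degree_C_mul hlc
    have hdq : q.degree = r.degree := by
      rw [hq, degree_mul, degree_mul, degree_C hlr, degree_X_pow, degree_eq_natDegree hd0,
        degree_eq_natDegree hr0, zero_add, ← Nat.cast_add, he, Nat.sub_add_cancel hle]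
    have hp0 : p ≠ 0 := mul_ne_zero (C_ne_zero.mpr hlc) hr0
    have hlpq : p.leadingCoeff = q.leadingCoeff := by
      rw [hp, hq, leadingCoeff_mul, leadingCoeff_mul, leadingCoeff_mul, leadingCoeff_C,
        leadingCoeff_C, leadingCoeff_X_pow, mul_one, mul_comm]
    have hlt : (p - q).degree < p.degree := degree_sub_lt_left (hdp.trans hdq.symm) hp0 hlpq
    have hmem : p - q ∈ 𝔟 := 𝔟.sub_mem (𝔟.mul_mem_left _ hrb) (𝔟.mul_mem_left _ hd)
    have hlt' : (p - q).degree < n := by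
      rw [hdp, degree_eq_natDegree hr0] at hlt
      rw [degree_eq_natDegree hr0] at hr
      have h1 : r.natDegree ≤ n := Nat.lt_succ_iff.mp (by exact_mod_cast hr)
      exact lt_of_lt_of_le hlt (by exact_mod_cast h1)
    obtain ⟨k, hk⟩ := ih (p - q) hmem hlt'
    refine ⟨k + 1, ?_⟩
    have : C (d.leadingCoeff ^ (k + 1)) * r
        = C (d.leadingCoeff ^ k) * (p - q) + C (d.leadingCoeff ^ k) * C r.leadingCoeff * X ^ e * d := by
      rw [hp, hq, pow_succ, C_mul]
      ring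
    rw [this]
    exact dvd_add hk (Dvd.intro_left _ rfl)

variable [UniqueFactorizationMonoid R]

/-- a polynomial of positive degree has a prime factor of positive degree -/
theorem LocPow_exists_prime (d : R[X]) (hd : 0 < d.natDegree) :
    ∃ g : R[X], Prime g ∧ g ∣ d ∧ 0 < g.natDegree := by
  induction d using UniqueFactorizationMonoid.induction_on_prime with
  | h₁ => simp at hd
  | h₂ x hx => rw [natDegree_eq_zero_of_isUnit hx] at hd; exact absurd hd (lt_irrefl 0)
  | h₃ a p ha hp ih =>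
    by_cases hp0 : 0 < p.natDegree
    · exact ⟨p, hp, Dvd.intro _ rfl, hp0⟩
    · rw [natDegree_mul hp.ne_zero ha] at hd
      obtain ⟨g, hg, hga, hg0⟩ := ih (by omega)
      exact ⟨g, hg, Dvd.dvd.mul_left hga p, hg0⟩

/-- an ideal of `R[X]` contained in no `(g)`, `g` irreducible of positive degree, contains a
nonzero constant. -/
theorem LocPow_exists_const (𝔟 : Ideal R[X])
    (h : ∀ g : R[X], Irreducible g → 0 < g.natDegree → ∃ r ∈ 𝔟, ¬ g ∣ r) :
    ∃ a : R, a ≠ 0 ∧ C a ∈ 𝔟 := by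
  classical
  have hex : ∃ n : ℕ, ∃ r ∈ 𝔟, r ≠ 0 ∧ r.natDegree = n := by
    obtain ⟨r, hr, hXr⟩ := h X irreducible_X (by simp)
    exact ⟨_, r, hr, fun h0 => hXr (h0 ▸ dvd_zero X), rfl⟩
  obtain ⟨d, hd, hd0, hdn⟩ := Nat.find_spec hex
  have hmin : ∀ r ∈ 𝔟, r ≠ 0 → d.natDegree ≤ r.natDegree := by
    intro r hr hr0
    rw [hdn]
    exact Nat.find_min' hex ⟨r, hr, hr0, rfl⟩
  by_cases hdeg : d.natDegree = 0
  · rw [eq_C_of_natDegree_eq_zero hdeg] at hd hd0
    exact ⟨_, fun h0 => hd0 (by rw [h0, C_0]), hd⟩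
  · exfalso
    obtain ⟨g, hg, hgd, hg0⟩ := LocPow_exists_prime d (Nat.pos_of_ne_zero hdeg)
    obtain ⟨r, hr, hgr⟩ := h g hg.irreducible hg0
    obtain ⟨k, hk⟩ := LocPow_pseudo 𝔟 d hd hd0 hmin (r.natDegree + 1) r hr
      (lt_of_le_of_lt degree_le_natDegree (by exact_mod_cast Nat.lt_succ_self _))
    rcases hg.dvd_or_dvd (hgd.trans hk) with h1 | h1
    · have hc : C (d.leadingCoeff ^ k) ≠ 0 :=
        C_ne_zero.mpr (pow_ne_zero _ (leadingCoeff_ne_zero.mpr hd0))
      have := natDegree_le_of_dvd h1 hc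
      rw [natDegree_C] at this
      omega
    · exact hgr h1

end Abstract

variable {A : Type*} [CommRing A] [IsDomain A] [IsDiscreteValuationRing A] {π : A}
variable {F : Type*} [Field F] [Algebra A[X] F] [FaithfulSMul A[X] F]

/-- the products `a b`, `a ∈ I_{m,K}(W)`, `b ∈ I_{m,K}(W⁻¹)` -/
def LocPow_gen (π : A) (m : ℕ) (W : F) : Set F :=
  {z | ∃ a b : F, IsBK π (a ^ m * W) ∧ IsBK π (b ^ m * W⁻¹) ∧ z = a * b}

/-- the ideal `𝔟` -/
noncomputable def LocPow_ideal (π : A) (m : ℕ) (W : F) : Ideal A[X] :=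
  (Submodule.span A[X] (LocPow_gen π m W)).comap (Algebra.linearMap A[X] F)

omit [IsDomain A] [IsDiscreteValuationRing A] [FaithfulSMul A[X] F] in
theorem LocPow_isIntegral_pow_smul {m : ℕ} (hm : 0 < m) {s : A[X]} {u : F}
    (h : IsIntegral A[X] (s • u)) : IsIntegral A[X] (s ^ m • u) := by
  obtain ⟨n, rfl⟩ := Nat.exists_eq_succ_of_ne_zero hm.ne'
  rw [pow_succ, mul_smul]
  exact h.smul _

theorem invK_of_locPow (hπ : Irreducible π) {m : ℕ} (hm : 0 < m) {W : F} (hW0 : W ≠ 0)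
    (h : LocPow π m W) : InvK π m W := by
  have hCπ : (C π : A[X]) ≠ 0 := C_ne_zero.mpr hπ.ne_zero
  have hinj : Function.Injective (algebraMap A[X] F) := FaithfulSMul.algebraMap_injective _ _
  -- step 1
  have h1 : ∀ g : A[X], Irreducible g → 0 < g.natDegree →
      ∃ r ∈ LocPow_ideal (F := F) π m W, ¬ g ∣ r := by
    intro g hg hg0
    have hna : ¬ Associated g (C π) := by
      intro hass
      have := natDegree_le_of_dvd hass.dvd hCπ
      rw [natDegree_C] at this
      omega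
    obtain ⟨y, hy0, ⟨s, hs, hsi⟩, ⟨s', hs', hsi'⟩⟩ := h g hg hna
    refine ⟨s * s', ?_, ?_⟩
    · refine Submodule.subset_span ⟨s • y, s' • y⁻¹, ?_, ?_, ?_⟩
      · apply IsBK.of_isIntegral
        have : (s • y) ^ m * W = s ^ m • (y ^ m * W) := by
          rw [_root_.smul_pow, smul_mul_assoc]
        rw [this]
        exact LocPow_isIntegral_pow_smul hm hsi
      · apply IsBK.of_isIntegral
        have : (s' • y⁻¹) ^ m * W⁻¹ = s' ^ m • (y ^ m * W)⁻¹ := by
          rw [_root_.smul_pow, smul_mul_assoc, mul_inv, inv_pow]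
        rw [this]
        exact LocPow_isIntegral_pow_smul hm hsi'
      · rw [smul_mul_smul_comm, mul_inv_cancel₀ hy0, Algebra.linearMap_apply,
          Algebra.algebraMap_eq_smul_one]
    · intro hdvd
      rcases (UniqueFactorizationMonoid.irreducible_iff_prime.mp hg).dvd_or_dvd hdvd with h' | h'
      · exact hs h'
      · exact hs' h'
  -- step 2
  obtain ⟨a, ha0, ha⟩ := LocPow_exists_const _ h1
  obtain ⟨j, hj⟩ := IsDiscreteValuationRing.associated_pow_irreducible ha0 hπ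
  have hj' : (C π : A[X]) ^ j ∈ LocPow_ideal (F := F) π m W := by
    obtain ⟨u, hu⟩ := hj
    rw [← C_pow, ← hu, C_mul]
    exact Ideal.mul_mem_right _ _ ha
  -- step 3
  have hj'' : algebraMap A[X] F ((C π : A[X]) ^ j) ∈ Submodule.span A[X] (LocPow_gen π m W) := hj'
  obtain ⟨n, f, g, hsum⟩ := Submodule.mem_span_set'.mp hj''
  choose a' b' ha' hb' hab' using fun i => (g i).2
  set P : F := algebraMap A[X] F ((C π : A[X]) ^ j) with hP
  have hP0 : P ≠ 0 := by
    rw [hP, Ne, map_eq_zero_iff _ hinj]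
    exact pow_ne_zero _ hCπ
  refine ⟨n, fun i => P⁻¹ * (f i • a' i), b', fun i => ?_, hb', ?_⟩
  · obtain ⟨t, ht⟩ := (ha' i).smul (f i ^ m)
    refine ⟨t + j * m, ?_⟩
    have : (C π : A[X]) ^ (t + j * m) • ((P⁻¹ * (f i • a' i)) ^ m * W)
        = (C π : A[X]) ^ t • (f i ^ m • (a' i ^ m * W)) := by
      rw [pow_add, mul_smul]
      congr 1
      rw [pow_mul, Algebra.smul_def, map_pow, ← hP, mul_pow, _root_.smul_pow, inv_pow, mul_assoc,
        smul_mul_assoc, mul_inv_cancel_left₀ (pow_ne_zero _ hP0)]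
    rw [this]
    exact ht
  · have : ∀ i, P⁻¹ * (f i • a' i) * b' i = P⁻¹ * (f i • (g i : F)) := by
      intro i
      rw [hab' i, mul_assoc, smul_mul_assoc]
    simp_rw [this]
    rw [← Finset.mul_sum, hsum, inv_mul_cancel₀ hP0]

end Fermat.Agent.SS.G2
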