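import Fermat.Agent.SS.G2.CR
import Fermat.Agent.SS.G2.End

/-!
# SS / G2 : the main theorem

**Theorem G2.**  `A` a DVR with uniformiser `π`, `E = Frac A[x]`, `F/E` finite, char. 0,
`𝕃 ⊇ F` a field in which `A` is integrally closed (`K((q))`).  Assume
* special fibre models `D0`, `Dinf` of the two charts `x`, `x⁻¹` (`SFDatax`);
* `τ : F → F` semilinear over `τA : A → A`, `τ x = x`, `τA a ≡ a^Q mod π`, acting on the gluing
  loci by `z ↦ z^Q`; `ε ∈ O_F` a lift of the idempotent `(1,0)`, `τ ε ≡ ε` (`Compat`);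
* `π ∤ m`, `μ_m ⊆ A`, `Q = e + m g`;
* `W ≡ c₁ ε + c₂ (1 - ε) mod π O_F`, `c_i ∈ A^×`  ("`W` is constant on both components");
* `1 ∈ I_K(W) I_K(W⁻¹)` in both charts  ("`div W ∈ m Div`");
* `τ W / W^e` has an `m`-th root `v` in `𝕃`.
Then `v ∈ F`:  `τ W / W^e` is an `m`-th power in `F`.     (owner: helper10)
-/

set_option autoImplicit false
set_option linter.style.haveILetI false
set_option linter.unusedSectionVars false
set_option linter.unusedVariables false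

open Polynomial

namespace Fermat.Agent.SS.G2

open Fermat.Agent.Crux.G

section wrappers

variable {A E F : Type*} [CommRing A] [IsDomain A] [IsDiscreteValuationRing A]
    [Field E] [Field F] [CharZero E] [Algebra A E] [Algebra E F] [Algebra A F]
    [IsScalarTower A E F] [FiniteDimensional E F]

theorem tau_aeval (τ : F →+* F) (τA : A →+* A)
    (hτA : ∀ a, τ (algebraMap A F a) = algebraMap A F (τA a)) (x : E)
    (hτx : τ (algebraMap E F x) = algebraMap E F x) (r : A[X]) :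
    τ (algebraMap E F (aeval x r)) = algebraMap E F (aeval x (r.map τA)) := by
  induction r using Polynomial.induction_on' with
  | add p q hp hq => rw [map_add, map_add, map_add, hp, hq, Polynomial.map_add, map_add, map_add]
  | monomial n a =>
    rw [Polynomial.map_monomial, aeval_monomial, aeval_monomial, map_mul, map_mul, map_mul,
      map_pow, map_pow, hτx, ← IsScalarTower.algebraMap_apply,
      ← IsScalarTower.algebraMap_apply, hτA]

theorem C_smul_eq_x (x : E) (a : A) (y : F) :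
    (letI := algL (A := A) F x; (C a : A[X]) • y) = algebraMap A F a * y := by
  rw [smul_eq_x, aeval_C, ← IsScalarTower.algebraMap_apply]

/-- `CR` in the chart `X ↦ x`. -/
theorem CRx {k 𝒜 Z : Type*} [Field k] [CommRing 𝒜] [Algebra k[X] 𝒜] [CommRing Z]
    {π : A} (hπ : Irreducible π) {x : E} (hx : Transcendental A x)
    (hgen : ∀ c : E, ∃ p q : A[X], q ≠ 0 ∧ c * aeval x q = aeval x p)
    (D : SFDatax hπ.prime x F k 𝒜 Z) {m : ℕ} (hm : 0 < m)
    (τ : F →+* F) (τA : A →+* A) (hτA : ∀ a, τ (algebraMap A F a) = algebraMap A F (τA a))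
    (hτx : τ (algebraMap E F x) = algebraMap E F x)
    (Q e g : ℕ) (hQ0 : 0 < Q) (hQ : ∀ a, π ∣ τA a - a ^ Q) (hQe : Q = e + m * g)
    (ε : F) (hD : D.Compat τ Q ε)
    (hεε : IsPiOLx π x (ε ^ 2 - ε)) (hτε : IsPiOLx π x (τ ε - ε))
    (W : F) (c₁ c₂ : Aˣ)
    (hW : IsPiOLx π x (W - (algebraMap A F c₁ * ε + algebraMap A F c₂ * (1 - ε))))
    (hinv : InvKx π x m W) :
    IsOLx π x ε ∧ IsOLx π x (τ W / W ^ e) ∧ ∃ y : F, IsTwx A x m (τ W / W ^ e) y ∧
      IsPiOLx π x (y - (algebraMap A F ((c₁⁻¹ ^ g : Aˣ) : A) * ε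
        + algebraMap A F ((c₂⁻¹ ^ g : Aˣ) : A) * (1 - ε))) ∧
      IsPiOLx π x (y ^ m * (τ W / W ^ e) - 1) := by
  letI := algE (A := A) x
  letI := algL (A := A) F x
  haveI := isScalarTower_alg (A := A) (L := F) x
  haveI := isFractionRing_algE hx hgen
  have hτ : ∀ (r : A[X]) (y : F), τ (r • y) = (r.map τA) • τ y := by
    intro r y
    rw [smul_eq_x, smul_eq_x, map_mul, tau_aeval τ τA hτA x hτx]
  have hW' : IsPiOL π (W - ((C (c₁ : A) : A[X]) • ε + (C (c₂ : A) : A[X]) • (1 - ε))) := by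
    rw [C_smul_eq_x, C_smul_eq_x]
    exact hW
  obtain ⟨h1, y, h2, h3, h4⟩ := CR E hπ D hm τ τA hτ Q e g hQ0 hQ hQe ε hD hεε hτε W c₁ c₂ hW' hinv
  rw [C_smul_eq_x, C_smul_eq_x] at h3
  obtain ⟨hε, -⟩ := SFData.Compat.eps hD
  exact ⟨hε, h1, y, h2, h3, h4⟩

theorem isOLx_inv_of_sub_one {π : A} (hπ : Irreducible π) {x : E} {y : F}
    (h : IsPiOLx π x (y - 1)) : IsOLx π x y⁻¹ := by
  letI := algL (A := A) F x
  exact IsOL.inv_of_sub_one hπ.prime h

theorem IsOLx.mul' {π : A} (hπ : Irreducible π) {x : E} {y z : F} (hy : IsOLx π x y)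
    (hz : IsOLx π x z) : IsOLx π x (y * z) := by
  letI := algL (A := A) F x
  exact IsOL.mul hπ.prime hy hz

theorem IsOLx.pow' {π : A} (hπ : Irreducible π) {x : E} {y : F} (hy : IsOLx π x y) (n : ℕ) :
    IsOLx π x (y ^ n) := by
  letI := algL (A := A) F x
  exact IsOL.pow hπ.prime hy n

theorem IsPiOLx.isOLx' {π : A} {x : E} {y : F} (hy : IsPiOLx π x y) : IsOLx π x y := by
  letI := algL (A := A) F x
  exact IsPiOL.isOL hy

theorem not_isPiOLx_one {π : A} (hπ : Irreducible π) {x : E} (hx : Transcendental A x)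
    (hgen : ∀ c : E, ∃ p q : A[X], q ≠ 0 ∧ c * aeval x q = aeval x p) :
    ¬ IsPiOLx π x (1 : F) := by
  letI := algE (A := A) x
  letI := algL (A := A) F x
  haveI := isScalarTower_alg (A := A) (L := F) x
  haveI := isFractionRing_algE hx hgen
  exact not_isPiOL_one E hπ

theorem IsPiOLx.neg' {π : A} {x : E} {y : F} (hy : IsPiOLx π x y) : IsPiOLx π x (-y) := by
  letI := algL (A := A) F x
  exact IsPiOL.neg hy

end wrappers

theorem theoremG2 {A E F 𝕃 : Type*} [CommRing A] [IsDomain A] [IsDiscreteValuationRing A]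
    [Field E] [Field F] [Field 𝕃] [CharZero E] [Algebra A E] [Algebra E F] [Algebra A F]
    [IsScalarTower A E F] [FiniteDimensional E F]
    [Algebra F 𝕃] [Algebra E 𝕃] [IsScalarTower E F 𝕃] [Algebra A 𝕃] [IsScalarTower A E 𝕃]
    {k 𝒜 Z k' 𝒜' Z' : Type*} [Field k] [CommRing 𝒜] [Algebra k[X] 𝒜] [CommRing Z]
    [Field k'] [CommRing 𝒜'] [Algebra k'[X] 𝒜'] [CommRing Z']
    (π : A) (hπ : Irreducible π) (x : E) (hx : Transcendental A x)
    (hgen : ∀ c : E, ∃ p q : A[X], q ≠ 0 ∧ c * aeval x q = aeval x p)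
    (H0 : ∀ z : 𝕃, IsIntegral A z → z ∈ Set.range (algebraMap A 𝕃))
    (m : ℕ) (hm0 : 0 < m) (hmπ : ¬ π ∣ (m : A)) (ζ : A) (hζ : IsPrimitiveRoot ζ m)
    (τ : F →+* F) (τA : A →+* A) (hτA : ∀ a, τ (algebraMap A F a) = algebraMap A F (τA a))
    (hτx : τ (algebraMap E F x) = algebraMap E F x)
    (Q e g : ℕ) (hQ0 : 0 < Q) (hQ : ∀ a, π ∣ τA a - a ^ Q) (hQe : Q = e + m * g)
    (ε : F) (hεε : IsPiOLx π x (ε ^ 2 - ε)) (hτε : IsPiOLx π x (τ ε - ε))
    (D0 : SFDatax hπ.prime x F k 𝒜 Z) (hD0 : D0.Compat τ Q ε)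
    (Dinf : SFDatax hπ.prime x⁻¹ F k' 𝒜' Z') (hDinf : Dinf.Compat τ Q ε)
    (W : F) (c₁ c₂ : Aˣ)
    (hW : IsPiOLx π x (W - (algebraMap A F c₁ * ε + algebraMap A F c₂ * (1 - ε))))
    (hinv0 : InvKx π x m W) (hinvinf : InvKx π x⁻¹ m W)
    (v : 𝕃) (hv : v ^ m = algebraMap F 𝕃 (τ W / W ^ e)) :
    ∃ h : F, algebraMap F 𝕃 h = v := by
  have hx0 : x ≠ 0 := by
    rintro rfl
    exact hx (isAlgebraic_zero)
  have hxi := transcendental_inv hx
  have hgeni := hgen_inv hx hgen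
  have hp := hπ.prime
  have hτxi : τ (algebraMap E F x⁻¹) = algebraMap E F x⁻¹ := by
    rw [map_inv₀, map_inv₀, hτx]
  obtain ⟨hε, hV, y0, hy0, hy0b, hy01⟩ := CRx hπ hx hgen D0 hm0 τ τA hτA hτx Q e g hQ0 hQ hQe ε hD0
    hεε hτε W c₁ c₂ hW hinv0
  obtain ⟨-, -, yi, hyi, hyib', -⟩ := CRx hπ hxi hgeni Dinf hm0 τ τA hτA hτxi Q e g hQ0 hQ hQe ε
    hDinf ((isPiOLx_inv_iff hp hx0 _).mpr hεε) ((isPiOLx_inv_iff hp hx0 _).mpr hτε) W c₁ c₂
    ((isPiOLx_inv_iff hp hx0 _).mpr hW) hinvinf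
  have hyib := (isPiOLx_inv_iff hp hx0 _).mp hyib'
  set V := τ W / W ^ e with hVdef
  set yb := algebraMap A F ((c₁⁻¹ ^ g : Aˣ) : A) * ε
    + algebraMap A F ((c₂⁻¹ ^ g : Aˣ) : A) * (1 - ε) with hyb
  have hcst : ∀ a : A, IsOLx π x (algebraMap A F a) := fun a =>
    IntX.isOLx hπ ((Mx A F x).algebraMap_mem a)
  have hybOL : IsOLx π x yb :=
    IsOLx.add hπ (IsOLx.mul' hπ (hcst _) hε)
      (IsOLx.mul' hπ (hcst _) (IsOLx.sub hπ (isOLx_one hπ) hε))
  have hy0OL : IsOLx π x y0 := by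
    have := IsOLx.add hπ (IsPiOLx.isOLx' hy0b) hybOL
    rwa [sub_add_cancel] at this
  have hWz0 : y0 ^ m * V ≠ 0 := by
    intro h
    rw [h, zero_sub] at hy01
    exact not_isPiOLx_one hπ hx hgen (by simpa using IsPiOLx.neg' hy01)
  have hy00 : y0 ≠ 0 := by
    intro h
    apply hWz0
    rw [h, zero_pow hm0.ne', zero_mul]
  have hy0inv : IsOLx π x y0⁻¹ := by
    have h1 := isOLx_inv_of_sub_one hπ hy01
    have h2 : y0⁻¹ = y0 ^ (m - 1) * V * (y0 ^ m * V)⁻¹ := by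
      obtain ⟨m', rfl⟩ : ∃ m', m = m' + 1 := ⟨m - 1, by omega⟩
      have hV0 : V ≠ 0 := right_ne_zero_of_mul hWz0
      rw [Nat.add_sub_cancel]
      field_simp
      ring
    rw [h2]
    exact IsOLx.mul' hπ (IsOLx.mul' hπ (IsOLx.pow' hπ hy0OL _) hV) h1
  have ht : IsPiOLx π x (yi * y0⁻¹ - 1) := by
    have h1 : yi * y0⁻¹ - 1 = y0⁻¹ * ((yi - yb) - (y0 - yb)) := by
      field_simp
      ring
    rw [h1]
    exact IsPiOLx.mul_left hπ hy0inv (IsPiOLx.sub hπ hyib hy0b)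
  have htW : IntX A x⁻¹ ((yi * y0⁻¹) ^ m * (y0 ^ m * V)) := by
    have h1 : (yi * y0⁻¹) ^ m * (y0 ^ m * V) = yi ^ m * V := by
      rw [mul_pow, inv_pow]
      field_simp
    rw [h1]
    exact hyi
  obtain ⟨h, hh⟩ := g2_end π hπ x hx hgen H0 (yi * y0⁻¹) ht m hm0 hmπ ζ hζ
    (algebraMap F 𝕃 y0 * v) (y0 ^ m * V) (by rw [mul_pow, hv, map_mul, map_pow]) hy0 hy01 htW
  refine ⟨h * y0⁻¹, ?_⟩
  have h0 : algebraMap F 𝕃 y0 ≠ 0 := by simpa using hy00
  rw [map_mul, hh, map_inv₀]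
  field_simp

end Fermat.Agent.SS.G2
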