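import Fermat.Agent.SS.G2.Main
import Fermat.Agent.SS.G2.Goursat
import Fermat.Agent.SS.G2.LocPow
import Fermat.Agent.SS.G2.Intrinsic

/-!
# SS / G2 : Theorem G2 in helper13's language (`Nodal`, `NodalFrob`, `LocPow`)

* `Nodal.exists_sfData` : `Nodal π ε ⇒ SFData` (intrinsic model `O_F/π O_F`, Goursat);
* `chartSS_aux`         : the chart theorem in the form of `SS/GM2/G2Wish.lean`;
* `theoremG2N`          : Theorem G2 with hypotheses `Nodalx`, `NodalFrobx`, `LocPowx`.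
(owner: helper10)
-/

set_option autoImplicit false
set_option linter.style.haveILetI false
set_option linter.unusedSectionVars false
set_option linter.unusedVariables false

open Polynomial IsLocalRing

namespace Fermat.Agent.SS.G2

open Fermat.Agent.Crux.G Fermat.Agent.SS.GM2

section Chart

universe uA uF

variable {A : Type uA} [CommRing A] [IsDomain A] [IsDiscreteValuationRing A] {π : A}
variable {F : Type uF} [Field F] [Algebra A[X] F]

/-- the normalisation of the special fibre in the intrinsic model. -/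
noncomputable def CtI (hπ : Irreducible π) (F : Type uF) [Field F] [Algebra A[X] F] :
    Subalgebra (ResidueField A)[X] (AAt hπ F) :=
  integralClosure (ResidueField A)[X] (AAt hπ F)

/-- the image of `M` in the normalisation. -/
noncomputable def CI (hπ : Irreducible π) (F : Type uF) [Field F] [Algebra A[X] F] :
    Subring (CtI hπ F) where
  carrier := {c | ∃ y : OF hπ.prime F, IsIntegral A[X] (y : F) ∧ mkA hπ F y = c}
  mul_mem' := by
    rintro a b ⟨y, hy, h⟩ ⟨z, hz, h'⟩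
    exact ⟨y * z, hy.mul hz, by rw [map_mul, h, h']; rfl⟩
  one_mem' := ⟨1, isIntegral_one, by rw [map_one]; rfl⟩
  add_mem' := by
    rintro a b ⟨y, hy, h⟩ ⟨z, hz, h'⟩
    exact ⟨y + z, hy.add hz, by rw [map_add, h, h']; rfl⟩
  zero_mem' := ⟨0, isIntegral_zero, by rw [map_zero]; rfl⟩
  neg_mem' := by
    rintro a ⟨y, hy, h⟩
    exact ⟨-y, hy.neg, by rw [map_neg, h]; rfl⟩

theorem mem_CI_iff (hπ : Irreducible π) (v : OF hπ.prime F) (h : mkA hπ F v ∈ CtI hπ F) :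
    (⟨_, h⟩ : CtI hπ F) ∈ CI hπ F ↔ InC π (v : F) := by
  constructor
  · rintro ⟨y, hy, hyv⟩
    refine ⟨y, hy, ?_⟩
    have : mkA hπ F (y - v) = 0 := by rw [map_sub, hyv, sub_self]
    exact (mkA_eq_zero_iff hπ _).mp this
  · rintro ⟨c, hc, hcv⟩
    refine ⟨⟨c, IsOL.of_isIntegral hπ.prime hc⟩, hc, ?_⟩
    have : mkA hπ F (⟨c, IsOL.of_isIntegral hπ.prime hc⟩ - v) = 0 :=
      (mkA_eq_zero_iff hπ _).mpr hcv
    rw [map_sub, sub_eq_zero] at this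
    exact this

theorem Nodal.exists_sfData (hπ : Irreducible π) {ε : F} (hε : Nodal π ε) :
    ∃ (Z : Type uF) (_ : CommRing Z)
      (D : SFData hπ.prime F (ResidueField A) (AAt hπ F) Z),
      (∀ y, D.red y = mkA hπ F y) ∧ D.Ct = CtI hπ F ∧
      (∃ h' : D.red ⟨ε, hε.isOL⟩ ∈ D.Ct, D.p₁ ⟨_, h'⟩ = 1 ∧ D.p₂ ⟨_, h'⟩ = 0) ∧
      (∀ (y : OF hπ.prime F) (h : D.red y ∈ D.Ct), D.p₁ ⟨_, h⟩ = 0 ↔ InC π (ε * y)) ∧
      (∀ (y : OF hπ.prime F) (h : D.red y ∈ D.Ct), D.p₂ ⟨_, h⟩ = 0 ↔ InC π ((1 - ε) * y)) := by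
  classical
  have hp := hπ.prime
  let εo : OF hp F := ⟨ε, hε.isOL⟩
  have hee : mkA hπ F εo * mkA hπ F εo = mkA hπ F εo := by
    rw [← map_mul, ← sub_eq_zero, ← map_sub, mkA_eq_zero_iff]
    have := hε.idem
    rw [sq] at this
    exact this
  have het : mkA hπ F εo ∈ CtI hπ F := by
    refine ⟨X ^ 2 - X, monic_X_pow_sub (by simp), ?_⟩
    simp [sq, hee]
  let e : CtI hπ F := ⟨_, het⟩
  have he : e * e = e := Subtype.ext hee
  have hmem : ∀ u : OF hp F, mkA hπ F u ∈ CtI hπ F ↔ RedIntegral π (u : F) :=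
    fun u => isIntegral_mkA_iff hπ u
  have hproj₁ : ∀ d : CtI hπ F, ∃ c ∈ CI hπ F, e * (c - d) = 0 := by
    rintro ⟨d, hd⟩
    obtain ⟨u, rfl⟩ := mkA_surjective hπ d
    obtain ⟨c, hc, hcu⟩ := hε.proj₁ u u.2 ((hmem u).mp hd)
    let co : OF hp F := ⟨c, IsOL.of_isIntegral hp hc⟩
    refine ⟨⟨mkA hπ F co, isIntegral_mkA hπ co hc⟩, ⟨co, hc, rfl⟩, Subtype.ext ?_⟩
    show mkA hπ F εo * (mkA hπ F co - mkA hπ F u) = 0
    rw [← map_sub, ← map_mul, mkA_eq_zero_iff]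
    exact hcu
  have hproj₂ : ∀ d : CtI hπ F, ∃ c ∈ CI hπ F, (1 - e) * (c - d) = 0 := by
    rintro ⟨d, hd⟩
    obtain ⟨u, rfl⟩ := mkA_surjective hπ d
    obtain ⟨c, hc, hcu⟩ := hε.proj₂ u u.2 ((hmem u).mp hd)
    let co : OF hp F := ⟨c, IsOL.of_isIntegral hp hc⟩
    refine ⟨⟨mkA hπ F co, isIntegral_mkA hπ co hc⟩, ⟨co, hc, rfl⟩, Subtype.ext ?_⟩
    show (1 - mkA hπ F εo) * (mkA hπ F co - mkA hπ F u) = 0
    rw [← map_sub, ← map_one (mkA hπ F), ← map_sub, ← map_mul, mkA_eq_zero_iff]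
    exact hcu
  -- translation of membership in `C`
  have hC₁ : ∀ (u : OF hp F) (h : mkA hπ F u ∈ CtI hπ F),
      e * (⟨_, h⟩ : CtI hπ F) ∈ CI hπ F ↔ InC π (ε * u) := by
    intro u h
    have h1 : mkA hπ F (εo * u) ∈ CtI hπ F := by
      rw [map_mul]; exact (CtI hπ F).mul_mem het h
    have h2 : e * (⟨_, h⟩ : CtI hπ F) = ⟨_, h1⟩ := Subtype.ext (map_mul (mkA hπ F) εo u).symm
    rw [h2, mem_CI_iff]
    rfl
  have hC₂ : ∀ (u : OF hp F) (h : mkA hπ F u ∈ CtI hπ F),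
      (1 - e) * (⟨_, h⟩ : CtI hπ F) ∈ CI hπ F ↔ InC π ((1 - ε) * u) := by
    intro u h
    have h1 : mkA hπ F ((1 - εo) * u) ∈ CtI hπ F := by
      rw [map_mul, map_sub, map_one]
      exact (CtI hπ F).mul_mem ((CtI hπ F).sub_mem (CtI hπ F).one_mem het) h
    have h2 : (1 - e) * (⟨_, h⟩ : CtI hπ F) = ⟨_, h1⟩ := by
      apply Subtype.ext
      show (1 - mkA hπ F εo) * mkA hπ F u = mkA hπ F ((1 - εo) * u)
      rw [map_mul, map_sub, map_one]
    rw [h2, mem_CI_iff]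
    rfl
  have hrad₂ : ∀ d : CtI hπ F, (1 - e) * d ^ 2 ∈ CI hπ F → (1 - e) * d ∈ CI hπ F := by
    rintro ⟨d, hd⟩ h
    obtain ⟨u, rfl⟩ := mkA_surjective hπ d
    have h1 : mkA hπ F (u ^ 2) ∈ CtI hπ F := by
      rw [map_pow]; exact (CtI hπ F).pow_mem hd 2
    have h2 : (⟨_, hd⟩ : CtI hπ F) ^ 2 = ⟨_, h1⟩ := Subtype.ext (map_pow (mkA hπ F) u 2).symm
    rw [h2, hC₂] at h
    rw [hC₂]
    exact hε.rad₂ u u.2 h
  obtain ⟨Z, iZ, p₁, p₂, hsurj, heq, hred, hp₁e, hp₂e, hk₁, hk₂⟩ :=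
    goursat (CI hπ F) e he hproj₁ hproj₂ hrad₂
  obtain ⟨s, hs, hsε⟩ := hε.isOL
  refine ⟨Z, iZ,
    { res := residue A
      res_surj := residue_surjective
      res_ker := residue_eq_zero_iff_dvd hπ
      red := mkA hπ F
      red_smul := mkA_smul hπ
      red_ker := mkA_eq_zero_iff hπ
      Ct := CtI hπ F
      lift := fun c _ => mkA_surjective hπ c
      root := fun y n hn h => IsIntegral.of_pow hn h
      int_mem := isIntegral_mkA hπ
      p₁ := p₁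
      p₂ := p₂
      surj := hsurj
      eq_iff := heq
      tors := ?_
      reduced := hred }, fun _ => rfl, rfl, ⟨het, hp₁e, hp₂e⟩, ?_, ?_⟩
  · refine ⟨s.map (residue A), ?_, ?_⟩
    · intro h
      apply hs
      rw [C_dvd_iff_dvd_coeff]
      intro i
      rw [← residue_eq_zero_iff_dvd hπ, ← coeff_map, h, coeff_zero]
    · rw [hk₁]
      refine ⟨s • εo, hsε, ?_⟩
      rw [mkA_smul, Algebra.smul_def, mul_comm]
      rfl
  · intro y h
    exact (hk₁ _).trans (hC₁ y h)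
  · intro y h
    exact (hk₂ _).trans (hC₂ y h)

theorem InC.add (hp : Prime π) {u v : F} (hu : InC π u) (hv : InC π v) : InC π (u + v) := by
  obtain ⟨c, hc, h⟩ := hu
  obtain ⟨d, hd, h'⟩ := hv
  refine ⟨c + d, hc.add hd, ?_⟩
  have : c + d - (u + v) = (c - u) + (d - v) := by ring
  rw [this]
  exact h.add hp h'

/-- `Nodal + NodalFrob ⇒ SFData + Compat`. -/
theorem Nodal.exists_sfData_compat (hπ : Irreducible π) {ε : F} (hε : Nodal π ε)
    (τ : F →+* F) (Q : ℕ) (hF : NodalFrob π ε τ Q) :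
    ∃ (Z : Type uF) (_ : CommRing Z)
      (D : SFData hπ.prime F (ResidueField A) (AAt hπ F) Z), D.Compat τ Q ε := by
  have hp := hπ.prime
  obtain ⟨Z, iZ, D, hred, hCt, heps, hk₁, hk₂⟩ := Nodal.exists_sfData hπ hε
  refine ⟨Z, iZ, D, ⟨?_, ⟨hε.isOL, heps⟩⟩⟩
  intro y y' hy hyy'
  have hyR : RedIntegral π (y : F) := by
    rw [← isIntegral_mkA_iff hπ y, ← hred]
    have := hy
    rw [hCt] at this
    exact this
  have h1 := hF.frob₁ y y.2 hyR
  have h2 := hF.frob₂ y y.2 hyR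
  rw [← hyy'] at h1 h2
  -- `red (y' - y^Q) ∈ Ct`
  have h3 : InC π ((y' - y ^ Q : OF hp F) : F) := by
    have := InC.add hp h1 h2
    have e1 : ε * ((y' : F) - (y : F) ^ Q) + (1 - ε) * ((y' : F) - (y : F) ^ Q)
        = (y' : F) - (y : F) ^ Q := by ring
    rw [e1] at this
    exact this
  have h4 : D.red (y' - y ^ Q) ∈ D.Ct := by
    obtain ⟨c, hc, hcv⟩ := h3
    have : D.red ⟨c, IsOL.of_isIntegral hp hc⟩ = D.red (y' - y ^ Q) :=
      (D.red_eq_iff _ _).mpr hcv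
    rw [← this]
    exact D.int_mem _ hc
  have h5 : D.red y' ∈ D.Ct := by
    have : D.red y' = D.red (y' - y ^ Q) + D.red y ^ Q := by
      rw [map_sub, map_pow]; ring
    rw [this]
    exact D.Ct.add_mem h4 (D.Ct.pow_mem hy Q)
  have h6 : (⟨_, h5⟩ : D.Ct) = ⟨_, h4⟩ + ⟨_, hy⟩ ^ Q := by
    apply Subtype.ext
    show D.red y' = D.red (y' - y ^ Q) + D.red y ^ Q
    rw [map_sub, map_pow]; ring
  refine ⟨h5, ?_, ?_⟩
  · rw [h6, map_add, map_pow, (hk₁ _ h4).mpr h1, zero_add]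
  · rw [h6, map_add, map_pow, (hk₂ _ h4).mpr h2, zero_add]

end Chart

section ChartThm

variable {A : Type*} [CommRing A] [IsDomain A] [IsDiscreteValuationRing A] {π : A}
variable {F : Type*} [Field F] [Algebra A[X] F]

/-- **G2, chart form** (statement of `SS/GM2/G2Wish.lean`). -/
theorem chartSS_aux (E : Type*) [Field E] [Algebra A[X] E] [IsFractionRing A[X] E] [CharZero E]
    [Algebra E F] [IsScalarTower A[X] E F] [FiniteDimensional E F]
    (hπ : Irreducible π) (ε : F) (hε : Nodal π ε) (m : ℕ) (hm : m ≠ 0)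
    (W : F) (hW1 : IsPiOL π (W - 1)) (hloc : LocPow π m W) :
    (∀ c : F, IsIntegral A[X] c → IsPiOL π ((1 - ε) * c) →
      ∃ y : F, IsIntegral A[X] (y ^ m * W) ∧ IsPiOL π (y - c)) ∧
    (∀ c : F, IsIntegral A[X] c → IsPiOL π (ε * c) →
      ∃ y : F, IsIntegral A[X] (y ^ m * W) ∧ IsPiOL π (y - c)) ∧
    (∃ y : F, IsIntegral A[X] (y ^ m * W) ∧ IsPiOL π ((1 - ε) * (y - 1))) := by
  have hp := hπ.prime
  have hm' : 0 < m := Nat.pos_of_ne_zero hm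
  have hFa : FaithfulSMul A[X] F := s1_faithfulSMul E
  obtain ⟨Z, iZ, D, hred, hCt, ⟨het, hp₁e, hp₂e⟩, hk₁, hk₂⟩ := Nodal.exists_sfData hπ hε
  have hWOL : IsOL π W := by
    have := hW1.isOL.add hp (isOL_one hp)
    rwa [sub_add_cancel] at this
  have hW0 : W ≠ 0 := by
    rintro rfl
    rw [zero_sub] at hW1
    exact not_isPiOL_one E hπ (by simpa using hW1.neg)
  have hWi : IsOL π W⁻¹ := IsOL.inv_of_sub_one hp hW1
  have hrW : D.red ⟨W, hWOL⟩ = 1 := by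
    rw [← map_one D.red]
    exact (D.red_eq_iff _ _).mpr hW1
  have hrWi : D.red ⟨W⁻¹, hWi⟩ = 1 := by
    have h1 : D.red ⟨W, hWOL⟩ * D.red ⟨W⁻¹, hWi⟩ = 1 := by
      rw [← map_mul]
      have : (⟨W, hWOL⟩ * ⟨W⁻¹, hWi⟩ : OF hp F) = 1 := Subtype.ext (mul_inv_cancel₀ hW0)
      rw [this, map_one]
    rwa [hrW, one_mul] at h1
  obtain ⟨ξ, hξ, -⟩ := CT E hπ D hm' hW0 hWOL hWi (by rw [hrW]; exact D.Ct.one_mem)
    (by rw [hrWi]; exact D.Ct.one_mem) (invK_of_locPow hπ hm' hW0 hloc)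
  have hzero : ∀ {v : F}, IsPiOL π v → InC π v := by
    intro v hv
    exact ⟨0, isIntegral_zero, by simpa using hv.neg⟩
  refine ⟨?_, ?_, ?_⟩
  · intro c hc hcε
    let co : OF hp F := ⟨c, IsOL.of_isIntegral hp hc⟩
    have hct : D.red co ∈ D.Ct := D.int_mem co hc
    have h2 : D.p₂ ⟨_, hct⟩ = 0 := (hk₂ co hct).mpr (hzero hcε)
    have h1 : D.p₁ ⟨_, hct⟩ = 0 := by
      rw [(D.eq_iff ⟨_, hct⟩).mpr ⟨co, hc, rfl⟩, h2]
    obtain ⟨y, hy, hyc⟩ := (hξ ⟨_, hct⟩).mpr (by rw [h1, h2, mul_zero])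
    exact ⟨y, hy, (D.red_eq_iff _ _).mp hyc⟩
  · intro c hc hcε
    let co : OF hp F := ⟨c, IsOL.of_isIntegral hp hc⟩
    have hct : D.red co ∈ D.Ct := D.int_mem co hc
    have h1 : D.p₁ ⟨_, hct⟩ = 0 := (hk₁ co hct).mpr (hzero hcε)
    have h2 : D.p₂ ⟨_, hct⟩ = 0 := by
      rw [← (D.eq_iff ⟨_, hct⟩).mpr ⟨co, hc, rfl⟩, h1]
    obtain ⟨y, hy, hyc⟩ := (hξ ⟨_, hct⟩).mpr (by rw [h1, h2, mul_zero])
    exact ⟨y, hy, (D.red_eq_iff _ _).mp hyc⟩
  · obtain ⟨c₀, hc1, hc2⟩ := D.surj ξ 1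
    let e : D.Ct := ⟨_, het⟩
    obtain ⟨y, hy, hyc⟩ := (hξ (e * c₀ + (1 - e))).mpr (by
      simp only [map_add, map_mul, map_sub, map_one]
      rw [show D.p₁ e = 1 from hp₁e, show D.p₂ e = 0 from hp₂e, hc1]
      ring)
    refine ⟨y, hy, ?_⟩
    have hee : D.red ⟨ε, hε.isOL⟩ * D.red ⟨ε, hε.isOL⟩ = D.red ⟨ε, hε.isOL⟩ := by
      rw [← map_mul]
      refine (D.red_eq_iff _ _).mpr ?_
      have := hε.idem
      rw [sq] at this
      exact this
    have h0 : D.red ((1 - ⟨ε, hε.isOL⟩) * (y - 1)) = 0 := by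
      rw [map_mul, map_sub, map_sub, map_one, hyc]
      show (1 - D.red ⟨ε, hε.isOL⟩) * (D.red ⟨ε, hε.isOL⟩ * (c₀ : AAt hπ F)
        + (1 - D.red ⟨ε, hε.isOL⟩) - 1) = 0
      linear_combination (1 - (c₀ : AAt hπ F)) * hee
    exact (D.red_ker _).mp h0

end ChartThm

section Top

universe uA uE uF

variable {A : Type uA} {E : Type uE} {F : Type uF} [CommRing A] [IsDomain A]
    [IsDiscreteValuationRing A]
    [Field E] [Field F] [CharZero E] [Algebra A E] [Algebra E F] [Algebra A F]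
    [IsScalarTower A E F] [FiniteDimensional E F]

theorem exists_sfDatax {π : A} (hπ : Irreducible π) {x : E} {ε : F} (hε : Nodalx π x ε)
    (τ : F →+* F) (Q : ℕ) (hF : NodalFrobx π x ε τ Q) :
    ∃ (𝒜 : Type uF) (_ : CommRing 𝒜) (_ : Algebra (ResidueField A)[X] 𝒜) (Z : Type uF)
      (_ : CommRing Z) (D : SFDatax hπ.prime x F (ResidueField A) 𝒜 Z), D.Compat τ Q ε := by
  letI := algL (A := A) F x
  obtain ⟨Z, iZ, D, hD⟩ := Nodal.exists_sfData_compat hπ hε τ Q hF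
  exact ⟨AAt hπ F, inferInstance, inferInstance, Z, iZ, D, hD⟩

theorem invKx_of_locPowx {π : A} (hπ : Irreducible π) {x : E} (hx : Transcendental A x)
    (hgen : ∀ c : E, ∃ p q : A[X], q ≠ 0 ∧ c * aeval x q = aeval x p) {m : ℕ} (hm : 0 < m)
    {W : F} (hW0 : W ≠ 0) (h : LocPowx π x m W) : InvKx π x m W := by
  letI := algE (A := A) x
  letI := algL (A := A) F x
  haveI := isScalarTower_alg (A := A) (L := F) x
  haveI := isFractionRing_algE hx hgen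
  haveI : FaithfulSMul A[X] F := s1_faithfulSMul E
  exact invK_of_locPow hπ hm hW0 h

/-- **Theorem G2**, in the language of `SS/GM2/NodalDefs.lean`. -/
theorem theoremG2N {𝕃 : Type*} [Field 𝕃]
    [Algebra F 𝕃] [Algebra E 𝕃] [IsScalarTower E F 𝕃] [Algebra A 𝕃] [IsScalarTower A E 𝕃]
    (π : A) (hπ : Irreducible π) (x : E) (hx : Transcendental A x)
    (hgen : ∀ c : E, ∃ p q : A[X], q ≠ 0 ∧ c * aeval x q = aeval x p)
    (H0 : ∀ z : 𝕃, IsIntegral A z → z ∈ Set.range (algebraMap A 𝕃))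
    (m : ℕ) (hm0 : 0 < m) (hmπ : ¬ π ∣ (m : A)) (ζ : A) (hζ : IsPrimitiveRoot ζ m)
    (τ : F →+* F) (τA : A →+* A) (hτA : ∀ a, τ (algebraMap A F a) = algebraMap A F (τA a))
    (hτx : τ (algebraMap E F x) = algebraMap E F x)
    (Q e g : ℕ) (hQ0 : 0 < Q) (hQ : ∀ a, π ∣ τA a - a ^ Q) (hQe : Q = e + m * g)
    (ε : F) (hτε : IsPiOLx π x (τ ε - ε))
    (N0 : Nodalx π x ε) (F0 : NodalFrobx π x ε τ Q)
    (Ninf : Nodalx π x⁻¹ ε) (Finf : NodalFrobx π x⁻¹ ε τ Q)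
    (W : F) (hW0 : W ≠ 0) (c₁ c₂ : Aˣ)
    (hW : IsPiOLx π x (W - (algebraMap A F c₁ * ε + algebraMap A F c₂ * (1 - ε))))
    (hloc0 : LocPowx π x m W) (hlocinf : LocPowx π x⁻¹ m W)
    (v : 𝕃) (hv : v ^ m = algebraMap F 𝕃 (τ W / W ^ e)) :
    ∃ h : F, algebraMap F 𝕃 h = v := by
  obtain ⟨𝒜, i1, i2, Z, i3, D0, hD0⟩ := exists_sfDatax hπ N0 τ Q F0
  obtain ⟨𝒜', i1', i2', Z', i3', Dinf, hDinf⟩ := exists_sfDatax hπ Ninf τ Q Finf
  have hεε : IsPiOLx π x (ε ^ 2 - ε) := by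
    letI := algL (A := A) F x
    exact Nodal.idem N0
  exact theoremG2 π hπ x hx hgen H0 m hm0 hmπ ζ hζ τ τA hτA hτx Q e g hQ0 hQ hQe ε hεε hτε
    D0 hD0 Dinf hDinf W c₁ c₂ hW (invKx_of_locPowx hπ hx hgen hm0 hW0 hloc0)
    (invKx_of_locPowx hπ (transcendental_inv hx) (hgen_inv hx hgen) hm0 hW0 hlocinf) v hv

end Top

end Fermat.Agent.SS.G2
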