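import Mathlib

/-!
# SS / G2 : the special fibre lemma, core (linear algebra over `k`)

Mathlib only.  TASK `SS/G2-SFLCore`.

`Ct` a commutative `k`-algebra, `p₁ p₂ : Ct → Z` jointly surjective, `Z` reduced, finite over `k`.
`C = {p₁ = p₂}`.  `J, J'` are `C`-submodules of `Ct` with `u y^m ∈ C` (`y ∈ J`), `u⁻¹ y^m ∈ C`
(`y ∈ J'`), `J J' ⊆ C`, and `dim Ct/J + dim Ct/J' ≤ 2 dim Z`.
Then `J = {p₁ = ξ p₂}`, `J' = {p₁ = ξ⁻¹ p₂}` for a unit `ξ` of `Z`.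

PROOF.  `φ = (p₁,p₂) : Ct → Z × Z` is onto with kernel `𝔠`.  `N = φ(J)`.
(1) `pr₂` is injective on `N`: `(a,0) = φ(y)`, `p₁(u) a^m = p₂(u) 0 = 0`, `p₁(u)` is a unit
    (`u u' = 1`), so `a^m = 0`, so `a = 0` (`Z` reduced).  Same for `pr₁`.  So `dim N ≤ z := dim Z`.
(2) `dim Ct/J ≥ dim Ct/(J + 𝔠) = dim (Z × Z)/N = 2 z - dim N ≥ z`.  Same for `J'`.
(3) With `hcount`: equality everywhere: `𝔠 ⊆ J`, `dim N = z`, so `pr₁, pr₂ : N → Z` are bijective.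
(4) Let `(ξ,1) ∈ N`.  `N` is stable under `(z,z)` (choose `c` with `φ c = (z,z)`, `hJC`), so
    `(ξ z, z) ∈ N`, and `N = {(ξ z, z)}` by injectivity of `pr₂`; `pr₁` onto gives `ξ z = 1`.
    `J = φ⁻¹ N` since `𝔠 ⊆ J`.
(5) Same for `J'` with `ξ'`; `hJJ'` gives `ξ ξ' = 1`.
-/

set_option autoImplicit false

open Module

namespace Fermat.Agent.SS.G2

/-- one half of `sfl_core`: `dim Ct/J ≥ dim Z`, and in case of equality `J = {p₁ = ξ p₂}`. -/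
theorem SFLCore.aux {k Ct Z : Type*} [Field k] [CommRing Ct] [Algebra k Ct] [CommRing Z]
    [Algebra k Z] [IsReduced Z] [Module.Finite k Z]
    (p₁ p₂ : Ct →ₐ[k] Z) (hsurj : ∀ z₁ z₂ : Z, ∃ c, p₁ c = z₁ ∧ p₂ c = z₂)
    (m : ℕ) (hm : 0 < m) (u u' : Ct) (huu' : u * u' = 1)
    (J : Submodule k Ct)
    (hJC : ∀ c y, p₁ c = p₂ c → y ∈ J → c * y ∈ J)
    (hJu : ∀ y ∈ J, p₁ (u * y ^ m) = p₂ (u * y ^ m))
    [Module.Finite k (Ct ⧸ J)] :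
    finrank k Z ≤ finrank k (Ct ⧸ J) ∧
      (finrank k (Ct ⧸ J) ≤ finrank k Z → ∃ ξ : Zˣ, ∀ c, c ∈ J ↔ p₁ c = ξ * p₂ c) := by
  classical
  have hu1 : IsUnit (p₁ u) := IsUnit.of_mul_eq_one (p₁ u') (by rw [← map_mul, huu', map_one])
  have hu2 : IsUnit (p₂ u) := IsUnit.of_mul_eq_one (p₂ u') (by rw [← map_mul, huu', map_one])
  have h21 : ∀ y ∈ J, p₂ y = 0 → p₁ y = 0 := by
    intro y hy h0
    have h := hJu y hy
    rw [map_mul, map_mul, map_pow, map_pow, h0, zero_pow hm.ne', mul_zero] at h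
    have h' : (p₁ y) ^ m = 0 := (hu1.mul_right_eq_zero).1 h
    exact IsNilpotent.eq_zero ⟨m, h'⟩
  have h12 : ∀ y ∈ J, p₁ y = 0 → p₂ y = 0 := by
    intro y hy h0
    have h := hJu y hy
    rw [map_mul, map_mul, map_pow, map_pow, h0, zero_pow hm.ne', mul_zero] at h
    have h' : (p₂ y) ^ m = 0 := (hu2.mul_right_eq_zero).1 h.symm
    exact IsNilpotent.eq_zero ⟨m, h'⟩
  let φ : Ct →ₗ[k] Z × Z := p₁.toLinearMap.prod p₂.toLinearMap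
  have hφ1 : ∀ c, (φ c).1 = p₁ c := fun _ => rfl
  have hφ2 : ∀ c, (φ c).2 = p₂ c := fun _ => rfl
  have hφ : Function.Surjective φ := by
    rintro ⟨a, b⟩
    obtain ⟨c, h1, h2⟩ := hsurj a b
    exact ⟨c, Prod.ext h1 h2⟩
  let N : Submodule k (Z × Z) := J.map φ
  have hN2 : Function.Injective ((LinearMap.snd k Z Z).domRestrict N) := by
    rw [← LinearMap.ker_eq_bot, LinearMap.ker_eq_bot']
    rintro ⟨_, y, hy, rfl⟩ h
    have h0 : p₂ y = 0 := h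
    apply Subtype.ext
    exact Prod.ext (h21 y hy h0) h0
  have hN1 : Function.Injective ((LinearMap.fst k Z Z).domRestrict N) := by
    rw [← LinearMap.ker_eq_bot, LinearMap.ker_eq_bot']
    rintro ⟨_, y, hy, rfl⟩ h
    have h0 : p₁ y = 0 := h
    apply Subtype.ext
    exact Prod.ext h0 (h12 y hy h0)
  have hdimN : finrank k N ≤ finrank k Z := LinearMap.finrank_le_finrank_of_injective hN2
  have hq := Submodule.finrank_quotient_add_finrank N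
  have hZZ : finrank k (Z × Z) = finrank k Z + finrank k Z := Module.finrank_prod
  let Q : (Ct ⧸ J) →ₗ[k] ((Z × Z) ⧸ N) := Submodule.mapQ J N φ (Submodule.le_comap_map φ J)
  have hQ : Function.Surjective Q := by
    intro x
    obtain ⟨w, rfl⟩ := Submodule.Quotient.mk_surjective N x
    obtain ⟨c, rfl⟩ := hφ w
    exact ⟨Submodule.Quotient.mk c, rfl⟩
  have hle : finrank k ((Z × Z) ⧸ N) ≤ finrank k (Ct ⧸ J) :=
    LinearMap.finrank_le_finrank_of_surjective hQ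
  refine ⟨by omega, fun hJle => ?_⟩
  have hNeq : finrank k N = finrank k Z := by omega
  have hQeq : finrank k (Ct ⧸ J) = finrank k ((Z × Z) ⧸ N) := by omega
  have hQinj : Function.Injective Q :=
    (LinearMap.injective_iff_surjective_of_finrank_eq_finrank hQeq).2 hQ
  have hmem : ∀ c, φ c ∈ N → c ∈ J := by
    intro c hc
    have h1 : Q (Submodule.Quotient.mk c) = 0 := by
      show Submodule.Quotient.mk (φ c) = 0
      exact (Submodule.Quotient.mk_eq_zero N).2 hc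
    have h2 : (Submodule.Quotient.mk c : Ct ⧸ J) = 0 := hQinj (by rw [h1, map_zero])
    exact (Submodule.Quotient.mk_eq_zero J).1 h2
  have hS2 : Function.Surjective ((LinearMap.snd k Z Z).domRestrict N) :=
    (LinearMap.injective_iff_surjective_of_finrank_eq_finrank hNeq).1 hN2
  have hS1 : Function.Surjective ((LinearMap.fst k Z Z).domRestrict N) :=
    (LinearMap.injective_iff_surjective_of_finrank_eq_finrank hNeq).1 hN1
  obtain ⟨⟨_, y₀, hy₀, rfl⟩, h1⟩ := hS2 1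
  have hy₀2 : p₂ y₀ = 1 := h1
  have key : ∀ c ∈ J, p₁ c = p₁ y₀ * p₂ c := by
    intro c hc
    obtain ⟨d, hd1, hd2⟩ := hsurj (p₂ c) (p₂ c)
    have hdy : d * y₀ ∈ J := hJC d y₀ (hd1.trans hd2.symm) hy₀
    have h0 : p₂ (c - d * y₀) = 0 := by rw [map_sub, map_mul, hd2, hy₀2, mul_one, sub_self]
    have h3 := h21 _ (J.sub_mem hc hdy) h0
    rw [map_sub, map_mul, hd1, sub_eq_zero] at h3
    rw [h3, mul_comm]
  obtain ⟨⟨_, y₁, hy₁, rfl⟩, h2⟩ := hS1 1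
  have hy₁1 : p₁ y₁ = 1 := h2
  have hunit : p₁ y₀ * p₂ y₁ = 1 := by rw [← key y₁ hy₁, hy₁1]
  refine ⟨Units.mkOfMulEqOne _ _ hunit, fun c => ⟨fun hc => key c hc, fun hc => ?_⟩⟩
  have hc' : p₁ c = p₁ y₀ * p₂ c := hc
  obtain ⟨d, hd1, hd2⟩ := hsurj (p₂ c) (p₂ c)
  have hdy : d * y₀ ∈ J := hJC d y₀ (hd1.trans hd2.symm) hy₀
  apply hmem
  refine ⟨d * y₀, hdy, Prod.ext ?_ ?_⟩
  · rw [hφ1, hφ1, map_mul, hd1, hc', mul_comm]
  · rw [hφ2, hφ2, map_mul, hd2, hy₀2, mul_one]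

theorem sfl_core {k Ct Z : Type*} [Field k] [CommRing Ct] [Algebra k Ct] [CommRing Z] [Algebra k Z]
    [IsReduced Z] [Module.Finite k Z]
    (p₁ p₂ : Ct →ₐ[k] Z) (hsurj : ∀ z₁ z₂ : Z, ∃ c, p₁ c = z₁ ∧ p₂ c = z₂)
    (m : ℕ) (hm : 0 < m) (u u' : Ct) (huu' : u * u' = 1)
    (J J' : Submodule k Ct)
    (hJC : ∀ c y, p₁ c = p₂ c → y ∈ J → c * y ∈ J)
    (hJ'C : ∀ c y, p₁ c = p₂ c → y ∈ J' → c * y ∈ J')
    (hJu : ∀ y ∈ J, p₁ (u * y ^ m) = p₂ (u * y ^ m))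
    (hJ'u : ∀ y ∈ J', p₁ (u' * y ^ m) = p₂ (u' * y ^ m))
    (hJJ' : ∀ y ∈ J, ∀ y' ∈ J', p₁ (y * y') = p₂ (y * y'))
    [Module.Finite k (Ct ⧸ J)] [Module.Finite k (Ct ⧸ J')]
    (hcount : finrank k (Ct ⧸ J) + finrank k (Ct ⧸ J') ≤ 2 * finrank k Z) :
    ∃ ξ : Zˣ, (∀ c, c ∈ J ↔ p₁ c = ξ * p₂ c) ∧ (∀ c, c ∈ J' ↔ p₁ c = ↑ξ⁻¹ * p₂ c) := by
  obtain ⟨h1, h1'⟩ := SFLCore.aux p₁ p₂ hsurj m hm u u' huu' J hJC hJu
  obtain ⟨h2, h2'⟩ := SFLCore.aux p₁ p₂ hsurj m hm u' u (by rw [mul_comm]; exact huu') J' hJ'C hJ'u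
  obtain ⟨ξ, hξ⟩ := h1' (by omega)
  obtain ⟨ξ', hξ'⟩ := h2' (by omega)
  obtain ⟨c, hc1, hc2⟩ := hsurj ξ 1
  obtain ⟨c', hc1', hc2'⟩ := hsurj ξ' 1
  have hcJ : c ∈ J := (hξ c).2 (by rw [hc1, hc2, mul_one])
  have hcJ' : c' ∈ J' := (hξ' c').2 (by rw [hc1', hc2', mul_one])
  have h := hJJ' c hcJ c' hcJ'
  rw [map_mul, map_mul, hc1, hc2, hc1', hc2', mul_one] at h
  have hinv : ξ' = ξ⁻¹ := by
    rw [eq_inv_iff_mul_eq_one, mul_comm]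
    exact Units.ext h
  subst hinv
  exact ⟨ξ, hξ, hξ'⟩

end Fermat.Agent.SS.G2
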