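import Fermat.Agent.SS.G2.Det
import Fermat.Agent.SS.G2.SFLCore

/-!
# SS / G2 : the special fibre lemma (`k[X]`-lattice form)

Mathlib only (+ `Det`, `SFLCore` as black boxes).  TASK `SS/G2-SFL`.

`Ct` a torsion free `k[X]`-algebra, `C = {p₁ = p₂} = ⊕ k[X] b_i`, `J = ∑ k[X] l_i`,
`J' = ∑ k[X] l'_i`, `t l_i = ∑ T_ij b_j`, `t' l'_i = ∑ T'_ij b_j`, `det T det T' ∣ (t t')^n`.

PROOF.  Give `Ct` and `Z` the `k`-structures `Module.compHom`/`RingHom.toAlgebra` through
`C : k → k[X]` (and `p₁`); `p₁, p₂` are `k`-algebra maps by `halg`.  Write `[V : U]` for the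
`k`-codimension of `U ≤ V ≤ Ct`.  It is additive in chains
(`Submodule.quotientQuotientEquivQuotient`, `Submodule.finrank_quotient_add_finrank`).
(0) `det T ≠ 0`, `det T' ≠ 0` (from `hdet`).
(1) `z := dim Z = [Ct : C]` (`p₁ - p₂ : Ct → Z` is onto with kernel `C`); it is finite: `C → Z`,
    `c ↦ p₁ c` is onto (`hsurj z z`) and kills `t₀ C`, and `[C : t₀ C] = n deg t₀` by `Det`
    (matrix `t₀ • 1`).
(2) `[C : t J] = deg det T` (`Det` for `Λ = C` with the basis `b`), `[C : t C] = n deg t`.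
(3) multiplication by `t` is injective (`htf`), so `[t Ct : t U] = [Ct : U]`.
(4) `[Ct : t C] = z + n deg t = [Ct : t Ct] + z`, so `[Ct : t Ct] = n deg t`.
(5) `[Ct : t J] = z + deg det T = [Ct : t Ct] + [Ct : J]`, so `[Ct : J] = z + deg det T - n deg t`.
(6) same for `J'`; `deg det T + deg det T' ≤ n (deg t + deg t')` by `hdet`.  Apply `sfl_core`.
-/

set_option autoImplicit false

open Polynomial Module

namespace Fermat.Agent.SS.G2

namespace SFL

/-- `0 → M'/P → M/τ(P) → M/τ(M') → 0` for an injective `τ`. -/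
theorem finrank_map {k R : Type*} [Field k] [CommRing R] [Algebra k R]
    {M' M : Type*} [AddCommGroup M'] [Module R M'] [Module k M'] [IsScalarTower k R M']
    [AddCommGroup M] [Module R M] [Module k M] [IsScalarTower k R M]
    (τ : M' →ₗ[R] M) (hτ : Function.Injective τ) (P : Submodule R M') :
    (Module.Finite k (M' ⧸ P) → Module.Finite k (M ⧸ LinearMap.range τ) →
      Module.Finite k (M ⧸ P.map τ)) ∧
    (Module.Finite k (M ⧸ P.map τ) → Module.Finite k (M' ⧸ P) ∧
      Module.Finite k (M ⧸ LinearMap.range τ) ∧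
      finrank k (M ⧸ P.map τ) = finrank k (M' ⧸ P) + finrank k (M ⧸ LinearMap.range τ)) := by
  let f : (M' ⧸ P) →ₗ[k] (M ⧸ P.map τ) :=
    (Submodule.mapQ P (P.map τ) τ (Submodule.le_comap_map τ P)).restrictScalars k
  let g : (M ⧸ P.map τ) →ₗ[k] (M ⧸ LinearMap.range τ) :=
    (Submodule.factor (LinearMap.map_le_range)).restrictScalars k
  have hf : Function.Injective f := by
    rw [← LinearMap.ker_eq_bot, LinearMap.ker_eq_bot']
    intro x hx
    obtain ⟨x, rfl⟩ := Submodule.Quotient.mk_surjective P x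
    have h1 : (Submodule.Quotient.mk (τ x) : M ⧸ P.map τ) = 0 := hx
    rw [Submodule.Quotient.mk_eq_zero] at h1 ⊢
    obtain ⟨y, hy, hyx⟩ := h1
    rwa [← hτ hyx]
  have hg : Function.Surjective g := by
    intro y
    obtain ⟨y, rfl⟩ := Submodule.Quotient.mk_surjective _ y
    exact ⟨Submodule.Quotient.mk y, rfl⟩
  have hker : LinearMap.ker g = LinearMap.range f := by
    ext y
    obtain ⟨y, rfl⟩ := Submodule.Quotient.mk_surjective _ y
    rw [LinearMap.mem_ker, LinearMap.mem_range]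
    constructor
    · intro h
      have h1 : (Submodule.Quotient.mk y : M ⧸ LinearMap.range τ) = 0 := h
      rw [Submodule.Quotient.mk_eq_zero] at h1
      obtain ⟨x, rfl⟩ := h1
      exact ⟨Submodule.Quotient.mk x, rfl⟩
    · rintro ⟨x, hx⟩
      obtain ⟨x, rfl⟩ := Submodule.Quotient.mk_surjective _ x
      rw [← hx]
      show (Submodule.Quotient.mk (τ x) : M ⧸ LinearMap.range τ) = 0
      rw [Submodule.Quotient.mk_eq_zero]
      exact ⟨x, rfl⟩
  constructor
  · intro h1 h3
    have h4 : Module.Finite k (LinearMap.ker g) := by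
      rw [hker]
      exact Module.Finite.range f
    have h5 : Module.Finite k ((M ⧸ P.map τ) ⧸ LinearMap.ker g) :=
      Module.Finite.equiv (g.quotKerEquivOfSurjective hg).symm
    exact Module.Finite.of_submodule_quotient (LinearMap.ker g)
  · intro h2
    refine ⟨Module.Finite.of_injective f hf, Module.Finite.of_surjective g hg, ?_⟩
    have h := LinearMap.finrank_range_add_finrank_ker g
    rw [LinearMap.range_eq_top.2 hg, finrank_top, hker, LinearMap.finrank_range_of_inj hf] at h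
    omega

/-- codimension in `M` of the lattice with matrix `T` relative to `b`. -/
theorem finrank_span_matrix {k : Type*} [Field k] {M : Type*} [AddCommGroup M] [Module k[X] M]
    [Module k M] [IsScalarTower k k[X] M] {n : ℕ} (b : Fin n → M)
    (hbi : LinearIndependent k[X] b)
    [Module.Finite k (M ⧸ Submodule.span k[X] (Set.range b))]
    (T : Matrix (Fin n) (Fin n) k[X]) (hT : T.det ≠ 0) :
    Module.Finite k (M ⧸ Submodule.span k[X] (Set.range fun i => ∑ j, T i j • b j)) ∧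
    finrank k (M ⧸ Submodule.span k[X] (Set.range fun i => ∑ j, T i j • b j)) =
      T.det.natDegree + finrank k (M ⧸ Submodule.span k[X] (Set.range b)) := by
  obtain ⟨hfin, hrank⟩ := finrank_quotient_span_eq_natDegree_det (Basis.span hbi) T hT
  have hmap : (Submodule.span k[X] (Set.range fun i => ∑ j, T i j • Basis.span hbi j)).map
      (Submodule.span k[X] (Set.range b)).subtype =
      Submodule.span k[X] (Set.range fun i => ∑ j, T i j • b j) := by
    rw [Submodule.map_span, ← Set.range_comp]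
    congr 2
    funext i
    simp [Basis.span_apply]
  obtain ⟨h1, h2⟩ := finrank_map (k := k) (Submodule.span k[X] (Set.range b)).subtype
    (Submodule.span k[X] (Set.range b)).injective_subtype
    (Submodule.span k[X] (Set.range fun i => ∑ j, T i j • Basis.span hbi j))
  rw [Submodule.range_subtype, hmap] at h1 h2
  have hfin2 := h1 hfin inferInstance
  exact ⟨hfin2, by rw [(h2 hfin2).2.2, hrank]⟩

/-- `[M : J] + n deg t = [M : C] + deg det T`. -/
theorem codim {k : Type*} [Field k] {M : Type*} [AddCommGroup M] [Module k[X] M]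
    [Module k M] [IsScalarTower k k[X] M]
    (htf : ∀ (r : k[X]) (c : M), r ≠ 0 → r • c = 0 → c = 0) {n : ℕ} (b l : Fin n → M)
    (hbi : LinearIndependent k[X] b)
    [Module.Finite k (M ⧸ Submodule.span k[X] (Set.range b))]
    (t : k[X]) (ht : t ≠ 0) (T : Matrix (Fin n) (Fin n) k[X])
    (hT : ∀ i, t • l i = ∑ j, T i j • b j) (hdet : T.det ≠ 0) :
    Module.Finite k (M ⧸ Submodule.span k[X] (Set.range l)) ∧
    finrank k (M ⧸ Submodule.span k[X] (Set.range l)) + n * t.natDegree =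
      finrank k (M ⧸ Submodule.span k[X] (Set.range b)) + T.det.natDegree := by
  classical
  let τ : M →ₗ[k[X]] M := LinearMap.lsmul k[X] M t
  have hτ : Function.Injective τ := by
    rw [← LinearMap.ker_eq_bot, LinearMap.ker_eq_bot']
    intro c hc
    exact htf t c ht hc
  have hmapspan : ∀ v : Fin n → M, (Submodule.span k[X] (Set.range v)).map τ =
      Submodule.span k[X] (Set.range fun i => t • v i) := by
    intro v
    rw [Submodule.map_span, ← Set.range_comp]
    rfl
  have hdet1 : (t • (1 : Matrix (Fin n) (Fin n) k[X])).det = t ^ n := by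
    simp
  obtain ⟨f1, r1⟩ := finrank_span_matrix (k := k) b hbi (t • (1 : Matrix (Fin n) (Fin n) k[X]))
    (by rw [hdet1]; exact pow_ne_zero _ ht)
  have e1 : (fun i => ∑ j, (t • (1 : Matrix (Fin n) (Fin n) k[X])) i j • b j) =
      fun i => t • b i := by
    funext i
    simp [Matrix.smul_apply, Matrix.one_apply, ite_smul]
  rw [e1, ← hmapspan b] at f1 r1
  rw [hdet1, natDegree_pow] at r1
  obtain ⟨-, g1⟩ := finrank_map (k := k) τ hτ (Submodule.span k[X] (Set.range b))
  obtain ⟨-, f3, r3⟩ := g1 f1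
  obtain ⟨f2, r2⟩ := finrank_span_matrix (k := k) b hbi T hdet
  have e2 : (fun i => ∑ j, T i j • b j) = fun i => t • l i := by
    funext i
    rw [hT]
  rw [e2, ← hmapspan l] at f2 r2
  obtain ⟨-, g2⟩ := finrank_map (k := k) τ hτ (Submodule.span k[X] (Set.range l))
  obtain ⟨f4, -, r4⟩ := g2 f2
  exact ⟨f4, by omega⟩

end SFL

theorem sfl {k Ct Z : Type*} [Field k] [CommRing Ct] [Algebra k[X] Ct] [CommRing Z] [IsReduced Z]
    (p₁ p₂ : Ct →+* Z) (hsurj : ∀ z₁ z₂ : Z, ∃ c, p₁ c = z₁ ∧ p₂ c = z₂)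
    (halg : ∀ r : k[X], p₁ (algebraMap k[X] Ct r) = p₂ (algebraMap k[X] Ct r))
    (t₀ : k[X]) (ht₀ : t₀ ≠ 0) (ht₀Z : p₁ (algebraMap k[X] Ct t₀) = 0)
    (htf : ∀ (r : k[X]) (c : Ct), r ≠ 0 → r • c = 0 → c = 0)
    (m : ℕ) (hm : 0 < m) (u u' : Ct) (huu' : u * u' = 1)
    (J J' : Submodule k[X] Ct)
    (hJC : ∀ c y, p₁ c = p₂ c → y ∈ J → c * y ∈ J)
    (hJ'C : ∀ c y, p₁ c = p₂ c → y ∈ J' → c * y ∈ J')
    (hJu : ∀ y ∈ J, p₁ (u * y ^ m) = p₂ (u * y ^ m))
    (hJ'u : ∀ y ∈ J', p₁ (u' * y ^ m) = p₂ (u' * y ^ m))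
    (hJJ' : ∀ y ∈ J, ∀ y' ∈ J', p₁ (y * y') = p₂ (y * y'))
    (n : ℕ) (b l l' : Fin n → Ct)
    (hb : ∀ c, p₁ c = p₂ c ↔ c ∈ Submodule.span k[X] (Set.range b))
    (hbi : LinearIndependent k[X] b)
    (hl : Submodule.span k[X] (Set.range l) = J) (hl' : Submodule.span k[X] (Set.range l') = J')
    (t t' : k[X]) (ht : t ≠ 0) (ht' : t' ≠ 0)
    (T T' : Matrix (Fin n) (Fin n) k[X])
    (hT : ∀ i, t • l i = ∑ j, T i j • b j) (hT' : ∀ i, t' • l' i = ∑ j, T' i j • b j)
    (hdet : T.det * T'.det ∣ (t * t') ^ n) :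
    ∃ ξ : Zˣ, (∀ c, c ∈ J ↔ p₁ c = ξ * p₂ c) ∧ (∀ c, c ∈ J' ↔ p₁ c = ↑ξ⁻¹ * p₂ c) := by
  classical
  let _ : Algebra k Ct := ((algebraMap k[X] Ct).comp (C : k →+* k[X])).toAlgebra
  have : IsScalarTower k k[X] Ct := IsScalarTower.of_algebraMap_eq (fun _ => rfl)
  let _ : Algebra k[X] Z := (p₁.comp (algebraMap k[X] Ct)).toAlgebra
  let _ : Algebra k Z := ((algebraMap k[X] Z).comp (C : k →+* k[X])).toAlgebra
  have : IsScalarTower k k[X] Z := IsScalarTower.of_algebraMap_eq (fun _ => rfl)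
  let P₁ : Ct →ₐ[k[X]] Z := { p₁ with commutes' := fun _ => rfl }
  let P₂ : Ct →ₐ[k[X]] Z := { p₂ with commutes' := fun r => (halg r).symm }
  have hP₁ : ∀ c, P₁ c = p₁ c := fun _ => rfl
  have hP₂ : ∀ c, P₂ c = p₂ c := fun _ => rfl
  -- `Ct / C ≃ Z`
  let D : Ct →ₗ[k[X]] Z := P₁.toLinearMap - P₂.toLinearMap
  have hD : Function.Surjective D := by
    intro z
    obtain ⟨c, h1, h2⟩ := hsurj z 0
    refine ⟨c, ?_⟩
    show p₁ c - p₂ c = z
    rw [h1, h2, sub_zero]
  have hker : LinearMap.ker D = Submodule.span k[X] (Set.range b) := by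
    ext c
    rw [LinearMap.mem_ker, ← hb c]
    show p₁ c - p₂ c = 0 ↔ _
    rw [sub_eq_zero]
  let eZ : (Ct ⧸ Submodule.span k[X] (Set.range b)) ≃ₗ[k[X]] Z :=
    (Submodule.quotEquivOfEq _ _ hker.symm).trans (D.quotKerEquivOfSurjective hD)
  -- `Z` is finite over `k`
  have hdet0 : (t₀ • (1 : Matrix (Fin n) (Fin n) k[X])).det ≠ 0 := by
    rw [Matrix.det_smul, Matrix.det_one, mul_one]
    exact pow_ne_zero _ ht₀
  obtain ⟨hfin0, -⟩ := finrank_quotient_span_eq_natDegree_det (k := k) (Basis.span hbi)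
    (t₀ • (1 : Matrix (Fin n) (Fin n) k[X])) hdet0
  have hZfin : Module.Finite k Z := by
    let F : ↥(Submodule.span k[X] (Set.range b)) →ₗ[k[X]] Z :=
      P₁.toLinearMap ∘ₗ (Submodule.span k[X] (Set.range b)).subtype
    have hF : Submodule.span k[X] (Set.range fun i =>
        ∑ j, (t₀ • (1 : Matrix (Fin n) (Fin n) k[X])) i j • Basis.span hbi j) ≤
        LinearMap.ker F := by
      rw [Submodule.span_le]
      rintro _ ⟨i, rfl⟩
      have e : ∑ j, (t₀ • (1 : Matrix (Fin n) (Fin n) k[X])) i j • Basis.span hbi j =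
          t₀ • Basis.span hbi i := by
        simp [Matrix.smul_apply, Matrix.one_apply, ite_smul]
      rw [SetLike.mem_coe, LinearMap.mem_ker]
      beta_reduce
      rw [e, map_smul, Algebra.smul_def]
      have h0 : algebraMap k[X] Z t₀ = 0 := ht₀Z
      rw [h0, zero_mul]
    have hsF : Function.Surjective ((Submodule.liftQ _ F hF).restrictScalars k) := by
      intro z
      obtain ⟨c, h1, h2⟩ := hsurj z z
      have hc : c ∈ Submodule.span k[X] (Set.range b) := (hb c).1 (h1.trans h2.symm)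
      exact ⟨Submodule.Quotient.mk ⟨c, hc⟩, h1⟩
    exact Module.Finite.of_surjective _ hsF
  have hfinB : Module.Finite k (Ct ⧸ Submodule.span k[X] (Set.range b)) :=
    Module.Finite.equiv (eZ.restrictScalars k).symm
  have hz : finrank k (Ct ⧸ Submodule.span k[X] (Set.range b)) = finrank k Z :=
    (eZ.restrictScalars k).finrank_eq
  -- determinants
  have htt : (t * t') ^ n ≠ 0 := pow_ne_zero _ (mul_ne_zero ht ht')
  have hTT : T.det * T'.det ≠ 0 := by
    intro h
    rw [h, zero_dvd_iff] at hdet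
    exact htt hdet
  have hdT : T.det ≠ 0 := left_ne_zero_of_mul hTT
  have hdT' : T'.det ≠ 0 := right_ne_zero_of_mul hTT
  obtain ⟨fJ, rJ⟩ := SFL.codim (k := k) htf b l hbi t ht T hT hdT
  obtain ⟨fJ', rJ'⟩ := SFL.codim (k := k) htf b l' hbi t' ht' T' hT' hdT'
  rw [hl] at fJ rJ
  rw [hl'] at fJ' rJ'
  have hdeg := natDegree_le_of_dvd hdet htt
  rw [natDegree_mul hdT hdT', natDegree_pow, natDegree_mul ht ht'] at hdeg
  have : Module.Finite k (Ct ⧸ J.restrictScalars k) :=
    Module.Finite.equiv (Submodule.Quotient.restrictScalarsEquiv k J).symm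
  have : Module.Finite k (Ct ⧸ J'.restrictScalars k) :=
    Module.Finite.equiv (Submodule.Quotient.restrictScalarsEquiv k J').symm
  have hcount : finrank k (Ct ⧸ J.restrictScalars k) + finrank k (Ct ⧸ J'.restrictScalars k) ≤
      2 * finrank k Z := by
    rw [(Submodule.Quotient.restrictScalarsEquiv k J).finrank_eq,
      (Submodule.Quotient.restrictScalarsEquiv k J').finrank_eq]
    rw [hz] at rJ rJ'
    have h3 : n * (t.natDegree + t'.natDegree) = n * t.natDegree + n * t'.natDegree := by ring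
    omega
  exact sfl_core (k := k) (P₁.restrictScalars k) (P₂.restrictScalars k) hsurj m hm u u' huu'
    (J.restrictScalars k) (J'.restrictScalars k) hJC hJ'C hJu hJ'u hJJ' hcount

end Fermat.Agent.SS.G2
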